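import Mathlib
import Fermat.Agent.H08.Kummer
import Fermat.Agent.H08.Congruence

/-!
# The addition-subtraction map on `x`-coordinates is what it claims to be

Projective version of the Kummer formulas, valid for all pairs of points.
-/

set_option autoImplicit false

namespace Fermat.Agent.Frob

open WeierstrassCurve WeierstrassCurve.Affine WeierstrassCurve.Affine.Point
open Fermat.Agent.H08

universe u

section forms

variable {R : Type*} [CommRing R] (W : WeierstrassCurve R)

/-- numerator of the product -/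
def as0 (s t u : R) : R := s ^ 2 - W.b₄ * s * u - W.b₆ * t * u - W.b₈ * u ^ 2
/-- numerator of the sum -/
def as1 (s t u : R) : R := 2 * t * s + W.b₂ * s * u + W.b₄ * t * u + W.b₆ * u ^ 2
/-- denominator -/
def as2 (s t u : R) : R := t ^ 2 - 4 * s * u

/-- The addition-subtraction map has no base points on an elliptic curve. -/
lemma eq_zero_of_as_eq_zero [IsReduced R] [W.IsElliptic] {s t u : R}
    (h0 : as0 W s t u = 0) (h1 : as1 W s t u = 0) (h2 : as2 s t u = 0) :
    s = 0 ∧ t = 0 ∧ u = 0 := by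
  by_contra hne
  have hx : (![s, t, u] : Fin 3 → R) ≠ 0 := by
    intro h
    apply hne
    refine ⟨?_, ?_, ?_⟩
    · simpa using congrFun h 0
    · simpa using congrFun h 1
    · simpa using congrFun h 2
  apply addSubMap_ne_zero W hx
  funext i
  fin_cases i
  · simp [addSubMap]; rw [← h0, as0]
  · simp [addSubMap]; rw [← h1, as1]
  · simp [addSubMap]; rw [← h2, as2]

end forms

section points

variable {F : Type u} [Field F] [DecidableEq F] {W : WeierstrassCurve.Affine F}

/-- first projective x-coordinate -/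
noncomputable def xa (P : W.Point) : F := P.xRep 0
/-- second projective x-coordinate -/
noncomputable def xb (P : W.Point) : F := P.xRep 1

omit [DecidableEq F] in
@[simp] lemma xa_zero : xa (0 : W.Point) = 1 := rfl
omit [DecidableEq F] in
@[simp] lemma xb_zero : xb (0 : W.Point) = 0 := rfl
omit [DecidableEq F] in
lemma xa_of_ne {P : W.Point} (hP : P ≠ 0) : xa P = px P := by
  obtain ⟨x, y, h, rfl⟩ := exists_eq_some hP; rfl
omit [DecidableEq F] in
lemma xb_of_ne {P : W.Point} (hP : P ≠ 0) : xb P = 1 := by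
  obtain ⟨x, y, h, rfl⟩ := exists_eq_some hP; rfl
omit [DecidableEq F] in
lemma xb_eq_zero_iff {P : W.Point} : xb P = 0 ↔ P = 0 := by
  constructor
  · intro h
    by_contra hP
    rw [xb_of_ne hP] at h; exact one_ne_zero h
  · rintro rfl; rfl
omit [DecidableEq F] in
lemma xa_neg (P : W.Point) : xa (-P) = xa P := by simp [xa]
omit [DecidableEq F] in
lemma xb_neg (P : W.Point) : xb (-P) = xb P := by simp [xb]

omit [DecidableEq F] in
lemma psi2_eq_zero_iff {P : W.Point} (hP : P ≠ 0) : psi2 P = 0 ↔ P = -P := by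
  obtain ⟨x, y, h, rfl⟩ := exists_eq_some hP
  rw [neg_some, some.injEq]
  simp only [psi2, px_some, py_some, negY, true_and]
  constructor
  · intro h'; linear_combination h'
  · intro h'; linear_combination h'

omit [DecidableEq F] in
lemma phiX_ne_zero {P : W.Point} (hP : P ≠ 0) (h : psi2 P = 0) : phiX P ≠ 0 := by
  obtain ⟨x, y, hns, rfl⟩ := exists_eq_some hP
  have h' := (nonsingular_iff' x y).mp hns
  simp only [psi2, px_some, py_some] at h
  rcases h'.2 with h1 | h1
  · intro h2
    simp only [phiX, px_some, py_some] at h2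
    apply h1; linear_combination -h2
  · exact absurd h h1

/-- **The addition-subtraction formula**, for all pairs of points. -/
theorem add_sub_formula (P Q : W.Point) : ∃ c : F, c ≠ 0 ∧
    xa (P + Q) * xa (P - Q)
      = c * as0 W (xa P * xa Q) (xa P * xb Q + xa Q * xb P) (xb P * xb Q) ∧
    xa (P + Q) * xb (P - Q) + xa (P - Q) * xb (P + Q)
      = c * as1 W (xa P * xa Q) (xa P * xb Q + xa Q * xb P) (xb P * xb Q) ∧
    xb (P + Q) * xb (P - Q)
      = c * as2 (xa P * xa Q) (xa P * xb Q + xa Q * xb P) (xb P * xb Q) := by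
  by_cases hP : P = 0
  · subst hP
    refine ⟨1, one_ne_zero, ?_, ?_, ?_⟩ <;>
      simp only [zero_add, zero_sub, xa_neg, xb_neg, xa_zero, xb_zero, as0, as1, as2] <;> ring
  by_cases hQ : Q = 0
  · subst hQ
    refine ⟨1, one_ne_zero, ?_, ?_, ?_⟩ <;>
      simp only [add_zero, sub_zero, xa_zero, xb_zero, as0, as1, as2] <;> ring
  -- duplication
  have key : ∀ P : W.Point, P ≠ 0 → ∃ c : F, c ≠ 0 ∧
      xa (P + P) = c * as0 W (px P * px P) (px P + px P) 1 ∧
      xb (P + P) = c * as1 W (px P * px P) (px P + px P) 1 ∧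
      (0 : F) = c * as2 (px P * px P) (px P + px P) 1 := by
    intro P hP
    have e0 : as0 W (px P * px P) (px P + px P) 1
        = px P ^ 4 - W.b₄ * px P ^ 2 - 2 * W.b₆ * px P - W.b₈ := by simp only [as0]; ring
    have e1 : as1 W (px P * px P) (px P + px P) 1
        = 4 * px P ^ 3 + W.b₂ * px P ^ 2 + 2 * W.b₄ * px P + W.b₆ := by simp only [as1]; ring
    have e2 : as2 (px P * px P) (px P + px P) 1 = 0 := by simp only [as2]; ring
    rw [e0, e1, e2]
    by_cases h2 : P + P = 0
    · have hψ : psi2 P = 0 := (psi2_eq_zero_iff hP).mpr (eq_neg_of_add_eq_zero_left h2)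
      have hφ := phiX_ne_zero hP hψ
      have hΦ : px P ^ 4 - W.b₄ * px P ^ 2 - 2 * W.b₆ * px P - W.b₈ = phiX P ^ 2 := by
        rw [phi2_eq hP, hψ]; ring
      refine ⟨(phiX P ^ 2)⁻¹, inv_ne_zero (pow_ne_zero 2 hφ), ?_, ?_, by ring⟩
      · rw [h2, xa_zero, hΦ, inv_mul_cancel₀ (pow_ne_zero 2 hφ)]
      · rw [h2, xb_zero, ← psi2_sq hP, hψ]; ring
    · have hψ : psi2 P ≠ 0 := fun h => h2 (by
        have := (psi2_eq_zero_iff hP).mp h
        nth_rewrite 2 [this]; exact add_neg_cancel P)
      have hd := px_double hP h2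
      rw [← psi2_sq hP] at hd ⊢
      refine ⟨(psi2 P ^ 2)⁻¹, inv_ne_zero (pow_ne_zero 2 hψ), ?_, ?_, by ring⟩
      · rw [xa_of_ne h2, ← hd]; field_simp
      · rw [xb_of_ne h2]; field_simp
  rw [xa_of_ne hP, xa_of_ne hQ, xb_of_ne hP, xb_of_ne hQ]
  simp only [mul_one]
  by_cases hPQ : px P = px Q
  · rcases (px_eq_iff hP hQ).mp hPQ with rfl | hneg
    · obtain ⟨c, hc, h0, h1, h2⟩ := key P hP
      refine ⟨c, hc, ?_, ?_, ?_⟩
      · rw [sub_self, xa_zero, mul_one]; exact h0
      · rw [sub_self, xb_zero, mul_zero, zero_add, xa_zero, one_mul]; exact h1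
      · rw [sub_self, xb_zero, mul_zero]; exact h2
    · have hQP : Q = -P := by rw [hneg, neg_neg]
      subst hQP
      obtain ⟨c, hc, h0, h1, h2⟩ := key P hP
      rw [px_neg]
      refine ⟨c, hc, ?_, ?_, ?_⟩
      · rw [add_neg_cancel, xa_zero, one_mul, sub_neg_eq_add]; exact h0
      · rw [add_neg_cancel, xb_zero, mul_zero, add_zero, xa_zero, one_mul, sub_neg_eq_add]
        exact h1
      · rw [add_neg_cancel, xb_zero, zero_mul]; exact h2
  · have h1 := add_ne_zero_of_px_ne hPQ
    have h2 := sub_ne_zero_of_px_ne hPQ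
    have hd : px P - px Q ≠ 0 := sub_ne_zero.mpr hPQ
    have hs := px_add_sub_sum hP hQ hPQ
    have hp := px_add_sub_prod hP hQ hPQ
    rw [xa_of_ne h1, xa_of_ne h2, xb_of_ne h1, xb_of_ne h2]
    refine ⟨((px P - px Q) ^ 2)⁻¹, inv_ne_zero (pow_ne_zero 2 hd), ?_, ?_, ?_⟩
    · rw [eq_comm, inv_mul_eq_iff_eq_mul₀ (pow_ne_zero 2 hd)]
      simp only [as0]; linear_combination -hp
    · rw [eq_comm, inv_mul_eq_iff_eq_mul₀ (pow_ne_zero 2 hd)]
      simp only [as1]; linear_combination -hs
    · rw [eq_comm, inv_mul_eq_iff_eq_mul₀ (pow_ne_zero 2 hd)]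
      simp only [as2]; ring

end points

end Fermat.Agent.Frob
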