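import Mathlib
import Fermat.Agent.Frob.AddSub

/-!
# Primitive vectors of polynomials and their degrees
-/

set_option autoImplicit false

namespace Fermat.Agent.Frob

open Polynomial

variable {K : Type*} [Field K]

/-- Unimodular triples. -/
def Prim3 (a b c : K[X]) : Prop := ∀ I : Ideal K[X], I.IsPrime → a ∈ I → b ∈ I → c ∈ I → False

/-- Unimodular pairs. -/
def Prim2 (a b : K[X]) : Prop := ∀ I : Ideal K[X], I.IsPrime → a ∈ I → b ∈ I → False

lemma prim2_iff {a b : K[X]} : Prim2 a b ↔ IsCoprime a b := by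
  constructor
  · intro h
    by_contra hc
    have hne : Ideal.span {a, b} ≠ ⊤ := by
      intro ht
      apply hc
      have := (Ideal.eq_top_iff_one _).mp ht
      rw [Ideal.mem_span_pair] at this
      obtain ⟨u, v, huv⟩ := this
      exact ⟨u, v, huv⟩
    obtain ⟨M, hM, hle⟩ := Ideal.exists_le_maximal _ hne
    exact h M hM.isPrime (hle (Ideal.subset_span (by simp))) (hle (Ideal.subset_span (by simp)))
  · rintro ⟨u, v, huv⟩ I hI ha hb
    apply hI.ne_top
    rw [Ideal.eq_top_iff_one, ← huv]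
    exact I.add_mem (I.mul_mem_left _ ha) (I.mul_mem_left _ hb)

lemma Prim3.exists_one {a b c : K[X]} (h : Prim3 a b c) :
    ∃ u v w : K[X], u * a + v * b + w * c = 1 := by
  have ht : Ideal.span {a, b, c} = ⊤ := by
    by_contra hne
    obtain ⟨M, hM, hle⟩ := Ideal.exists_le_maximal _ hne
    exact h M hM.isPrime (hle (Ideal.subset_span (by simp))) (hle (Ideal.subset_span (by simp)))
      (hle (Ideal.subset_span (by simp)))
  have := (Ideal.eq_top_iff_one _).mp ht
  rw [Ideal.mem_span_insert] at this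
  obtain ⟨u, z, hz, h1⟩ := this
  rw [Ideal.mem_span_pair] at hz
  obtain ⟨v, w, rfl⟩ := hz
  exact ⟨u, v, w, by rw [h1]; ring⟩

/-- maximum of the degrees of a triple -/
def deg3 (a b c : K[X]) : ℕ := max a.natDegree (max b.natDegree c.natDegree)

/-- maximum of the degrees of a pair -/
def deg2 (a b : K[X]) : ℕ := max a.natDegree b.natDegree

lemma exists_const_of_proportional {a b c a' b' c' : K[X]} (h : Prim3 a b c)
    (h' : Prim3 a' b' c')
    (hab : a * b' = a' * b) (hac : a * c' = a' * c) (hbc : b * c' = b' * c) :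
    ∃ k : K, k ≠ 0 ∧ a = C k * a' ∧ b = C k * b' ∧ c = C k * c' := by
  obtain ⟨u, v, w, h1⟩ := h.exists_one
  obtain ⟨u', v', w', h1'⟩ := h'.exists_one
  set e := u' * a + v' * b + w' * c with he
  set e' := u * a' + v * b' + w * c' with he'
  have ea : a = e * a' := by
    calc a = (u' * a' + v' * b' + w' * c') * a := by rw [h1', one_mul]
      _ = e * a' := by rw [he]; linear_combination v' * hab + w' * hac
  have eb : b = e * b' := by
    calc b = (u' * a' + v' * b' + w' * c') * b := by rw [h1', one_mul]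
      _ = e * b' := by rw [he]; linear_combination -u' * hab + w' * hbc
  have ec : c = e * c' := by
    calc c = (u' * a' + v' * b' + w' * c') * c := by rw [h1', one_mul]
      _ = e * c' := by rw [he]; linear_combination -u' * hac - v' * hbc
  have hee : e' * e = 1 := by
    calc e' * e = u * (e * a') + v * (e * b') + w * (e * c') := by rw [he']; ring
      _ = 1 := by rw [← ea, ← eb, ← ec, h1]
  have hu : IsUnit e := IsUnit.of_mul_eq_one e' (by rw [mul_comm]; exact hee)
  obtain ⟨k, hk, hke⟩ := Polynomial.isUnit_iff.mp hu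
  have hk0 : k ≠ 0 := hk.ne_zero
  exact ⟨k, hk0, by rw [hke]; exact ea, by rw [hke]; exact eb, by rw [hke]; exact ec⟩

lemma deg3_eq_of_proportional {a b c a' b' c' : K[X]} (h : Prim3 a b c) (h' : Prim3 a' b' c')
    (hab : a * b' = a' * b) (hac : a * c' = a' * c) (hbc : b * c' = b' * c) :
    deg3 a b c = deg3 a' b' c' := by
  obtain ⟨k, hk0, ea, eb, ec⟩ := exists_const_of_proportional h h' hab hac hbc
  rw [deg3, deg3, ea, eb, ec, natDegree_C_mul hk0, natDegree_C_mul hk0, natDegree_C_mul hk0]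

lemma deg2_eq_of_proportional {a b a' b' : K[X]} (h : Prim2 a b) (h' : Prim2 a' b')
    (hab : a * b' = a' * b) : deg2 a b = deg2 a' b' := by
  have := deg3_eq_of_proportional (a := a) (b := b) (c := 0) (a' := a') (b' := b') (c' := 0)
    (fun I hI h1 h2 _ => h I hI h1 h2) (fun I hI h1 h2 _ => h' I hI h1 h2) hab (by simp) (by simp)
  simpa [deg3, deg2] using this

/-- The symmetric product of unimodular pairs is unimodular. -/
lemma prim3_sym {X₁ Z₁ X₂ Z₂ : K[X]} (h₁ : Prim2 X₁ Z₁) (h₂ : Prim2 X₂ Z₂) :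
    Prim3 (X₁ * X₂) (X₁ * Z₂ + X₂ * Z₁) (Z₁ * Z₂) := by
  intro I hI ha hb hc
  rcases hI.mem_or_mem ha with hx | hx
  · rcases hI.mem_or_mem hc with hz | hz
    · exact h₁ I hI hx hz
    · have : X₂ * Z₁ ∈ I := by
        have := I.sub_mem hb (I.mul_mem_left X₁ hz)
        simpa using this
      rcases hI.mem_or_mem this with h | h
      · exact h₂ I hI h hz
      · exact h₁ I hI hx h
  · rcases hI.mem_or_mem hc with hz | hz
    · have : X₁ * Z₂ ∈ I := by
        have := I.sub_mem hb (I.mul_mem_left X₂ hz)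
        simpa using this
      rcases hI.mem_or_mem this with h | h
      · exact h₁ I hI h hz
      · exact h₂ I hI hx h
    · exact h₂ I hI hx hz

lemma coeff_pair_ne_zero {X₁ Z₁ : K[X]} (h : Prim2 X₁ Z₁) :
    X₁.coeff (deg2 X₁ Z₁) ≠ 0 ∨ Z₁.coeff (deg2 X₁ Z₁) ≠ 0 := by
  have h0 : X₁ ≠ 0 ∨ Z₁ ≠ 0 := by
    by_contra hc
    push Not at hc
    exact h ⊥ Ideal.isPrime_bot (by simp [hc.1]) (by simp [hc.2])
  by_contra hc
  push Not at hc
  rcases le_total X₁.natDegree Z₁.natDegree with hle | hle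
  · have e : deg2 X₁ Z₁ = Z₁.natDegree := max_eq_right hle
    rw [e] at hc
    have hz : Z₁ = 0 := leadingCoeff_eq_zero.mp hc.2
    rw [hz] at hle hc
    simp only [natDegree_zero, nonpos_iff_eq_zero] at hle
    have hx : X₁ = 0 := by
      rw [eq_C_of_natDegree_eq_zero hle]
      simp only [natDegree_zero] at hc
      rw [hc.1, C_0]
    rcases h0 with h0 | h0
    · exact h0 hx
    · exact h0 hz
  · have e : deg2 X₁ Z₁ = X₁.natDegree := max_eq_left hle
    rw [e] at hc
    have hx : X₁ = 0 := leadingCoeff_eq_zero.mp hc.1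
    rw [hx] at hle hc
    simp only [natDegree_zero, nonpos_iff_eq_zero] at hle
    have hz : Z₁ = 0 := by
      rw [eq_C_of_natDegree_eq_zero hle]
      simp only [natDegree_zero] at hc
      rw [hc.2, C_0]
    rcases h0 with h0 | h0
    · exact h0 hx
    · exact h0 hz

lemma deg3_eq_of_coeff {a b c : K[X]} {n : ℕ} (ha : a.natDegree ≤ n) (hb : b.natDegree ≤ n)
    (hc : c.natDegree ≤ n) (h : a.coeff n ≠ 0 ∨ b.coeff n ≠ 0 ∨ c.coeff n ≠ 0) :
    deg3 a b c = n := by
  apply le_antisymm
  · exact max_le ha (max_le hb hc)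
  · rcases h with h | h | h
    · exact (le_natDegree_of_ne_zero h).trans (le_max_left _ _)
    · exact (le_natDegree_of_ne_zero h).trans ((le_max_left _ _).trans (le_max_right _ _))
    · exact (le_natDegree_of_ne_zero h).trans ((le_max_right _ _).trans (le_max_right _ _))

lemma natDegree_le_deg2_left (a b : K[X]) : a.natDegree ≤ deg2 a b := le_max_left _ _
lemma natDegree_le_deg2_right (a b : K[X]) : b.natDegree ≤ deg2 a b := le_max_right _ _

/-- The degree of the symmetric product. -/
lemma deg3_sym {X₁ Z₁ X₂ Z₂ : K[X]} (h₁ : Prim2 X₁ Z₁) (h₂ : Prim2 X₂ Z₂) :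
    deg3 (X₁ * X₂) (X₁ * Z₂ + X₂ * Z₁) (Z₁ * Z₂) = deg2 X₁ Z₁ + deg2 X₂ Z₂ := by
  have a1 := natDegree_le_deg2_left X₁ Z₁
  have b1 := natDegree_le_deg2_right X₁ Z₁
  have a2 := natDegree_le_deg2_left X₂ Z₂
  have b2 := natDegree_le_deg2_right X₂ Z₂
  have c1 := coeff_pair_ne_zero h₁
  have c2 := coeff_pair_ne_zero h₂
  set m := deg2 X₁ Z₁
  set n := deg2 X₂ Z₂
  apply deg3_eq_of_coeff
  · exact natDegree_mul_le_of_le a1 a2
  · refine natDegree_add_le_of_degree_le (natDegree_mul_le_of_le a1 b2) ?_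
    rw [mul_comm]; exact natDegree_mul_le_of_le b1 a2
  · exact natDegree_mul_le_of_le b1 b2
  · have e1 : (X₁ * X₂).coeff (m + n) = X₁.coeff m * X₂.coeff n :=
      coeff_mul_add_eq_of_natDegree_le a1 a2
    have e2 : (X₁ * Z₂).coeff (m + n) = X₁.coeff m * Z₂.coeff n :=
      coeff_mul_add_eq_of_natDegree_le a1 b2
    have e3 : (X₂ * Z₁).coeff (m + n) = X₂.coeff n * Z₁.coeff m := by
      rw [add_comm]; exact coeff_mul_add_eq_of_natDegree_le a2 b1
    have e4 : (Z₁ * Z₂).coeff (m + n) = Z₁.coeff m * Z₂.coeff n :=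
      coeff_mul_add_eq_of_natDegree_le b1 b2
    rw [coeff_add, e1, e2, e3, e4]
    by_contra hc
    push Not at hc
    obtain ⟨h1, h2, h3⟩ := hc
    rcases mul_eq_zero.mp h1 with h | h
    · have hz1 := c1.resolve_left (not_not.mpr h)
      have hz2 : Z₂.coeff n = 0 := (mul_eq_zero.mp h3).resolve_left hz1
      rw [h, hz2] at h2
      simp only [mul_zero, zero_add, mul_eq_zero] at h2
      have hx2 := h2.resolve_right hz1
      exact (c2.resolve_left (not_not.mpr hx2)) hz2
    · have hz2 := c2.resolve_left (not_not.mpr h)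
      have hz1 : Z₁.coeff m = 0 := (mul_eq_zero.mp h3).resolve_right hz2
      rw [h, hz1] at h2
      simp only [mul_zero, add_zero, mul_eq_zero] at h2
      have hx1 := h2.resolve_right hz2
      exact (c1.resolve_left (not_not.mpr hx1)) hz1

end Fermat.Agent.Frob
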