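import Mathlib
import Fermat.Agent.Frob.Prim

/-!
# The addition-subtraction map on unimodular vectors of polynomials
-/

set_option autoImplicit false

namespace Fermat.Agent.Frob

open Polynomial WeierstrassCurve

variable {K : Type*} [Field K] (W : WeierstrassCurve K)

lemma as0_map {R S : Type*} [CommRing R] [CommRing S] (W : WeierstrassCurve R) (f : R →+* S)
    (s t u : R) : f (as0 W s t u) = as0 (W.map f) (f s) (f t) (f u) := by
  simp [as0, map_b₄, map_b₆, map_b₈]

lemma as1_map {R S : Type*} [CommRing R] [CommRing S] (W : WeierstrassCurve R) (f : R →+* S)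
    (s t u : R) : f (as1 W s t u) = as1 (W.map f) (f s) (f t) (f u) := by
  simp [as1, map_b₂, map_b₄, map_b₆, map_ofNat f 2]

lemma as2_map {R S : Type*} [CommRing R] [CommRing S] (f : R →+* S)
    (s t u : R) : f (as2 s t u) = as2 (f s) (f t) (f u) := by
  simp [as2, map_ofNat f 4]

lemma prim3_as [W.IsElliptic] {s t u : K[X]} (h : Prim3 s t u) :
    Prim3 (as0 (W.map C) s t u) (as1 (W.map C) s t u) (as2 s t u) := by
  intro I hI h0 h1 h2
  rw [← Ideal.Quotient.eq_zero_iff_mem] at h0 h1 h2
  rw [as0_map] at h0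
  rw [as1_map] at h1
  rw [as2_map] at h2
  obtain ⟨hs, ht, hu⟩ := eq_zero_of_as_eq_zero ((W.map C).map (Ideal.Quotient.mk I)) h0 h1 h2
  rw [Ideal.Quotient.eq_zero_iff_mem] at hs ht hu
  exact h I hI hs ht hu

lemma coeff_triple_ne_zero {a b c : K[X]} (h : Prim3 a b c) :
    a.coeff (deg3 a b c) ≠ 0 ∨ b.coeff (deg3 a b c) ≠ 0 ∨ c.coeff (deg3 a b c) ≠ 0 := by
  by_contra hc
  push Not at hc
  obtain ⟨ha, hb, hc⟩ := hc
  have ha' : a.natDegree ≤ deg3 a b c := le_max_left _ _
  have hb' : b.natDegree ≤ deg3 a b c := (le_max_left _ _).trans (le_max_right _ _)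
  have hc' : c.natDegree ≤ deg3 a b c := (le_max_right _ _).trans (le_max_right _ _)
  have key : ∀ p : K[X], p.natDegree ≤ deg3 a b c → p.coeff (deg3 a b c) = 0 →
      p = 0 ∨ p.natDegree < deg3 a b c := by
    intro p hp hp0
    by_cases h0 : p = 0
    · exact Or.inl h0
    · right
      refine lt_of_le_of_ne hp fun he => ?_
      rw [← he] at hp0
      exact h0 (leadingCoeff_eq_zero.mp hp0)
  rcases Nat.eq_zero_or_pos (deg3 a b c) with h0 | h0
  · have z : ∀ p : K[X], p.natDegree ≤ deg3 a b c → p.coeff (deg3 a b c) = 0 → p = 0 := by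
      intro p hp hp0
      rcases key p hp hp0 with h | h
      · exact h
      · omega
    exact h ⊥ Ideal.isPrime_bot (by simp [z a ha' ha]) (by simp [z b hb' hb])
      (by simp [z c hc' hc])
  · have z : ∀ p : K[X], p.natDegree ≤ deg3 a b c → p.coeff (deg3 a b c) = 0 →
        p.natDegree < deg3 a b c := by
      intro p hp hp0
      rcases key p hp hp0 with h | h
      · rw [h]; simpa using h0
      · exact h
    have : deg3 a b c < deg3 a b c := by
      conv_lhs => rw [deg3]
      exact max_lt (z a ha' ha) (max_lt (z b hb' hb) (z c hc' hc))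
    exact lt_irrefl _ this

/-- The addition-subtraction map doubles the degree. -/
lemma deg3_as [W.IsElliptic] {s t u : K[X]} (h : Prim3 s t u) :
    deg3 (as0 (W.map C) s t u) (as1 (W.map C) s t u) (as2 s t u) = 2 * deg3 s t u := by
  have hs : s.natDegree ≤ deg3 s t u := le_max_left _ _
  have ht : t.natDegree ≤ deg3 s t u := (le_max_left _ _).trans (le_max_right _ _)
  have hu : u.natDegree ≤ deg3 s t u := (le_max_right _ _).trans (le_max_right _ _)
  have hc := coeff_triple_ne_zero h
  set n := deg3 s t u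
  have m2 : ∀ {p q : K[X]}, p.natDegree ≤ n → q.natDegree ≤ n → (p * q).natDegree ≤ 2 * n := by
    intro p q hp hq
    rw [two_mul]; exact natDegree_mul_le_of_le hp hq
  have m3 : ∀ (k : K) {p : K[X]}, p.natDegree ≤ 2 * n → (C k * p).natDegree ≤ 2 * n := by
    intro k p hp
    exact (natDegree_C_mul_le k p).trans hp
  have c2 : ∀ {p q : K[X]}, p.natDegree ≤ n → q.natDegree ≤ n →
      (p * q).coeff (2 * n) = p.coeff n * q.coeff n := by
    intro p q hp hq
    rw [two_mul]; exact coeff_mul_add_eq_of_natDegree_le hp hq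
  have e0 : as0 (W.map C) s t u
      = s * s - C W.b₄ * (s * u) - C W.b₆ * (t * u) - C W.b₈ * (u * u) := by
    rw [as0, map_b₄, map_b₆, map_b₈]; ring
  have e1 : as1 (W.map C) s t u
      = C 2 * (t * s) + C W.b₂ * (s * u) + C W.b₄ * (t * u) + C W.b₆ * (u * u) := by
    rw [as1, map_b₂, map_b₄, map_b₆]; simp only [map_ofNat]; ring
  have e2 : as2 s t u = t * t - C 4 * (s * u) := by
    rw [as2]; simp only [map_ofNat]; ring
  apply deg3_eq_of_coeff
  · rw [e0]
    refine natDegree_sub_le_of_le (natDegree_sub_le_of_le (natDegree_sub_le_of_le (m2 hs hs)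
      (m3 _ (m2 hs hu))) (m3 _ (m2 ht hu))) (m3 _ (m2 hu hu)) |>.trans ?_
    simp
  · rw [e1]
    refine natDegree_add_le_of_degree_le (natDegree_add_le_of_degree_le
      (natDegree_add_le_of_degree_le (m3 _ (m2 ht hs)) (m3 _ (m2 hs hu))) (m3 _ (m2 ht hu)))
      (m3 _ (m2 hu hu))
  · rw [e2]
    refine natDegree_sub_le_of_le (m2 ht ht) (m3 _ (m2 hs hu)) |>.trans ?_
    simp
  · have k0 : (as0 (W.map C) s t u).coeff (2 * n)
        = as0 W (s.coeff n) (t.coeff n) (u.coeff n) := by
      rw [e0]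
      simp only [coeff_sub, coeff_C_mul, c2 hs hs, c2 hs hu, c2 ht hu, c2 hu hu, as0]
      ring
    have k1 : (as1 (W.map C) s t u).coeff (2 * n)
        = as1 W (s.coeff n) (t.coeff n) (u.coeff n) := by
      rw [e1]
      simp only [coeff_add, coeff_C_mul, c2 ht hs, c2 hs hu, c2 ht hu, c2 hu hu, as1]
      ring
    have k2 : (as2 s t u).coeff (2 * n)
        = as2 (s.coeff n) (t.coeff n) (u.coeff n) := by
      rw [e2]
      simp only [coeff_sub, coeff_C_mul, c2 ht ht, c2 hs hu, as2]
      ring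
    rw [k0, k1, k2]
    by_contra hcon
    push Not at hcon
    obtain ⟨h0, h1, h2⟩ := hcon
    obtain ⟨z0, z1, z2⟩ := eq_zero_of_as_eq_zero W h0 h1 h2
    rcases hc with h | h | h
    · exact h z0
    · exact h z1
    · exact h z2

end Fermat.Agent.Frob
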