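import Mathlib
import Fermat.Agent.Frob.PrimAS

/-!
# The degree of the `x`-coordinate is a quadratic function
-/

set_option autoImplicit false

namespace Fermat.Agent.Frob

open Polynomial WeierstrassCurve WeierstrassCurve.Affine WeierstrassCurve.Affine.Point
open Fermat.Agent.H08

universe u

variable {K : Type*} {L : Type u} [Field K] [Field L] (ι : K[X] →+* L)
  {E : WeierstrassCurve.Affine L}

/-- `(X : Z)` is a unimodular representative of the `x`-coordinate of `P`. -/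
def Rep (P : E.Point) (X Z : K[X]) : Prop := Prim2 X Z ∧ xa P * ι Z = xb P * ι X

variable {ι}

lemma Rep.ne_zero {P : E.Point} {X Z : K[X]} (h : Rep ι P X Z) : X ≠ 0 ∨ Z ≠ 0 := by
  by_contra hc
  push Not at hc
  exact h.1 ⊥ Ideal.isPrime_bot (by simp [hc.1]) (by simp [hc.2])

lemma Rep.scalar (hι : Function.Injective ι) {P : E.Point} {X Z : K[X]} (h : Rep ι P X Z) :
    ∃ k : L, k ≠ 0 ∧ xa P = k * ι X ∧ xb P = k * ι Z := by
  have h0 := h.ne_zero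
  obtain ⟨-, h⟩ := h
  by_cases hP : P = 0
  · subst hP
    rw [xa_zero, xb_zero, one_mul, zero_mul] at h
    have hZ : Z = 0 := hι (by rw [h, _root_.map_zero])
    have hX : X ≠ 0 := h0.resolve_right (not_not.mpr hZ)
    have hX' : ι X ≠ 0 := fun h => hX (hι (by rw [h, _root_.map_zero]))
    refine ⟨(ι X)⁻¹, inv_ne_zero hX', ?_, ?_⟩
    · rw [xa_zero, inv_mul_cancel₀ hX']
    · rw [xb_zero, h, mul_zero]
  · rw [xb_of_ne hP, one_mul] at h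
    have hZ' : ι Z ≠ 0 := by
      intro hz
      rw [hz, mul_zero] at h
      have hX : X = 0 := hι (by rw [← h, _root_.map_zero])
      have hZ : Z = 0 := hι (by rw [hz, _root_.map_zero])
      rcases h0 with h0 | h0
      · exact h0 hX
      · exact h0 hZ
    refine ⟨(ι Z)⁻¹, inv_ne_zero hZ', ?_, ?_⟩
    · rw [← h, mul_comm (xa P), ← mul_assoc, inv_mul_cancel₀ hZ', one_mul]
    · rw [xb_of_ne hP, inv_mul_cancel₀ hZ']

lemma Rep.unique (hι : Function.Injective ι) {P : E.Point} {X Z X' Z' : K[X]}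
    (h : Rep ι P X Z) (h' : Rep ι P X' Z') : deg2 X Z = deg2 X' Z' := by
  obtain ⟨k, hk, h1, h2⟩ := h.scalar hι
  obtain ⟨k', hk', h1', h2'⟩ := h'.scalar hι
  apply deg2_eq_of_proportional h.1 h'.1
  apply hι
  rw [map_mul, map_mul]
  apply mul_left_cancel₀ hk
  apply mul_left_cancel₀ hk'
  calc k' * (k * (ι X * ι Z')) = (k * ι X) * (k' * ι Z') := by ring
    _ = (k' * ι X') * (k * ι Z) := by rw [← h1, ← h2', ← h1', ← h2]
    _ = k' * (k * (ι X' * ι Z)) := by ring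

lemma as0_smul {R : Type*} [CommRing R] (W : WeierstrassCurve R) (k s t u : R) :
    as0 W (k * s) (k * t) (k * u) = k ^ 2 * as0 W s t u := by simp only [as0]; ring
lemma as1_smul {R : Type*} [CommRing R] (W : WeierstrassCurve R) (k s t u : R) :
    as1 W (k * s) (k * t) (k * u) = k ^ 2 * as1 W s t u := by simp only [as1]; ring
lemma as2_smul {R : Type*} [CommRing R] (k s t u : R) :
    as2 (k * s) (k * t) (k * u) = k ^ 2 * as2 s t u := by simp only [as2]; ring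

/-- The addition-subtraction formula in terms of unimodular polynomials. -/
theorem add_sub_poly [DecidableEq L] (hι : Function.Injective ι) (E0 : WeierstrassCurve K)
    [E0.IsElliptic] (hE : E = (E0.map C).map ι) {P Q : E.Point} {X₁ Z₁ X₂ Z₂ X₃ Z₃ X₄ Z₄ : K[X]}
    (h₁ : Rep ι P X₁ Z₁) (h₂ : Rep ι Q X₂ Z₂) (h₃ : Rep ι (P + Q) X₃ Z₃)
    (h₄ : Rep ι (P - Q) X₄ Z₄) :
    ∃ k : K, k ≠ 0 ∧
      X₃ * X₄ = C k * as0 (E0.map C) (X₁ * X₂) (X₁ * Z₂ + X₂ * Z₁) (Z₁ * Z₂) ∧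
      X₃ * Z₄ + X₄ * Z₃ = C k * as1 (E0.map C) (X₁ * X₂) (X₁ * Z₂ + X₂ * Z₁) (Z₁ * Z₂) ∧
      Z₃ * Z₄ = C k * as2 (X₁ * X₂) (X₁ * Z₂ + X₂ * Z₁) (Z₁ * Z₂) := by
  obtain ⟨c, hc, f0, f1, f2⟩ := add_sub_formula P Q
  obtain ⟨k₁, hk₁, a₁, b₁⟩ := h₁.scalar hι
  obtain ⟨k₂, hk₂, a₂, b₂⟩ := h₂.scalar hι
  obtain ⟨k₃, hk₃, a₃, b₃⟩ := h₃.scalar hι
  obtain ⟨k₄, hk₄, a₄, b₄⟩ := h₄.scalar hι
  have hp := prim3_sym h₁.1 h₂.1
  have hp' := prim3_sym h₃.1 h₄.1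
  have hq := prim3_as E0 hp
  have es : xa P * xa Q = (k₁ * k₂) * ι (X₁ * X₂) := by rw [a₁, a₂, map_mul]; ring
  have et : xa P * xb Q + xa Q * xb P = (k₁ * k₂) * ι (X₁ * Z₂ + X₂ * Z₁) := by
    rw [a₁, a₂, b₁, b₂, map_add, map_mul, map_mul]; ring
  have eu : xb P * xb Q = (k₁ * k₂) * ι (Z₁ * Z₂) := by rw [b₁, b₂, map_mul]; ring
  have hE0 : ∀ s t u : K[X], as0 E (ι s) (ι t) (ι u) = ι (as0 (E0.map C) s t u) := by
    intro s t u; rw [as0_map, hE]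
  have hE1 : ∀ s t u : K[X], as1 E (ι s) (ι t) (ι u) = ι (as1 (E0.map C) s t u) := by
    intro s t u; rw [as1_map, hE]
  rw [es, et, eu, as0_smul, hE0, a₃, a₄] at f0
  rw [es, et, eu, as1_smul, hE1, a₃, a₄, b₃, b₄] at f1
  rw [es, et, eu, as2_smul, ← as2_map, b₃, b₄] at f2
  set U0 := as0 (E0.map C) (X₁ * X₂) (X₁ * Z₂ + X₂ * Z₁) (Z₁ * Z₂)
  set U1 := as1 (E0.map C) (X₁ * X₂) (X₁ * Z₂ + X₂ * Z₁) (Z₁ * Z₂)
  set U2 := as2 (X₁ * X₂) (X₁ * Z₂ + X₂ * Z₁) (Z₁ * Z₂)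
  have g0 : (k₃ * k₄) * ι (X₃ * X₄) = (c * (k₁ * k₂) ^ 2) * ι U0 := by
    rw [map_mul]; linear_combination f0
  have g1 : (k₃ * k₄) * ι (X₃ * Z₄ + X₄ * Z₃) = (c * (k₁ * k₂) ^ 2) * ι U1 := by
    rw [map_add, map_mul, map_mul]; linear_combination f1
  have g2 : (k₃ * k₄) * ι (Z₃ * Z₄) = (c * (k₁ * k₂) ^ 2) * ι U2 := by
    rw [map_mul]; linear_combination f2
  have hk34 : k₃ * k₄ ≠ 0 := mul_ne_zero hk₃ hk₄
  have hlam : c * (k₁ * k₂) ^ 2 ≠ 0 := mul_ne_zero hc (pow_ne_zero 2 (mul_ne_zero hk₁ hk₂))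
  have cross : ∀ {V V' U U' : K[X]}, (k₃ * k₄) * ι V = (c * (k₁ * k₂) ^ 2) * ι U →
      (k₃ * k₄) * ι V' = (c * (k₁ * k₂) ^ 2) * ι U' → V * U' = U * V' := by
    intro V V' U U' e e'
    apply hι
    rw [map_mul, map_mul]
    apply mul_left_cancel₀ hk34
    apply mul_left_cancel₀ hlam
    calc c * (k₁ * k₂) ^ 2 * (k₃ * k₄ * (ι V * ι U'))
        = (k₃ * k₄ * ι V) * (c * (k₁ * k₂) ^ 2 * ι U') := by ring
      _ = (c * (k₁ * k₂) ^ 2 * ι U) * (k₃ * k₄ * ι V') := by rw [e, e']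
      _ = c * (k₁ * k₂) ^ 2 * (k₃ * k₄ * (ι U * ι V')) := by ring
  exact exists_const_of_proportional hp' hq (cross g0 g1) (cross g0 g2) (cross g1 g2)

/-- **The parallelogram law.** -/
theorem parallelogram [DecidableEq L] (hι : Function.Injective ι) (E0 : WeierstrassCurve K)
    [E0.IsElliptic] (hE : E = (E0.map C).map ι) {P Q : E.Point} {X₁ Z₁ X₂ Z₂ X₃ Z₃ X₄ Z₄ : K[X]}
    (h₁ : Rep ι P X₁ Z₁) (h₂ : Rep ι Q X₂ Z₂) (h₃ : Rep ι (P + Q) X₃ Z₃)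
    (h₄ : Rep ι (P - Q) X₄ Z₄) :
    deg2 X₃ Z₃ + deg2 X₄ Z₄ = 2 * deg2 X₁ Z₁ + 2 * deg2 X₂ Z₂ := by
  obtain ⟨k, hk, e0, e1, e2⟩ := add_sub_poly hι E0 hE h₁ h₂ h₃ h₄
  have hp := prim3_sym h₁.1 h₂.1
  have hdeg := deg3_sym h₃.1 h₄.1
  rw [deg3, e0, e1, e2, natDegree_C_mul hk, natDegree_C_mul hk, natDegree_C_mul hk] at hdeg
  have h2 := deg3_as E0 hp
  rw [deg3_sym h₁.1 h₂.1, deg3] at h2
  omega

/-- Existence of representatives: the `x`-coordinate is a quotient of polynomials. -/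
lemma exists_rep (hι : Function.Injective ι) {P : E.Point}
    (h : P = 0 ∨ ∃ X Z : K[X], Z ≠ 0 ∧ px P * ι Z = ι X) : ∃ X Z, Rep ι P X Z := by
  classical
  by_cases hP : P = 0
  · subst hP
    refine ⟨1, 0, ?_, ?_⟩
    · intro I hI h1 _
      exact hI.ne_top ((Ideal.eq_top_iff_one I).mpr h1)
    · simp
  · obtain ⟨X, Z, hZ, hXZ⟩ := h.resolve_left hP
    obtain ⟨g, X', Z', hg, hcop, rfl, rfl⟩ : ∃ g X' Z' : K[X], g ≠ 0 ∧ IsCoprime X' Z' ∧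
        X = g * X' ∧ Z = g * Z' := by
      letI := EuclideanDomain.gcdMonoid K[X]
      obtain ⟨x', z', hx, hz, hu⟩ := extract_gcd X Z
      refine ⟨GCDMonoid.gcd X Z, x', z', ?_, (gcd_isUnit_iff _ _).mp hu, hx, hz⟩
      intro h0
      exact hZ ((gcd_eq_zero_iff _ _).mp h0).2
    refine ⟨X', Z', prim2_iff.mpr hcop, ?_⟩
    rw [xa_of_ne hP, xb_of_ne hP, one_mul]
    have hg' : ι g ≠ 0 := fun h => hg (hι (by rw [h, _root_.map_zero]))
    apply mul_left_cancel₀ hg'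
    rw [map_mul, map_mul] at hXZ
    linear_combination hXZ

end Fermat.Agent.Frob
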