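import Mathlib

/-!
# Functions satisfying the parallelogram law
-/

set_option autoImplicit false

namespace Fermat.Agent.Frob

variable {G : Type*} [AddCommGroup G] {h : G → ℤ}

/-- the polar form -/
def polarB (h : G → ℤ) (P Q : G) : ℤ := h (P + Q) - h P - h Q

lemma polarB_comm (P Q : G) : polarB h P Q = polarB h Q P := by
  simp only [polarB]; rw [add_comm P Q]; ring

section

variable (hp : ∀ P Q : G, h (P + Q) + h (P - Q) = 2 * h P + 2 * h Q)
include hp

lemma par_zero : h 0 = 0 := by
  have := hp 0 0
  simp at this; omega

lemma par_neg (P : G) : h (-P) = h P := by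
  have := hp 0 P
  rw [zero_add, zero_sub, par_zero hp] at this; omega

lemma polarB_add_left (P P' Q : G) : polarB h (P + P') Q = polarB h P Q + polarB h P' Q := by
  have key : ∀ P R Q : G, polarB h (P + R) Q + polarB h (P - R) Q = 2 * polarB h P Q := by
    intro P R Q
    simp only [polarB]
    have h1 := hp (P + Q) R
    have h2 := hp P R
    rw [show P + R + Q = P + Q + R by abel, show P - R + Q = P + Q - R by abel]
    linarith
  have h0 : polarB h 0 Q = 0 := by simp only [polarB, zero_add, par_zero hp]; ring
  have hdouble : ∀ P : G, polarB h (P + P) Q = 2 * polarB h P Q := by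
    intro P
    have := key P P Q
    rw [sub_self, h0] at this; linarith
  have h3 := key (P + P') (P - P') Q
  rw [show P + P' + (P - P') = P + P by abel, show P + P' - (P - P') = P' + P' by abel,
    hdouble, hdouble] at h3
  linarith

lemma polarB_add_right (P Q Q' : G) : polarB h P (Q + Q') = polarB h P Q + polarB h P Q' := by
  rw [polarB_comm, polarB_add_left hp, polarB_comm Q, polarB_comm Q']

lemma polarB_zero_left (Q : G) : polarB h 0 Q = 0 := by
  simp only [polarB, zero_add, par_zero hp]; ring

lemma polarB_neg_left (P Q : G) : polarB h (-P) Q = - polarB h P Q := by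
  have := polarB_add_left hp P (-P) Q
  rw [add_neg_cancel, polarB_zero_left hp] at this; linarith

lemma polarB_nsmul_left (n : ℕ) (P Q : G) : polarB h (n • P) Q = n * polarB h P Q := by
  induction n with
  | zero => simp [polarB_zero_left hp]
  | succ n ih => rw [succ_nsmul, polarB_add_left hp, ih]; push_cast; ring

lemma polarB_zsmul_left (n : ℤ) (P Q : G) : polarB h (n • P) Q = n * polarB h P Q := by
  obtain ⟨m, rfl | rfl⟩ := n.eq_nat_or_neg
  · rw [natCast_zsmul, polarB_nsmul_left hp]
  · rw [neg_smul, natCast_zsmul, polarB_neg_left hp, polarB_nsmul_left hp]; ring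

lemma polarB_zsmul_right (n : ℤ) (P Q : G) : polarB h P (n • Q) = n * polarB h P Q := by
  rw [polarB_comm, polarB_zsmul_left hp, polarB_comm]

lemma polarB_self (P : G) : polarB h P P = 2 * h P := by
  have := hp P P
  rw [sub_self, par_zero hp] at this
  simp only [polarB]; linarith

lemma h_add (P Q : G) : h (P + Q) = h P + h Q + polarB h P Q := by
  simp only [polarB]; ring

lemma h_zsmul (n : ℤ) (P : G) : h (n • P) = n ^ 2 * h P := by
  have h1 := polarB_self hp (n • P)
  rw [polarB_zsmul_left hp, polarB_zsmul_right hp, polarB_self hp] at h1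
  nlinarith

lemma h_sub (P Q : G) : h (P - Q) = h P + h Q - polarB h P Q := by
  have := hp P Q
  have := h_add hp P Q
  linarith

/-- The quadratic form on three elements. -/
lemma h_three (x y z : ℤ) (P Q R : G) : h (x • P + y • Q + z • R)
    = x ^ 2 * h P + y ^ 2 * h Q + z ^ 2 * h R + x * y * polarB h P Q + x * z * polarB h P R
      + y * z * polarB h Q R := by
  rw [h_add hp, h_add hp, h_zsmul hp, h_zsmul hp, h_zsmul hp, polarB_add_left hp,
    polarB_zsmul_left hp, polarB_zsmul_right hp, polarB_zsmul_left hp, polarB_zsmul_right hp,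
    polarB_zsmul_left hp, polarB_zsmul_right hp]
  ring

end

end Fermat.Agent.Frob
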