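import Mathlib
import Fermat.Agent.Frob.Height
import Fermat.Agent.Frob.QuadLemma
import Fermat.Agent.H08.InertiaTrivial

/-!
# The generic point and the degree function
-/

set_option autoImplicit false

namespace Fermat.Agent.Frob

open Polynomial WeierstrassCurve WeierstrassCurve.Affine WeierstrassCurve.Affine.Point
open Fermat.Agent.H08

universe u

variable {F : Type*} {K : Type*} {L : Type u} [Field F] [Field K] [Field L]
  [Algebra F K] [Algebra K L] [Algebra F L]

/-- A field `L = K(x, y)` generated by a generic point of `W`. -/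
structure Gen (W : WeierstrassCurve.Affine F) (K : Type*) (L : Type u) [Field K] [Field L]
    [Algebra F K] [Algebra K L] [Algebra F L] where
  x : L
  y : L
  eqn : (W⁄L).Equation x y
  inj : ∀ p : K[X], aeval x p = 0 → p = 0
  τ : L →ₐ[K] L
  τx : τ x = x
  τy : τ y = -y - (W⁄L).a₁ * x - (W⁄L).a₃
  fixed : ∀ z : L, τ z = z → ∃ X Z : K[X], Z ≠ 0 ∧ z * aeval x Z = aeval x X
  lift : ∀ X Y : L, (W⁄L).Equation X Y → (∀ p : K[X], aeval X p = 0 → p = 0) →
    ∃ s : L →ₐ[K] L, s x = X ∧ s y = Y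

variable [IsScalarTower F K L] {W : WeierstrassCurve.Affine F}

section

variable {A B : Type*} [Field A] [Field B] [Algebra F A] [Algebra F B]

lemma px_map [DecidableEq A] [DecidableEq B] (f : A →ₐ[F] B) (P : (W⁄A).Point) :
    px (Point.map f P) = f (px P) := by
  rcases P with _ | ⟨x, y, h⟩
  · exact (_root_.map_zero f).symm
  · rfl

lemma py_map [DecidableEq A] [DecidableEq B] (f : A →ₐ[F] B) (P : (W⁄A).Point) :
    py (Point.map f P) = f (py P) := by
  rcases P with _ | ⟨x, y, h⟩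
  · exact (_root_.map_zero f).symm
  · rfl

lemma map_ne_zero' [DecidableEq A] [DecidableEq B] (f : A →ₐ[F] B) {P : (W⁄A).Point}
    (hP : P ≠ 0) : Point.map f P ≠ 0 := by
  obtain ⟨x, y, h, rfl⟩ := exists_eq_some hP
  exact some_ne_zero _

lemma map_eq_zero_iff' [DecidableEq A] [DecidableEq B] (f : A →ₐ[F] B) {P : (W⁄A).Point} :
    Point.map f P = 0 ↔ P = 0 := by
  constructor
  · intro h; by_contra hP; exact map_ne_zero' f hP h
  · rintro rfl; exact _root_.map_zero _

end

namespace Gen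

variable (g : Gen W K L)

/-- evaluation at the generic `x` -/
noncomputable def ι : K[X] →+* L := (aeval g.x : K[X] →ₐ[K] L).toRingHom

omit [IsScalarTower F K L] in
lemma ι_apply (p : K[X]) : g.ι p = aeval g.x p := rfl

omit [IsScalarTower F K L] in
lemma ι_inj : Function.Injective g.ι := by
  rw [injective_iff_map_eq_zero]
  exact g.inj

omit [IsScalarTower F K L] in
lemma ι_C (k : K) : g.ι (C k) = algebraMap K L k := by rw [ι_apply, aeval_C]

omit [IsScalarTower F K L] in
lemma ι_X : g.ι X = g.x := by rw [ι_apply, aeval_X]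

lemma hE : (W⁄L) = (((W⁄K) : WeierstrassCurve K).map C).map g.ι := by
  have h : algebraMap F L = (g.ι.comp C).comp (algebraMap F K) := by
    ext r
    simp only [RingHom.coe_comp, Function.comp_apply, ι_C]
    rw [← IsScalarTower.algebraMap_apply]
  exact congrArg W.map h

set_option linter.unusedSectionVars false

variable [DecidableEq L]

/-- the generic point -/
noncomputable def Q [W.IsElliptic] : (W⁄L).Point :=
  haveI : (W⁄L).IsElliptic := inferInstanceAs (W.map (algebraMap F L)).IsElliptic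
  Point.some g.x g.y (equation_iff_nonsingular.mp g.eqn)

omit [DecidableEq L] [IsScalarTower F K L] in
@[simp] lemma px_Q [W.IsElliptic] : px g.Q = g.x := rfl
omit [DecidableEq L] [IsScalarTower F K L] in
@[simp] lemma py_Q [W.IsElliptic] : py g.Q = g.y := rfl
omit [DecidableEq L] [IsScalarTower F K L] in
lemma Q_ne_zero [W.IsElliptic] : g.Q ≠ 0 := some_ne_zero _

/-- the conjugation as an `F`-algebra map -/
noncomputable def τF : L →ₐ[F] L := g.τ.restrictScalars F

/-- The group of points on which the conjugation acts by `-1`. -/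
noncomputable def Gm : AddSubgroup (W⁄L).Point where
  carrier := {P | Point.map g.τF P = -P}
  add_mem' := by
    intro P Q hP hQ
    simp only [Set.mem_ofPred_eq] at *
    rw [map_add, hP, hQ, neg_add]
  zero_mem' := by simp
  neg_mem' := by
    intro P hP
    simp only [Set.mem_ofPred_eq] at *
    rw [map_neg, hP]

lemma mem_Gm {P : (W⁄L).Point} : P ∈ g.Gm ↔ Point.map g.τF P = -P := Iff.rfl

lemma Q_mem [W.IsElliptic] : g.Q ∈ g.Gm := by
  rw [mem_Gm]
  rcases (px_eq_iff (map_ne_zero' g.τF g.Q_ne_zero) g.Q_ne_zero).mp (by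
    rw [px_map, px_Q]; exact g.τx) with h | h
  · have h1 : g.y = -g.y - (W⁄L).a₁ * g.x - (W⁄L).a₃ := by
      have h2 := congrArg py h
      rw [py_map, py_Q] at h2
      exact h2.symm.trans g.τy
    rw [h]
    have hne := g.Q_ne_zero
    have : psi2 g.Q = 0 := by
      rw [psi2, px_Q, py_Q]; linear_combination h1
    exact (psi2_eq_zero_iff hne).mp this
  · exact h

lemma exists_rep_of_mem {P : (W⁄L).Point} (hP : P ∈ g.Gm) : ∃ X Z, Rep g.ι P X Z := by
  apply exists_rep g.ι_inj
  by_cases h0 : P = 0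
  · exact Or.inl h0
  · right
    have h1 : g.τ (px P) = px P := by
      have := congrArg px (g.mem_Gm.mp hP)
      rw [px_map, px_neg] at this
      exact this
    exact g.fixed _ h1

open Classical in
/-- The degree function. -/
noncomputable def ht (P : (W⁄L).Point) : ℤ :=
  if h : ∃ XZ : K[X] × K[X], Rep g.ι P XZ.1 XZ.2 then (deg2 h.choose.1 h.choose.2 : ℕ) else 0

lemma ht_eq {P : (W⁄L).Point} {X Z : K[X]} (h : Rep g.ι P X Z) : g.ht P = (deg2 X Z : ℕ) := by
  have hex : ∃ XZ : K[X] × K[X], Rep g.ι P XZ.1 XZ.2 := ⟨(X, Z), h⟩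
  rw [ht, dif_pos hex]
  exact_mod_cast hex.choose_spec.unique g.ι_inj h

lemma ht_nonneg (P : (W⁄L).Point) : 0 ≤ g.ht P := by
  rw [ht]; split_ifs <;> simp

theorem ht_parallelogram [W.IsElliptic] {P Q : (W⁄L).Point} (hP : P ∈ g.Gm) (hQ : Q ∈ g.Gm) :
    g.ht (P + Q) + g.ht (P - Q) = 2 * g.ht P + 2 * g.ht Q := by
  obtain ⟨X₁, Z₁, h₁⟩ := g.exists_rep_of_mem hP
  obtain ⟨X₂, Z₂, h₂⟩ := g.exists_rep_of_mem hQ
  obtain ⟨X₃, Z₃, h₃⟩ := g.exists_rep_of_mem (g.Gm.add_mem hP hQ)
  obtain ⟨X₄, Z₄, h₄⟩ := g.exists_rep_of_mem (g.Gm.sub_mem hP hQ)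
  rw [g.ht_eq h₁, g.ht_eq h₂, g.ht_eq h₃, g.ht_eq h₄]
  have : (W⁄K).IsElliptic := inferInstanceAs (W.map (algebraMap F K)).IsElliptic
  exact_mod_cast parallelogram g.ι_inj (W⁄K) g.hE h₁ h₂ h₃ h₄

lemma ht_Q [W.IsElliptic] : g.ht g.Q = 1 := by
  have : Rep g.ι g.Q X 1 := by
    refine ⟨prim2_iff.mpr isCoprime_one_right, ?_⟩
    rw [xa_of_ne g.Q_ne_zero, xb_of_ne g.Q_ne_zero, map_one, mul_one, one_mul, ι_X, px_Q]
  rw [g.ht_eq this, deg2]
  simp

end Gen

end Fermat.Agent.Frob
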