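import Mathlib
import Fermat.Agent.Frob.Generic

/-!
# The function field has a generic point
-/

set_option autoImplicit false

namespace Fermat.Agent.Frob

open Polynomial WeierstrassCurve WeierstrassCurve.Affine WeierstrassCurve.Affine.Point
open Fermat.Agent.H08
open scoped Polynomial.Bivariate

universe u

section

variable {K : Type u} [Field K] (E : WeierstrassCurve.Affine K)
variable {L : Type u} [Field L] [Algebra E.CoordinateRing L] [IsFractionRing E.CoordinateRing L]
  [Algebra K L] [IsScalarTower K E.CoordinateRing L]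

/-- generic `x` -/
noncomputable def gx (L : Type u) [Field L] [Algebra E.CoordinateRing L] : L :=
  algebraMap E.CoordinateRing L (algebraMap K[X] E.CoordinateRing X)

/-- generic `y` -/
noncomputable def gy (L : Type u) [Field L] [Algebra E.CoordinateRing L] : L :=
  algebraMap E.CoordinateRing L (CoordinateRing.mk E Y)

set_option linter.unusedSectionVars false

omit [IsFractionRing E.CoordinateRing L] in
lemma aeval_gx (p : K[X]) : aeval (gx E L) p =
    algebraMap E.CoordinateRing L (algebraMap K[X] E.CoordinateRing p) := by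
  rw [gx, aeval_algebraMap_apply, aeval_algebraMap_apply, aeval_X_left_apply]

lemma gx_inj (p : K[X]) (h : aeval (gx E L) p = 0) : p = 0 := by
  rw [aeval_gx] at h
  have h1 := (injective_iff_map_eq_zero _).mp (IsFractionRing.injective E.CoordinateRing L) _ h
  have h2 : p • (1 : E.CoordinateRing) + (0 : K[X]) • CoordinateRing.mk E Y = 0 := by
    rw [zero_smul, add_zero, Algebra.smul_def, mul_one]; exact h1
  exact (CoordinateRing.smul_basis_eq_zero h2).1

lemma mk_C (p : K[X]) : CoordinateRing.mk E (C p) = algebraMap K[X] E.CoordinateRing p := rfl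

omit [IsFractionRing E.CoordinateRing L] in
lemma g_eqn : gy E L ^ 2 + algebraMap K L E.a₁ * gx E L * gy E L + algebraMap K L E.a₃ * gy E L =
    gx E L ^ 3 + algebraMap K L E.a₂ * gx E L ^ 2 + algebraMap K L E.a₄ * gx E L
      + algebraMap K L E.a₆ := by
  have h : CoordinateRing.mk E (Y ^ 2 + C (C E.a₁ * X + C E.a₃) * Y -
      C (X ^ 3 + C E.a₂ * X ^ 2 + C E.a₄ * X + C E.a₆)) = 0 := AdjoinRoot.mk_self
  have h1 := congrArg (algebraMap E.CoordinateRing L) h
  simp only [map_add, map_sub, map_mul, map_pow, _root_.map_zero, mk_C] at h1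
  have hc : ∀ a : K, algebraMap E.CoordinateRing L (algebraMap K[X] E.CoordinateRing (C a))
      = algebraMap K L a := by
    intro a
    rw [IsScalarTower.algebraMap_apply K E.CoordinateRing L,
      IsScalarTower.algebraMap_apply K K[X] E.CoordinateRing]
    rfl
  simp only [hc] at h1
  rw [← gx, ← gy] at h1
  linear_combination h1

lemma exists_basis (z : E.CoordinateRing) : ∃ p q : K[X],
    algebraMap E.CoordinateRing L z = aeval (gx E L) p + aeval (gx E L) q * gy E L := by
  obtain ⟨p, q, rfl⟩ := CoordinateRing.exists_smul_basis_eq z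
  refine ⟨p, q, ?_⟩
  rw [aeval_gx, aeval_gx, gy, map_add, Algebra.smul_def, Algebra.smul_def, mul_one, map_mul]

/-- the conjugate of an element of the coordinate ring -/
lemma exists_conj (z : E.CoordinateRing) (hz : z ≠ 0) : ∃ (w : E.CoordinateRing) (N : K[X]),
    N ≠ 0 ∧ z * w = algebraMap K[X] E.CoordinateRing N := by
  obtain ⟨p, q, rfl⟩ := CoordinateRing.exists_smul_basis_eq z
  refine ⟨CoordinateRing.mk E (C p + C q * (-(Y : K[X][Y]) - C (C E.a₁ * X + C E.a₃))),
    Algebra.norm K[X] (p • 1 + q • CoordinateRing.mk E Y), ?_, ?_⟩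
  · intro h0
    exact hz ((Algebra.norm_eq_zero_iff_of_basis (CoordinateRing.basis E)).mp h0)
  · have h := CoordinateRing.coe_norm_smul_basis (W' := E) p q
    refine Eq.trans ?_ h.symm
    rw [map_mul]
    congr 1
    rw [map_add, map_mul, mk_C, mk_C, Algebra.smul_def, Algebra.smul_def, mul_one]

/-- lifting a point to a map -/
lemma exists_hom {X' Y' : L}
    (heq : Y' ^ 2 + algebraMap K L E.a₁ * X' * Y' + algebraMap K L E.a₃ * Y' =
      X' ^ 3 + algebraMap K L E.a₂ * X' ^ 2 + algebraMap K L E.a₄ * X' + algebraMap K L E.a₆)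
    (hX : ∀ p : K[X], aeval X' p = 0 → p = 0) :
    ∃ s : L →ₐ[K] L, s (gx E L) = X' ∧ s (gy E L) = Y' := by
  have hroot : E.polynomial.eval₂ ((aeval X' : K[X] →ₐ[K] L) : K[X] →+* L) Y' = 0 := by
    rw [WeierstrassCurve.Affine.polynomial]
    simp only [eval₂_add, eval₂_sub, eval₂_mul, eval₂_pow, eval₂_X, eval₂_C, RingHom.coe_coe,
      map_add, map_mul, map_pow, aeval_X, aeval_C]
    linear_combination heq
  let g : E.CoordinateRing →ₐ[K] L := AdjoinRoot.liftAlgHom _ (aeval X') Y' hroot
  have hgX : ∀ p : K[X], g (algebraMap K[X] E.CoordinateRing p) = aeval X' p := by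
    intro p
    exact AdjoinRoot.liftAlgHom_of _ _ _ _ _
  have hgY : g (CoordinateRing.mk E Y) = Y' := AdjoinRoot.liftAlgHom_root _ _ _ _
  have hinj : Function.Injective g := by
    rw [injective_iff_map_eq_zero]
    intro z hz
    by_contra hne
    obtain ⟨w, N, hN, hw⟩ := exists_conj E z hne
    apply hN
    apply hX
    rw [← hgX, ← hw, map_mul, hz, zero_mul]
  refine ⟨IsFractionRing.liftAlgHom (K := L) hinj, ?_, ?_⟩
  · rw [IsFractionRing.liftAlgHom_apply, gx]
    rw [IsFractionRing.lift_algebraMap]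
    exact (hgX X).trans (aeval_X X')
  · rw [IsFractionRing.liftAlgHom_apply, gy]
    rw [IsFractionRing.lift_algebraMap]
    exact hgY

/-- `y` is not equal to its conjugate -/
lemma y_ne_conj [E.IsElliptic] :
    gy E L + gy E L + algebraMap K L E.a₁ * gx E L + algebraMap K L E.a₃ ≠ 0 := by
  intro h
  have hc : ∀ a : K, algebraMap E.CoordinateRing L (algebraMap K[X] E.CoordinateRing (C a))
      = algebraMap K L a := by
    intro a
    rw [IsScalarTower.algebraMap_apply K E.CoordinateRing L,
      IsScalarTower.algebraMap_apply K K[X] E.CoordinateRing]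
    rfl
  have h1 : algebraMap E.CoordinateRing L ((C E.a₁ * X + C E.a₃ : K[X]) • (1 : E.CoordinateRing)
      + (2 : K[X]) • CoordinateRing.mk E Y) = 0 := by
    rw [map_add, Algebra.smul_def, Algebra.smul_def, mul_one, map_mul, map_ofNat, map_ofNat,
      map_add, map_add, map_mul, map_mul, hc, hc, ← gx, ← gy]
    linear_combination h
  have h2 := (injective_iff_map_eq_zero _).mp (IsFractionRing.injective E.CoordinateRing L) _ h1
  obtain ⟨h3, h4⟩ := CoordinateRing.smul_basis_eq_zero h2
  have ha1 : E.a₁ = 0 := by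
    have := congrArg (fun p => coeff p 1) h3
    simpa using this
  have ha3 : E.a₃ = 0 := by
    have := congrArg (fun p => coeff p 0) h3
    simpa using this
  have h20 : (2 : K) = 0 := by
    have h5 : (C (2 : K) : K[X]) = 0 := by rw [C_ofNat]; exact h4
    exact C_eq_zero.mp h5
  have hΔ : E.Δ = 0 := by
    have hb2 : E.b₂ = 0 := by rw [WeierstrassCurve.b₂, ha1]; linear_combination 2 * E.a₂ * h20
    have hb4 : E.b₄ = 0 := by rw [WeierstrassCurve.b₄, ha1]; linear_combination E.a₄ * h20
    have hb6 : E.b₆ = 0 := by rw [WeierstrassCurve.b₆, ha3]; linear_combination 2 * E.a₆ * h20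
    rw [WeierstrassCurve.Δ, hb2, hb4, hb6]; ring
  exact (WeierstrassCurve.isUnit_Δ E).ne_zero hΔ

end

section

variable {F : Type*} {K : Type u} [Field F] [Field K] [Algebra F K]
  (W : WeierstrassCurve.Affine F) [W.IsElliptic] (L : Type u) [Field L]
  [Algebra (W⁄K).CoordinateRing L] [IsFractionRing (W⁄K).CoordinateRing L]
  [Algebra K L] [IsScalarTower K (W⁄K).CoordinateRing L] [Algebra F L] [IsScalarTower F K L]

set_option linter.unusedSectionVars false

lemma exists_hom' {X' Y' : L} (heq : (W⁄L).Equation X' Y')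
    (hX : ∀ p : K[X], aeval X' p = 0 → p = 0) :
    ∃ s : L →ₐ[K] L, s (gx (W⁄K) L) = X' ∧ s (gy (W⁄K) L) = Y' := by
  apply exists_hom (W⁄K) _ hX
  have h := (equation_iff _ _).mp heq
  have e : ∀ a : F, algebraMap F L a = algebraMap K L (algebraMap F K a) :=
    fun a => IsScalarTower.algebraMap_apply F K L a
  have e1 : (W⁄L).a₁ = algebraMap K L (W⁄K).a₁ := e _
  have e2 : (W⁄L).a₂ = algebraMap K L (W⁄K).a₂ := e _
  have e3 : (W⁄L).a₃ = algebraMap K L (W⁄K).a₃ := e _
  have e4 : (W⁄L).a₄ = algebraMap K L (W⁄K).a₄ := e _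
  have e6 : (W⁄L).a₆ = algebraMap K L (W⁄K).a₆ := e _
  rw [e1, e2, e3, e4, e6] at h
  exact h

lemma g_eqn' : (W⁄L).Equation (gx (W⁄K) L) (gy (W⁄K) L) := by
  rw [equation_iff]
  have e : ∀ a : F, algebraMap F L a = algebraMap K L (algebraMap F K a) :=
    fun a => IsScalarTower.algebraMap_apply F K L a
  have e1 : (W⁄L).a₁ = algebraMap K L (W⁄K).a₁ := e _
  have e2 : (W⁄L).a₂ = algebraMap K L (W⁄K).a₂ := e _
  have e3 : (W⁄L).a₃ = algebraMap K L (W⁄K).a₃ := e _
  have e4 : (W⁄L).a₄ = algebraMap K L (W⁄K).a₄ := e _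
  have e6 : (W⁄L).a₆ = algebraMap K L (W⁄K).a₆ := e _
  rw [e1, e2, e3, e4, e6]
  exact g_eqn (W⁄K)

lemma exists_tau : ∃ s : L →ₐ[K] L, s (gx (W⁄K) L) = gx (W⁄K) L ∧
    s (gy (W⁄K) L) = -gy (W⁄K) L - (W⁄L).a₁ * gx (W⁄K) L - (W⁄L).a₃ := by
  have h := ((W⁄L).equation_neg (gx (W⁄K) L) (gy (W⁄K) L)).mpr (g_eqn' (K := K) W L)
  exact exists_hom' W L h (gx_inj (W⁄K))

/-- The generic point of the function field. -/
noncomputable def genFF : Gen W K L where
  x := gx (W⁄K) L
  y := gy (W⁄K) L
  eqn := g_eqn' W L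
  inj := gx_inj (W⁄K)
  τ := (exists_tau W L).choose
  τx := (exists_tau W L).choose_spec.1
  τy := (exists_tau W L).choose_spec.2
  fixed := by
    have hE : (W⁄K).IsElliptic := inferInstanceAs (W.map (algebraMap F K)).IsElliptic
    intro z hz
    obtain ⟨τx, τy⟩ := (exists_tau (K := K) W L).choose_spec
    set τ := (exists_tau (K := K) W L).choose
    obtain ⟨a, d, hd, rfl⟩ := IsFractionRing.div_surjective (A := (W⁄K).CoordinateRing) z
    have hd0 : d ≠ 0 := nonZeroDivisors.ne_zero hd
    obtain ⟨w, N, hN, hw⟩ := exists_conj (W⁄K) d hd0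
    have hdL : algebraMap (W⁄K).CoordinateRing L d ≠ 0 := by
      intro h
      exact hd0 ((injective_iff_map_eq_zero _).mp
        (IsFractionRing.injective (W⁄K).CoordinateRing L) _ h)
    obtain ⟨p, q, hpq⟩ := exists_basis (L := L) (W⁄K) (a * w)
    have hNL : aeval (gx (W⁄K) L) N = algebraMap (W⁄K).CoordinateRing L d
        * algebraMap (W⁄K).CoordinateRing L w := by
      rw [aeval_gx, ← hw, map_mul]
    have h1 : (algebraMap (W⁄K).CoordinateRing L a / algebraMap (W⁄K).CoordinateRing L d)
        * aeval (gx (W⁄K) L) N = aeval (gx (W⁄K) L) p + aeval (gx (W⁄K) L) q * gy (W⁄K) L := by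
      rw [← hpq, hNL, map_mul]; field_simp
    have hτ : ∀ r : K[X], τ (aeval (gx (W⁄K) L) r) = aeval (gx (W⁄K) L) r := by
      intro r
      rw [← aeval_algHom_apply, τx]
    have h2 := congrArg τ h1
    rw [map_mul, hz, hτ, map_add, map_mul, hτ, hτ, τy, h1] at h2
    have hq : aeval (gx (W⁄K) L) q = 0 := by
      by_contra hq
      apply y_ne_conj (L := L) (W⁄K)
      have e : ∀ a : F, algebraMap F L a = algebraMap K L (algebraMap F K a) :=
        fun a => IsScalarTower.algebraMap_apply F K L a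
      have e1 : (W⁄L).a₁ = algebraMap K L (W⁄K).a₁ := e _
      have e3 : (W⁄L).a₃ = algebraMap K L (W⁄K).a₃ := e _
      rw [e1, e3] at h2
      apply mul_left_cancel₀ hq
      linear_combination h2
    refine ⟨p, N, hN, ?_⟩
    rw [h1, hq, zero_mul, add_zero]
  lift := fun X' Y' h1 h2 => exists_hom' W L h1 h2

end

end Fermat.Agent.Frob
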