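import Mathlib
import Fermat.Agent.Frob.Prim

/-!
# Composition of rational functions: degrees
-/

set_option autoImplicit false

namespace Fermat.Agent.Frob

open Polynomial

variable {K : Type*} [Field K]

/-- homogenisation of `p` in degree `m`, evaluated at `(U, V)` -/
noncomputable def hz {R : Type*} [CommRing R] [Algebra K R] (p : K[X]) (m : ℕ) (U V : R) : R :=
  ∑ i ∈ Finset.range (m + 1), algebraMap K R (p.coeff i) * U ^ i * V ^ (m - i)

lemma hz_map {R S : Type*} [CommRing R] [CommRing S] [Algebra K R] [Algebra K S] (f : R →ₐ[K] S)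
    (p : K[X]) (m : ℕ) (U V : R) : f (hz p m U V) = hz p m (f U) (f V) := by
  simp only [hz, map_sum, map_mul, map_pow, AlgHom.commutes]

lemma hz_eq_of_ne_zero {R : Type*} [Field R] [Algebra K R] {p : K[X]} {m : ℕ}
    (hp : p.natDegree ≤ m) (U : R) {V : R} (hV : V ≠ 0) :
    hz p m U V = V ^ m * aeval (U / V) p := by
  rw [aeval_eq_sum_range' (Nat.lt_succ_of_le hp), hz, Finset.mul_sum]
  apply Finset.sum_congr rfl
  intro i hi
  have him : i ≤ m := Nat.lt_succ_iff.mp (Finset.mem_range.mp hi)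
  rw [Algebra.smul_def, div_pow]
  have : V ^ m = V ^ (m - i) * V ^ i := by rw [← pow_add, Nat.sub_add_cancel him]
  rw [this]
  field_simp

lemma hz_zero_right {R : Type*} [CommRing R] [Algebra K R] (p : K[X]) (m : ℕ) (U : R) :
    hz p m U 0 = algebraMap K R (p.coeff m) * U ^ m := by
  rw [hz, Finset.sum_range_succ, Finset.sum_eq_zero, zero_add, Nat.sub_self, pow_zero, mul_one]
  intro i hi
  have : m - i ≠ 0 := by have := Finset.mem_range.mp hi; omega
  rw [zero_pow this, mul_zero]

lemma hz_not_both_zero {R : Type*} [Field R] [Algebra K R] {X Z : K[X]} (h : Prim2 X Z)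
    {u v : R} (huv : u ≠ 0 ∨ v ≠ 0) (h1 : hz X (deg2 X Z) u v = 0)
    (h2 : hz Z (deg2 X Z) u v = 0) : False := by
  by_cases hv : v = 0
  · have hu := huv.resolve_right (not_not.mpr hv)
    subst hv
    rw [hz_zero_right] at h1 h2
    have hum : u ^ (deg2 X Z) ≠ 0 := pow_ne_zero _ hu
    have e1 : X.coeff (deg2 X Z) = 0 := by
      have := (mul_eq_zero.mp h1).resolve_right hum
      exact (map_eq_zero_iff _ (algebraMap K R).injective).mp this
    have e2 : Z.coeff (deg2 X Z) = 0 := by
      have := (mul_eq_zero.mp h2).resolve_right hum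
      exact (map_eq_zero_iff _ (algebraMap K R).injective).mp this
    rcases coeff_pair_ne_zero h with h' | h'
    · exact h' e1
    · exact h' e2
  · rw [hz_eq_of_ne_zero (natDegree_le_deg2_left X Z) u hv] at h1
    rw [hz_eq_of_ne_zero (natDegree_le_deg2_right X Z) u hv] at h2
    have hvm : v ^ (deg2 X Z) ≠ 0 := pow_ne_zero _ hv
    have e1 := (mul_eq_zero.mp h1).resolve_left hvm
    have e2 := (mul_eq_zero.mp h2).resolve_left hvm
    obtain ⟨a, b, hab⟩ := prim2_iff.mp h
    have := congrArg (aeval (u / v)) hab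
    rw [map_add, map_mul, map_mul, e1, e2, mul_zero, mul_zero, add_zero, map_one] at this
    exact zero_ne_one this

lemma prim2_hz {X Z U V : K[X]} (h : Prim2 X Z) (h' : Prim2 U V) :
    Prim2 (hz X (deg2 X Z) U V) (hz Z (deg2 X Z) U V) := by
  intro I hI h1 h2
  let R := FractionRing (K[X] ⧸ I)
  let f : K[X] →ₐ[K] R := (Algebra.algHom K (K[X] ⧸ I) R).comp (Ideal.Quotient.mkₐ K I)
  have hf : ∀ p, f p = 0 ↔ p ∈ I := by
    intro p
    have : f p = algebraMap (K[X] ⧸ I) R (Ideal.Quotient.mk I p) := rfl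
    rw [this, map_eq_zero_iff _ (IsFractionRing.injective (K[X] ⧸ I) R),
      Ideal.Quotient.eq_zero_iff_mem]
  rw [← hf, hz_map] at h1 h2
  refine hz_not_both_zero h ?_ h1 h2
  by_contra hc
  push Not at hc
  rw [hf, hf] at hc
  exact h' I hI hc.1 hc.2

lemma natDegree_hz_le {p U V : K[X]} (m : ℕ) {d : ℕ} (hU : U.natDegree ≤ d)
    (hV : V.natDegree ≤ d) : (hz p m U V).natDegree ≤ m * d := by
  apply natDegree_sum_le_of_forall_le
  intro i hi
  have him : i ≤ m := Nat.lt_succ_iff.mp (Finset.mem_range.mp hi)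
  have h1 : (U ^ i).natDegree ≤ i * d := natDegree_pow_le_of_le i hU
  have h2 : (V ^ (m - i)).natDegree ≤ (m - i) * d := natDegree_pow_le_of_le _ hV
  have h3 : (algebraMap K K[X] (p.coeff i) * U ^ i).natDegree ≤ i * d :=
    (natDegree_C_mul_le _ _).trans h1
  refine (natDegree_mul_le_of_le h3 h2).trans (le_of_eq ?_)
  rw [← add_mul, Nat.add_sub_cancel' him]

lemma coeff_hz {p U V : K[X]} (m : ℕ) {d : ℕ} (hU : U.natDegree ≤ d)
    (hV : V.natDegree ≤ d) : (hz p m U V).coeff (m * d) = hz p m (U.coeff d) (V.coeff d) := by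
  rw [hz, finsetSum_coeff, hz]
  apply Finset.sum_congr rfl
  intro i hi
  have him : i ≤ m := Nat.lt_succ_iff.mp (Finset.mem_range.mp hi)
  have h1 : (U ^ i).natDegree ≤ i * d := natDegree_pow_le_of_le i hU
  have h2 : (V ^ (m - i)).natDegree ≤ (m - i) * d := natDegree_pow_le_of_le _ hV
  have e : m * d = i * d + (m - i) * d := by rw [← add_mul, Nat.add_sub_cancel' him]
  rw [mul_assoc]
  change (C (p.coeff i) * (U ^ i * V ^ (m - i))).coeff (m * d) = _
  rw [coeff_C_mul, e, coeff_mul_add_eq_of_natDegree_le h1 h2,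
    coeff_pow_of_natDegree_le hU, coeff_pow_of_natDegree_le hV, mul_assoc]
  rfl

lemma deg2_hz {X Z U V : K[X]} (h : Prim2 X Z) (h' : Prim2 U V) :
    deg2 (hz X (deg2 X Z) U V) (hz Z (deg2 X Z) U V) = deg2 X Z * deg2 U V := by
  have hU := natDegree_le_deg2_left U V
  have hV := natDegree_le_deg2_right U V
  apply le_antisymm
  · exact max_le (natDegree_hz_le _ hU hV) (natDegree_hz_le _ hU hV)
  · by_contra hlt
    push Not at hlt
    have h1 := coeff_eq_zero_of_natDegree_lt
      (lt_of_le_of_lt (natDegree_le_deg2_left _ _) hlt)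
    have h2 := coeff_eq_zero_of_natDegree_lt
      (lt_of_le_of_lt (natDegree_le_deg2_right _ _) hlt)
    rw [coeff_hz _ hU hV] at h1 h2
    exact hz_not_both_zero h (coeff_pair_ne_zero h') h1 h2

end Fermat.Agent.Frob
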