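import Mathlib
import Fermat.Agent.Frob.Generic
import Fermat.Agent.Frob.Homog

/-!
# Frobenius and composition on the group of odd morphisms
-/

set_option autoImplicit false

namespace Fermat.Agent.Frob

open Polynomial WeierstrassCurve WeierstrassCurve.Affine WeierstrassCurve.Affine.Point
open Fermat.Agent.H08

universe u

section Fr

variable {F : Type*} [Field F] [Fintype F] {W : WeierstrassCurve.Affine F}
variable {A B : Type*} [Field A] [Field B] [Algebra F A] [Algebra F B] [DecidableEq A]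
  [DecidableEq B]

/-- The Frobenius endomorphism on points. -/
noncomputable def Fr : (W⁄A).Point →+ (W⁄A).Point :=
  Point.map (FiniteField.frobeniusAlgHom F A)

lemma px_Fr (P : (W⁄A).Point) : px (Fr P) = px P ^ Fintype.card F := px_map _ P
lemma py_Fr (P : (W⁄A).Point) : py (Fr P) = py P ^ Fintype.card F := py_map _ P

lemma map_Fr (s : A →ₐ[F] B) (P : (W⁄A).Point) : Point.map s (Fr P) = Fr (Point.map s P) := by
  rw [Fr, Fr, Point.map_map, Point.map_map]
  have : s.comp (FiniteField.frobeniusAlgHom F A) = (FiniteField.frobeniusAlgHom F B).comp s := by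
    apply AlgHom.ext
    intro z
    change s (z ^ Fintype.card F) = (s z) ^ Fintype.card F
    exact map_pow s z _
  rw [this]

lemma Fr_ne_zero {P : (W⁄A).Point} (hP : P ≠ 0) : Fr P ≠ 0 := map_ne_zero' _ hP

lemma point_ext {W : WeierstrassCurve.Affine A} {P Q : W.Point} (hP : P ≠ 0) (hQ : Q ≠ 0)
    (hx : px P = px Q) (hy : py P = py Q) : P = Q := by
  obtain ⟨x, y, h, rfl⟩ := exists_eq_some hP
  obtain ⟨x', y', h', rfl⟩ := exists_eq_some hQ
  simp only [px_some, py_some] at hx hy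
  subst hx; subst hy; rfl

end Fr

variable {F : Type*} {K : Type*} {L : Type u} [Field F] [Field K] [Field L]
  [Algebra F K] [Algebra K L] [Algebra F L] [IsScalarTower F K L] {W : WeierstrassCurve.Affine F}

set_option linter.unusedSectionVars false

namespace Gen

variable [DecidableEq L] (g : Gen W K L)

lemma rep_zero : Rep g.ι (0 : (W⁄L).Point) 1 0 := by
  refine ⟨?_, ?_⟩
  · intro I hI h1 _
    exact hI.ne_top ((Ideal.eq_top_iff_one I).mpr h1)
  · simp

lemma ht_zero : g.ht 0 = 0 := by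
  rw [g.ht_eq g.rep_zero, deg2]; simp

section comp

lemma rep_comp {P β : (W⁄L).Point} (hP : P ≠ 0) (hβ0 : β ≠ 0) {s : L →ₐ[K] L}
    (hs : s g.x = px β) {X Z U V : K[X]} (h : Rep g.ι P X Z) (h' : Rep g.ι β U V) :
    Rep g.ι (Point.map (s.restrictScalars F) P) (hz X (deg2 X Z) U V) (hz Z (deg2 X Z) U V) := by
  refine ⟨prim2_hz h.1 h'.1, ?_⟩
  have hV : g.ι V ≠ 0 := by
    obtain ⟨k, hk, -, hb⟩ := h'.scalar g.ι_inj
    intro h0
    rw [h0, mul_zero, xb_of_ne hβ0] at hb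
    exact one_ne_zero hb
  have hb : px β = g.ι U / g.ι V := by
    have := h'.2
    rw [xa_of_ne hβ0, xb_of_ne hβ0, one_mul] at this
    rw [← this]; field_simp
  have hhz : ∀ p : K[X], p.natDegree ≤ deg2 X Z → g.ι (hz p (deg2 X Z) U V)
      = g.ι V ^ (deg2 X Z) * aeval (px β) p := by
    intro p hp
    have e : g.ι (hz p (deg2 X Z) U V) = (aeval g.x : K[X] →ₐ[K] L) (hz p (deg2 X Z) U V) := rfl
    rw [e, hz_map, hb]
    exact hz_eq_of_ne_zero hp _ hV
  have hsι : ∀ p : K[X], s (g.ι p) = aeval (px β) p := by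
    intro p
    rw [g.ι_apply, ← hs]
    exact (Polynomial.aeval_algHom_apply s g.x p).symm
  rw [xa_of_ne (map_ne_zero' _ hP), xb_of_ne (map_ne_zero' _ hP), one_mul,
    hhz _ (natDegree_le_deg2_left X Z), hhz _ (natDegree_le_deg2_right X Z), px_map]
  have h2 := h.2
  rw [xa_of_ne hP, xb_of_ne hP, one_mul] at h2
  have h3 := congrArg s h2
  rw [map_mul, hsι, hsι] at h3
  change s (px P) * _ = _
  linear_combination (g.ι V ^ (deg2 X Z)) * h3

theorem ht_comp {P β : (W⁄L).Point} (hP : P ∈ g.Gm) (hβ : β ∈ g.Gm) (hβ0 : β ≠ 0)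
    {s : L →ₐ[K] L} (hs : s g.x = px β) :
    g.ht (Point.map (s.restrictScalars F) P) = g.ht P * g.ht β := by
  by_cases hP0 : P = 0
  · subst hP0
    rw [_root_.map_zero, g.ht_zero, zero_mul]
  obtain ⟨X, Z, h⟩ := g.exists_rep_of_mem hP
  obtain ⟨U, V, h'⟩ := g.exists_rep_of_mem hβ
  rw [g.ht_eq (g.rep_comp hP0 hβ0 hs h h'), g.ht_eq h, g.ht_eq h', deg2_hz h.1 h'.1]
  push_cast; ring

/-- A nonconstant point of `Gm` defines an endomorphism of `L`. -/
theorem exists_lift [W.IsElliptic] {β : (W⁄L).Point} (hβ : β ∈ g.Gm) (h1 : 1 ≤ g.ht β) :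
    ∃ s : L →ₐ[K] L, s g.x = px β ∧ Point.map (s.restrictScalars F) g.Q = β := by
  have hβ0 : β ≠ 0 := by
    rintro rfl
    rw [g.ht_zero] at h1; omega
  obtain ⟨U, V, h'⟩ := g.exists_rep_of_mem hβ
  rw [g.ht_eq h'] at h1
  have hV : g.ι V ≠ 0 := by
    obtain ⟨k, hk, -, hb⟩ := h'.scalar g.ι_inj
    intro h0
    rw [h0, mul_zero, xb_of_ne hβ0] at hb
    exact one_ne_zero hb
  have hb : px β = g.ι U / g.ι V := by
    have := h'.2
    rw [xa_of_ne hβ0, xb_of_ne hβ0, one_mul] at this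
    rw [← this]; field_simp
  have htr : ∀ p : K[X], aeval (px β) p = 0 → p = 0 := by
    intro p hp
    by_contra hp0
    set m := p.natDegree with hm
    have hz0 : hz p m U V = 0 := by
      apply g.ι_inj
      have e : g.ι (hz p m U V) = (aeval g.x : K[X] →ₐ[K] L) (hz p m U V) := rfl
      rw [e, hz_map, _root_.map_zero]
      have := hz_eq_of_ne_zero (p := p) (m := m) le_rfl (g.ι U) hV
      rw [← hb, hp, mul_zero] at this
      exact this
    have hp1 : Prim2 p 1 := prim2_iff.mpr isCoprime_one_right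
    have hd1 : deg2 p 1 = m := by rw [deg2]; simp [hm]
    have hdeg := deg2_hz hp1 h'.1
    have hprim := prim2_hz hp1 h'.1
    rw [hd1, hz0] at hdeg hprim
    have hu : IsUnit (hz (1 : K[X]) m U V) := by
      have := prim2_iff.mp hprim
      exact isCoprime_zero_left.mp this
    have hd0 : (hz (1 : K[X]) m U V).natDegree = 0 := natDegree_eq_zero_of_isUnit hu
    rw [deg2, natDegree_zero, hd0] at hdeg
    have h2 : 1 ≤ deg2 U V := by exact_mod_cast h1
    have hm0 : m = 0 := by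
      by_contra hne
      have : 0 < m * deg2 U V := Nat.mul_pos (Nat.pos_of_ne_zero hne) h2
      rw [← hdeg] at this
      simp at this
    rw [hm0, hz] at hz0
    simp only [zero_add, Finset.range_one, Finset.sum_singleton, pow_zero, mul_one,
      Nat.sub_self] at hz0
    have : p.coeff 0 = 0 := by
      change C (p.coeff 0) = 0 at hz0
      exact C_eq_zero.mp hz0
    apply hp0
    rw [eq_C_of_natDegree_eq_zero (hm.symm.trans hm0), this, C_0]
  have heq : (W⁄L).Equation (px β) (py β) := by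
    obtain ⟨x, y, h, rfl⟩ := exists_eq_some hβ0
    exact h.1
  obtain ⟨s, hsx, hsy⟩ := g.lift _ _ heq htr
  refine ⟨s, hsx, ?_⟩
  apply point_ext (map_ne_zero' _ g.Q_ne_zero) hβ0
  · rw [px_map]; exact hsx
  · rw [py_map]; exact hsy

end comp

section frobenius

variable [Fintype F]

lemma Fr_mem {P : (W⁄L).Point} (hP : P ∈ g.Gm) : Fr P ∈ g.Gm := by
  rw [mem_Gm] at hP ⊢
  rw [map_Fr, hP, map_neg]

theorem ht_Fr {P : (W⁄L).Point} (hP : P ∈ g.Gm) :
    g.ht (Fr P) = Fintype.card F * g.ht P := by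
  by_cases hP0 : P = 0
  · subst hP0
    rw [_root_.map_zero, g.ht_zero, mul_zero]
  obtain ⟨X, Z, h⟩ := g.exists_rep_of_mem hP
  have h' : Rep g.ι (Fr P) (X ^ Fintype.card F) (Z ^ Fintype.card F) := by
    refine ⟨prim2_iff.mpr (IsCoprime.pow (prim2_iff.mp h.1)), ?_⟩
    rw [xa_of_ne (Fr_ne_zero hP0), xb_of_ne (Fr_ne_zero hP0), one_mul, px_Fr, map_pow, map_pow,
      ← mul_pow]
    have h2 := h.2
    rw [xa_of_ne hP0, xb_of_ne hP0, one_mul] at h2
    rw [h2]
  rw [g.ht_eq h', g.ht_eq h, deg2, deg2, natDegree_pow, natDegree_pow]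
  push_cast
  rw [← mul_max_of_nonneg _ _ (by positivity)]

end frobenius

/-- The degree function on the subgroup. -/
noncomputable def htG (P : g.Gm) : ℤ := g.ht P.1

lemma htG_par [W.IsElliptic] (P Q : g.Gm) :
    g.htG (P + Q) + g.htG (P - Q) = 2 * g.htG P + 2 * g.htG Q :=
  g.ht_parallelogram P.2 Q.2

/-- A point of degree zero is killed by the substitution trick. -/
theorem eq_zero_of_ht_eq_zero [W.IsElliptic] {R : (W⁄L).Point} (hR : R ∈ g.Gm)
    (h0 : g.ht R = 0)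
    (hmul : ∀ s : L →ₐ[K] L, ∀ n : ℕ, Point.map (s.restrictScalars F) g.Q = n • g.Q →
      Point.map (s.restrictScalars F) R = n • R) : R = 0 := by
  by_contra hne
  obtain ⟨X, Z, h⟩ := g.exists_rep_of_mem hR
  rw [g.ht_eq h] at h0
  have hd : deg2 X Z = 0 := by exact_mod_cast h0
  have hXd : X.natDegree = 0 := Nat.le_zero.mp (hd ▸ natDegree_le_deg2_left X Z)
  have hZd : Z.natDegree = 0 := Nat.le_zero.mp (hd ▸ natDegree_le_deg2_right X Z)
  have hconst : ∀ s : L →ₐ[K] L, s (px R) = px R := by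
    intro s
    have h2 := h.2
    rw [xa_of_ne hne, xb_of_ne hne, one_mul, eq_C_of_natDegree_eq_zero hXd,
      eq_C_of_natDegree_eq_zero hZd, ι_C, ι_C] at h2
    have hz : algebraMap K L (Z.coeff 0) ≠ 0 := by
      obtain ⟨k, hk, -, hb⟩ := h.scalar g.ι_inj
      intro h0
      rw [eq_C_of_natDegree_eq_zero hZd, ι_C, h0, mul_zero, xb_of_ne hne] at hb
      exact one_ne_zero hb
    have e : px R = algebraMap K L (X.coeff 0) / algebraMap K L (Z.coeff 0) := by
      rw [← h2]; field_simp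
    rw [e, map_div₀, s.commutes, s.commutes]
  have hpar := g.htG_par
  have hQn : ∀ n : ℕ, g.ht (n • g.Q) = (n : ℤ) ^ 2 := by
    intro n
    have := h_zsmul hpar (n : ℤ) (⟨g.Q, g.Q_mem⟩ : g.Gm)
    rw [natCast_zsmul] at this
    have e1 : g.htG (⟨g.Q, g.Q_mem⟩ : g.Gm) = 1 := g.ht_Q
    rw [e1, mul_one] at this
    exact this
  have key : ∀ n : ℕ, 1 ≤ n → n • R ≠ 0 ∧ px (n • R) = px R := by
    intro n hn
    have hn1 : (1 : ℤ) ≤ g.ht (n • g.Q) := by
      rw [hQn]; have : (1 : ℤ) ≤ n := by exact_mod_cast hn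
      nlinarith
    obtain ⟨s, hsx, hsQ⟩ := g.exists_lift (g.Gm.nsmul_mem g.Q_mem n) hn1
    have hsR := hmul s n hsQ
    refine ⟨hsR ▸ map_ne_zero' _ hne, ?_⟩
    rw [← hsR, px_map]; exact hconst s
  obtain ⟨h2a, h2b⟩ := key 2 (by norm_num)
  obtain ⟨h3a, -⟩ := key 3 (by norm_num)
  rcases (px_eq_iff h2a hne).mp h2b with h' | h'
  · apply hne
    rw [two_nsmul] at h'
    simpa using h'
  · apply h3a
    have : (3 : ℕ) • R = 2 • R + R := by rw [← succ_nsmul]
    rw [this, h', neg_add_cancel]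

/-- **The Frobenius relation at the generic point.** -/
theorem generic_relation [W.IsElliptic] [Fintype F] {N : ℤ}
    (hN : g.ht (Fr g.Q - g.Q) = N) (hN' : 1 ≤ g.ht (Fr g.Q + g.Q)) :
    Fr (Fr g.Q) - ((Fintype.card F : ℤ) + 1 - N) • Fr g.Q + (Fintype.card F : ℤ) • g.Q = 0 := by
  set q : ℤ := (Fintype.card F : ℤ) with hq
  set a : ℤ := q + 1 - N with ha
  have hpar := g.htG_par
  let Q0 : g.Gm := ⟨g.Q, g.Q_mem⟩
  let Q1 : g.Gm := ⟨Fr g.Q, g.Fr_mem g.Q_mem⟩
  let Q2 : g.Gm := ⟨Fr (Fr g.Q), g.Fr_mem (g.Fr_mem g.Q_mem)⟩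
  have h0 : g.htG Q0 = 1 := g.ht_Q
  have h1 : g.htG Q1 = q := by
    have : g.htG Q1 = q * g.ht g.Q := g.ht_Fr g.Q_mem
    rw [this, g.ht_Q, mul_one]
  have h2 : g.htG Q2 = q ^ 2 := by
    have : g.htG Q2 = q * g.ht (Fr g.Q) := g.ht_Fr (g.Fr_mem g.Q_mem)
    rw [this]
    change q * g.htG Q1 = _
    rw [h1]; ring
  have hsub : g.htG (Q1 - Q0) = N := hN
  have b10 : polarB g.htG Q1 Q0 = a := by
    have := h_sub hpar Q1 Q0
    rw [hsub, h1, h0] at this; linarith
  have hadd : g.htG (Q1 + Q0) = q + 1 + a := by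
    rw [h_add hpar, h1, h0, b10]
  have b21 : polarB g.htG Q2 Q1 = q * a := by
    have e1 : g.htG (Q2 + Q1) = q * g.htG (Q1 + Q0) := by
      have e2 : (Q2 + Q1 : g.Gm).1 = Fr (Q1 + Q0 : g.Gm).1 := by
        change Fr (Fr g.Q) + Fr g.Q = Fr (Fr g.Q + g.Q)
        rw [map_add]
      rw [htG, e2]
      exact g.ht_Fr (Q1 + Q0).2
    rw [polarB, e1, hadd, h2, h1]; ring
  have b20 : polarB g.htG Q2 Q0 = a ^ 2 - 2 * q := by
    have hβ : Fr g.Q + g.Q ∈ g.Gm := (Q1 + Q0).2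
    obtain ⟨s, hsx, hsQ⟩ := g.exists_lift hβ hN'
    have hβ0 : Fr g.Q + g.Q ≠ 0 := by
      intro h; rw [h, g.ht_zero] at hN'; omega
    have hc := g.ht_comp (P := Fr g.Q - g.Q) (Q1 - Q0).2 hβ hβ0 hsx
    have e1 : Point.map (s.restrictScalars F) (Fr g.Q - g.Q) = Fr (Fr g.Q) - g.Q := by
      rw [map_sub, map_Fr, hsQ, map_add]; abel
    rw [e1, hN] at hc
    have e2 : g.htG (Q2 - Q0) = N * (q + 1 + a) := by
      rw [← hadd]; exact hc
    have := h_sub hpar Q2 Q0
    rw [e2, h2, h0] at this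
    have hNa : N = q + 1 - a := by rw [ha]; ring
    rw [hNa] at this
    linarith
  let R : g.Gm := (1 : ℤ) • Q2 + (-a) • Q1 + q • Q0
  have hR1 : R.1 = Fr (Fr g.Q) - a • Fr g.Q + q • g.Q := by
    change (1 : ℤ) • Fr (Fr g.Q) + (-a) • Fr g.Q + q • g.Q = _
    rw [one_smul, neg_smul, sub_eq_add_neg]
  have hR0 : g.ht R.1 = 0 := by
    have := h_three hpar 1 (-a) q Q2 Q1 Q0
    rw [h0, h1, h2, b21, b20, b10] at this
    change g.htG R = 0
    rw [this]; ring
  rw [← hR1]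
  apply g.eq_zero_of_ht_eq_zero R.2 hR0
  intro s n hs
  rw [hR1]
  rw [map_add, map_sub, map_zsmul, map_zsmul, map_Fr, map_Fr, hs]
  rw [map_nsmul, map_nsmul, smul_add, smul_sub]
  rw [smul_comm n a, smul_comm n q]

end Gen

end Fermat.Agent.Frob
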