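import Mathlib
import Fermat.Agent.Frob.GenFrob

/-!
# Specialisation of the generic point
-/

set_option autoImplicit false

namespace Fermat.Agent.Frob

open Polynomial WeierstrassCurve WeierstrassCurve.Affine WeierstrassCurve.Affine.Point
open Fermat.Agent.H08

universe u

variable {F : Type*} {K : Type*} {L : Type u} [Field F] [Field K] [Field L]
  [Algebra F K] [Algebra K L] [Algebra F L] [IsScalarTower F K L] {W : WeierstrassCurve.Affine F}

set_option linter.unusedSectionVars false

namespace Gen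

variable (g : Gen W K L)

/-- There is a place of `L` above `x = c`. -/
theorem exists_place (c : K) : ∃ A : ValuationSubring L,
    (∀ k : K, A.valuation (algebraMap K L k) ≤ 1) ∧
      A.valuation (g.x - algebraMap K L c) < 1 := by
  let S : Subring L := g.ι.range
  let xc : S := ⟨g.ι (X - C c), ⟨_, rfl⟩⟩
  have hI : Ideal.span {xc} ≠ ⊤ := by
    intro h
    rw [Ideal.span_singleton_eq_top] at h
    obtain ⟨u, hu⟩ := h
    obtain ⟨p, hp⟩ : ∃ p, g.ι p = ((u⁻¹ : Sˣ) : S).1 := ((u⁻¹ : Sˣ) : S).2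
    have h1 : g.ι ((X - C c) * p) = g.ι 1 := by
      rw [map_mul, hp, map_one]
      have : xc * ((u⁻¹ : Sˣ) : S) = 1 := by rw [← hu]; exact u.mul_inv
      exact congrArg Subtype.val this
    have h2 := g.ι_inj h1
    have h3 := congrArg (Polynomial.eval c) h2
    simp at h3
  obtain ⟨A, hSA, hIA⟩ := Ideal.image_subset_nonunits_valuationSubring (Ideal.span {xc}) hI
  refine ⟨A, ?_, ?_⟩
  · intro k
    rw [A.valuation_le_one_iff]
    apply hSA
    exact ⟨C k, g.ι_C k⟩
  · have h1 : g.ι (X - C c) ∈ A.nonunits := by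
      apply hIA
      exact ⟨xc, Ideal.subset_span rfl, rfl⟩
    rw [map_sub, ι_X, ι_C] at h1
    exact A.mem_nonunits_iff.mp h1

variable {A : ValuationSubring L}

lemma val_const (hA : ∀ k : K, A.valuation (algebraMap K L k) ≤ 1) {k : K} (hk : k ≠ 0) :
    A.valuation (algebraMap K L k) = 1 := by
  apply le_antisymm (hA k)
  have h1 := hA k⁻¹
  have hv : A.valuation (algebraMap K L k) ≠ 0 := by
    rw [Valuation.ne_zero_iff]; exact (map_ne_zero_iff _ (algebraMap K L).injective).mpr hk
  rw [map_inv₀, map_inv₀] at h1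
  exact (inv_le_one₀ (zero_lt_iff.mpr hv)).mp h1

lemma isIntegral_of_const (hA : ∀ k : K, A.valuation (algebraMap K L k) ≤ 1) :
    IsIntegralFor A.valuation (W⁄L) := by
  have key : ∀ r : F, A.valuation (algebraMap F L r) ≤ 1 := by
    intro r
    rw [IsScalarTower.algebraMap_apply F K L]
    exact hA _
  exact ⟨key _, key _, key _, key _, key _⟩

variable [DecidableEq L] [DecidableEq K]

/-- constant points -/
noncomputable def jK : (W⁄K).Point →+ (W⁄L).Point := Point.map (IsScalarTower.toAlgHom F K L)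

lemma px_jK (P : (W⁄K).Point) : px (jK (L := L) P) = algebraMap K L (px P) := px_map _ P
lemma py_jK (P : (W⁄K).Point) : py (jK (L := L) P) = algebraMap K L (py P) := py_map _ P
lemma jK_ne_zero {P : (W⁄K).Point} (hP : P ≠ 0) : jK (L := L) P ≠ 0 := map_ne_zero' _ hP

lemma jK_Fr [Fintype F] (P : (W⁄K).Point) : jK (L := L) (Fr P) = Fr (jK P) := map_Fr _ P

lemma psi2_jK (P : (W⁄K).Point) : psi2 (jK (L := L) P) = algebraMap K L (psi2 P) := by
  have e1 : (W⁄L).a₁ = algebraMap K L (W⁄K).a₁ := IsScalarTower.algebraMap_apply F K L _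
  have e3 : (W⁄L).a₃ = algebraMap K L (W⁄K).a₃ := IsScalarTower.algebraMap_apply F K L _
  rw [psi2, psi2, px_jK, py_jK, e1, e3, map_add, map_add, map_mul, map_mul, map_ofNat]

lemma phiX_jK (P : (W⁄K).Point) : phiX (jK (L := L) P) = algebraMap K L (phiX P) := by
  have e1 : (W⁄L).a₁ = algebraMap K L (W⁄K).a₁ := IsScalarTower.algebraMap_apply F K L _
  have e2 : (W⁄L).a₂ = algebraMap K L (W⁄K).a₂ := IsScalarTower.algebraMap_apply F K L _
  have e4 : (W⁄L).a₄ = algebraMap K L (W⁄K).a₄ := IsScalarTower.algebraMap_apply F K L _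
  rw [phiX, phiX, px_jK, py_jK, e1, e2, e4]
  simp only [map_sub, map_add, map_mul, map_pow, map_ofNat]

/-- A constant point in the kernel of reduction is zero. -/
lemma eq_zero_of_inE1_jK (hA : ∀ k : K, A.valuation (algebraMap K L k) ≤ 1)
    {P : (W⁄K).Point} (h : InE1 A.valuation (jK (L := L) P)) : P = 0 := by
  by_contra hP
  rcases h with h | h
  · exact jK_ne_zero hP h
  · rw [px_jK] at h
    exact absurd (hA _) (not_le.mpr h)

lemma nonsingularRed_jK (hA : ∀ k : K, A.valuation (algebraMap K L k) ≤ 1)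
    {P : (W⁄K).Point} (hP : P ≠ 0) : NonsingularRed A.valuation (jK (L := L) P) := by
  by_cases h : psi2 P = 0
  · right; rw [phiX_jK]; exact val_const hA (phiX_ne_zero hP h)
  · left; rw [psi2_jK]; exact val_const hA h

lemma inE1_Fr [Fintype F] {P : (W⁄L).Point} (h : InE1 A.valuation P) :
    InE1 A.valuation (Fr P) := by
  rcases h with rfl | h
  · left; exact _root_.map_zero _
  · right
    rw [px_Fr, map_pow]
    exact one_lt_pow₀ h Fintype.card_ne_zero

/-- The generic point specialises to `±P₀`. -/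
theorem inE1_Q_sub_or_add [W.IsElliptic] (hA : ∀ k : K, A.valuation (algebraMap K L k) ≤ 1)
    {P : (W⁄K).Point} (hP : P ≠ 0) (hx : A.valuation (g.x - algebraMap K L (px P)) < 1) :
    InE1 A.valuation (g.Q - jK P) ∨ InE1 A.valuation (g.Q + jK P) := by
  have hW := isIntegral_of_const (W := W) hA
  rcases inE1_sub_or_add_of_congr hW (jK_ne_zero (L := L) hP) g.Q_ne_zero
    (by rw [px_jK]; exact hA _) (by rw [px_jK, px_Q, Valuation.map_sub_swap]; exact hx)
    (nonsingularRed_jK hA hP) with h | h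
  · left
    have := h.neg
    rwa [neg_sub] at this
  · right
    rwa [add_comm] at h

/-- Specialisation of an integral combination of Frobenius powers of the generic point. -/
theorem specialize [W.IsElliptic] [Fintype F] {P : (W⁄K).Point} (a b : ℤ)
    (h : Fr (Fr g.Q) - a • Fr g.Q + b • g.Q = 0) : Fr (Fr P) - a • Fr P + b • P = 0 := by
  by_cases hP : P = 0
  · subst hP; simp
  obtain ⟨A, hA, hx⟩ := g.exists_place (px P)
  have hW := isIntegral_of_const (W := W) hA
  have key : ∀ P : (W⁄K).Point, InE1 A.valuation (g.Q - jK P) →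
      Fr (Fr P) - a • Fr P + b • P = 0 := by
    intro P h0
    have h1 := inE1_Fr h0
    have h2 := inE1_Fr h1
    have h3 : InE1 A.valuation (Fr (Fr (g.Q - jK P)) - a • Fr (g.Q - jK P)
        + b • (g.Q - jK P)) := by
      have hmem : Fr (Fr (g.Q - jK P)) - a • Fr (g.Q - jK P) + b • (g.Q - jK P)
          ∈ E1 A.valuation (W⁄L) hW :=
        (E1 A.valuation (W⁄L) hW).add_mem ((E1 A.valuation (W⁄L) hW).sub_mem h2
          ((E1 A.valuation (W⁄L) hW).zsmul_mem h1 a)) ((E1 A.valuation (W⁄L) hW).zsmul_mem h0 b)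
      exact hmem
    have h4 : Fr (Fr (g.Q - jK P)) - a • Fr (g.Q - jK P) + b • (g.Q - jK P)
        = - jK (Fr (Fr P) - a • Fr P + b • P) := by
      have e : jK (L := L) (Fr (Fr P) - a • Fr P + b • P)
          = Fr (Fr (jK P)) - a • Fr (jK P) + b • jK P := by
        rw [map_add, map_sub, map_zsmul, map_zsmul, jK_Fr, jK_Fr]
      rw [e, map_sub, map_sub, smul_sub, smul_sub]
      have e2 : Fr (Fr g.Q) - Fr (Fr (jK P)) - (a • Fr g.Q - a • Fr (jK P))
          + (b • g.Q - b • jK P) = (Fr (Fr g.Q) - a • Fr g.Q + b • g.Q)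
          - (Fr (Fr (jK P)) - a • Fr (jK P) + b • jK P) := by abel
      rw [e2, h, zero_sub]
    rw [h4] at h3
    have h5 := h3.neg
    rw [neg_neg] at h5
    exact eq_zero_of_inE1_jK hA h5
  rcases g.inE1_Q_sub_or_add hA hP hx with h0 | h0
  · exact key P h0
  · have h1 := key (-P) (by rw [map_neg, sub_neg_eq_add]; exact h0)
    rw [map_neg, map_neg, smul_neg, smul_neg] at h1
    have h2 : -(Fr (Fr P) - a • Fr P + b • P) = 0 := by
      rw [← h1]; abel
    exact neg_eq_zero.mp h2

end Gen

end Fermat.Agent.Frob
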