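import Mathlib
import Fermat.Agent.Frob.Places

/-!
# The degree of `Frobenius - 1` is the number of rational points
-/

set_option autoImplicit false

namespace Fermat.Agent.Frob

open Polynomial WeierstrassCurve WeierstrassCurve.Affine WeierstrassCurve.Affine.Point
open Fermat.Agent.H08

universe u

section count

variable {F : Type*} [Field F] [Fintype F] {W : WeierstrassCurve.Affine F}

open Classical in
/-- The rational points above `c`. -/
noncomputable def fib (W : WeierstrassCurve.Affine F) (c : F) : Finset F :=
  Finset.univ.filter (fun y => W.Equation c y)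

lemma mem_fib {c y : F} : y ∈ fib W c ↔ W.Equation c y := by simp [fib]

lemma fib_eq {c y : F} (h : y ∈ fib W c) : ∀ z, z ∈ fib W c ↔ z = y ∨ z = W.negY c y := by
  intro z
  rw [mem_fib] at h ⊢
  constructor
  · intro hz
    exact Y_eq_of_X_eq hz h rfl
  · rintro (rfl | rfl)
    · exact h
    · exact (equation_neg _ _).mpr h

lemma card_fib_of_eq {c y : F} (h : y ∈ fib W c) (hy : y = W.negY c y) : (fib W c).card = 1 := by
  rw [Finset.card_eq_one]
  refine ⟨y, ?_⟩
  ext z
  rw [fib_eq h, ← hy, or_self, Finset.mem_singleton]

lemma card_fib_of_ne {c y : F} (h : y ∈ fib W c) (hy : y ≠ W.negY c y) : (fib W c).card = 2 := by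
  classical
  rw [Finset.card_eq_two]
  refine ⟨y, W.negY c y, hy, ?_⟩
  ext z
  rw [fib_eq h, Finset.mem_insert, Finset.mem_singleton]

theorem card_point_eq [W.IsElliptic] : Nat.card W.Point = 1 + ∑ c : F, (fib W c).card := by
  classical
  rw [Nat.card_congr (pointEquiv W)]
  have h1 : Nat.card (WithZero {xy : F × F // W.Equation xy.1 xy.2})
      = Nat.card {xy : F × F // W.Equation xy.1 xy.2} + 1 := Finite.card_option
  rw [h1, add_comm]
  congr 1
  rw [Nat.card_eq_fintype_card, Fintype.card_subtype,
    Finset.card_eq_sum_card_fiberwise (f := Prod.fst) (t := Finset.univ) (by simp)]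
  apply Finset.sum_congr rfl
  intro c _
  refine Finset.card_bij' (fun xy _ => xy.2) (fun y _ => (c, y)) ?_ ?_ ?_ ?_
  · intro xy hxy
    simp only [Finset.mem_filter, Finset.mem_univ, true_and] at hxy
    rw [mem_fib, ← hxy.2]; exact hxy.1
  · intro y hy
    simp only [Finset.mem_filter, Finset.mem_univ, true_and, and_true]
    exact mem_fib.mp hy
  · intro xy hxy
    simp only [Finset.mem_filter, Finset.mem_univ, true_and] at hxy
    exact Prod.ext hxy.2.symm rfl
  · intro y hy; rfl

end count

section

variable {F : Type*} {K : Type*} {L : Type u} [Field F] [Field K] [Field L]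
  [Algebra F K] [Algebra K L] [Algebra F L] [IsScalarTower F K L] {W : WeierstrassCurve.Affine F}

set_option linter.unusedSectionVars false

lemma prod_X_sub_C_map [Fintype F] :
    ∏ c : F, (X - C (algebraMap F K c)) = (X ^ Fintype.card F - X : K[X]) := by
  have h1 : (∏ c : F, (X - C c)) = (X ^ Fintype.card F - X : F[X]) := by
    have hm : (X ^ Fintype.card F - X : F[X]).Monic := by
      apply monic_X_pow_sub
      rw [degree_X]
      exact_mod_cast Fintype.one_lt_card (α := F)
    have hr : (X ^ Fintype.card F - X : F[X]).roots.card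
        = (X ^ Fintype.card F - X : F[X]).natDegree := by
      rw [FiniteField.roots_X_pow_card_sub_X,
        FiniteField.X_pow_card_sub_X_natDegree_eq F (Fintype.one_lt_card (α := F))]
      rfl
    have := Polynomial.prod_multiset_X_sub_C_of_monic_of_roots_card_eq hm hr
    rw [FiniteField.roots_X_pow_card_sub_X] at this
    exact this
  have h2 := congrArg (Polynomial.map (algebraMap F K)) h1
  rw [Polynomial.map_prod] at h2
  simpa using h2

end

end Fermat.Agent.Frob
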