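import Mathlib
import Fermat.Agent.Frob.Count

/-!
# The degree of `Frobenius - 1` is the number of rational points
-/

set_option autoImplicit false

namespace Fermat.Agent.Frob

open Polynomial WeierstrassCurve WeierstrassCurve.Affine WeierstrassCurve.Affine.Point
open Fermat.Agent.H08

universe u

variable {F : Type*} {K : Type*} {L : Type u} [Field F] [Field K] [Field L]
  [Algebra F K] [Algebra K L] [Algebra F L] [IsScalarTower F K L] {W : WeierstrassCurve.Affine F}

set_option linter.unusedSectionVars false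

namespace Gen

variable (g : Gen W K L) {A : ValuationSubring L}

lemma val_ι_le_one (hA : ∀ k : K, A.valuation (algebraMap K L k) ≤ 1) {c : K}
    (hx : A.valuation (g.x - algebraMap K L c) < 1) (p : K[X]) : A.valuation (g.ι p) ≤ 1 := by
  have hx1 : A.valuation g.x ≤ 1 := by
    have e : g.x = (g.x - algebraMap K L c) + algebraMap K L c := by ring
    rw [e]; exact v_add_le_one hx.le (hA c)
  induction p using Polynomial.induction_on' with
  | add p q hp hq => rw [map_add]; exact v_add_le_one hp hq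
  | monomial n a =>
    rw [← C_mul_X_pow_eq_monomial, map_mul, map_pow, ι_C, ι_X]
    exact v_mul_le_one (hA a) (v_pow_le_one hx1 n)

lemma val_ι_eq_one (hA : ∀ k : K, A.valuation (algebraMap K L k) ≤ 1) {c : K}
    (hx : A.valuation (g.x - algebraMap K L c) < 1) {p : K[X]} (hp : p.eval c ≠ 0) :
    A.valuation (g.ι p) = 1 := by
  obtain ⟨r, hr⟩ : (X - C c) ∣ p - C (p.eval c) := by
    rw [dvd_iff_isRoot]; simp
  have e : g.ι p = algebraMap K L (p.eval c) + (g.x - algebraMap K L c) * g.ι r := by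
    have : p = C (p.eval c) + (X - C c) * r := by rw [← hr]; ring
    conv_lhs => rw [this]
    rw [map_add, map_mul, map_sub, ι_C, ι_C, ι_X]
  rw [e, Valuation.map_add_eq_of_lt_left, val_const hA hp]
  rw [val_const hA hp]
  exact v_mul_lt_one_left hx (g.val_ι_le_one hA hx r)

lemma eval_eq_zero_of_inE1 (hA : ∀ k : K, A.valuation (algebraMap K L k) ≤ 1) {c : K}
    (hx : A.valuation (g.x - algebraMap K L c) < 1) {P : (W⁄L).Point} {X' Z' : K[X]}
    (h : Rep g.ι P X' Z') (hE : InE1 A.valuation P) : Z'.eval c = 0 := by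
  by_contra hne
  have h1 := g.val_ι_eq_one hA hx hne
  have h2 := g.val_ι_le_one hA hx X'
  have hP : P ≠ 0 := by
    rintro rfl
    have := h.2
    rw [xa_zero, xb_zero, one_mul, zero_mul] at this
    rw [this, _root_.map_zero] at h1
    exact zero_ne_one h1
  have h3 := h.2
  rw [xa_of_ne hP, xb_of_ne hP, one_mul] at h3
  have h4 := congrArg A.valuation h3
  rw [map_mul, h1, mul_one] at h4
  rcases hE with h5 | h5
  · exact hP h5
  · rw [h4] at h5
    exact absurd h2 (not_le.mpr h5)

variable [DecidableEq L] [DecidableEq K] [Fintype F] [W.IsElliptic]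

/-- If `P₀` is fixed by Frobenius then `Fr Q - Q` specialises to zero. -/
lemma eval_minus {P₀ : (W⁄K).Point} (hP : P₀ ≠ 0) (hfix : Fr P₀ = P₀) {X' Z' : K[X]}
    (h : Rep g.ι (Fr g.Q - g.Q) X' Z') : Z'.eval (px P₀) = 0 := by
  obtain ⟨A, hA, hx⟩ := g.exists_place (px P₀)
  have hW := isIntegral_of_const (W := W) hA
  apply g.eval_eq_zero_of_inE1 hA hx h
  rcases g.inE1_Q_sub_or_add hA hP hx with h0 | h0
  · have h1 := (inE1_Fr h0).sub hW h0
    have e : Fr (g.Q - jK P₀) - (g.Q - jK P₀) = Fr g.Q - g.Q := by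
      rw [map_sub, ← jK_Fr, hfix]; abel
    rwa [e] at h1
  · have h1 := (inE1_Fr h0).sub hW h0
    have e : Fr (g.Q + jK P₀) - (g.Q + jK P₀) = Fr g.Q - g.Q := by
      rw [map_add, ← jK_Fr, hfix]; abel
    rwa [e] at h1

/-- If `Fr P₀ = - P₀` then `Fr Q + Q` specialises to zero. -/
lemma eval_plus {P₀ : (W⁄K).Point} (hP : P₀ ≠ 0) (hfix : Fr P₀ = -P₀) {X' Z' : K[X]}
    (h : Rep g.ι (Fr g.Q + g.Q) X' Z') : Z'.eval (px P₀) = 0 := by
  obtain ⟨A, hA, hx⟩ := g.exists_place (px P₀)
  have hW := isIntegral_of_const (W := W) hA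
  apply g.eval_eq_zero_of_inE1 hA hx h
  rcases g.inE1_Q_sub_or_add hA hP hx with h0 | h0
  · have h1 := (inE1_Fr h0).add hW h0
    have e : Fr (g.Q - jK P₀) + (g.Q - jK P₀) = Fr g.Q + g.Q := by
      rw [map_sub, ← jK_Fr, hfix, map_neg]; abel
    rwa [e] at h1
  · have h1 := (inE1_Fr h0).add hW h0
    have e : Fr (g.Q + jK P₀) + (g.Q + jK P₀) = Fr g.Q + g.Q := by
      rw [map_add, ← jK_Fr, hfix, map_neg]; abel
    rwa [e] at h1

lemma exists_point_above [IsAlgClosed K] (c : K) : ∃ P : (W⁄K).Point, P ≠ 0 ∧ px P = c := by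
  have : (W⁄K).IsElliptic := inferInstanceAs (W.map (algebraMap F K)).IsElliptic
  set b := (W⁄K).a₁ * c + (W⁄K).a₃
  set f := c ^ 3 + (W⁄K).a₂ * c ^ 2 + (W⁄K).a₄ * c + (W⁄K).a₆
  have hdeg : (X ^ 2 + (C b * X - C f) : K[X]).degree = 2 := by
    rw [degree_add_eq_left_of_degree_lt]
    · exact degree_X_pow 2
    · rw [degree_X_pow]
      have h1 : (C b * X - C f : K[X]).natDegree ≤ 1 := by
        refine (natDegree_sub_le _ _).trans (max_le ?_ ?_)
        · exact (natDegree_C_mul_le _ _).trans natDegree_X_le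
        · rw [natDegree_C]; exact Nat.zero_le _
      exact lt_of_le_of_lt (degree_le_of_natDegree_le h1) (by norm_num)
  obtain ⟨y, hy⟩ := IsAlgClosed.exists_root (X ^ 2 + (C b * X - C f) : K[X]) (by
    rw [hdeg]; norm_num)
  have hy' : y ^ 2 + (b * y - f) = 0 := by simpa [IsRoot.def] using hy
  have heq : (W⁄K).Equation c y := by
    rw [equation_iff]
    linear_combination hy'
  exact ⟨Point.some c y (equation_iff_nonsingular.mp heq), some_ne_zero _, rfl⟩

lemma mem_range_of_pow_card {z : K} (hz : z ^ Fintype.card F = z) :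
    ∃ y : F, algebraMap F K y = z := by
  have h := prod_X_sub_C_map (F := F) (K := K)
  have h1 := congrArg (Polynomial.eval z) h
  rw [eval_prod] at h1
  simp only [eval_sub, eval_X, eval_C, eval_pow, hz, sub_self] at h1
  obtain ⟨y, -, hy⟩ := Finset.prod_eq_zero_iff.mp h1
  exact ⟨y, (sub_eq_zero.mp hy).symm⟩

/-- Local analysis above a rational `c`. -/
lemma local_dvd [IsAlgClosed K] {Xp Zp Xm Zm : K[X]} (hp : Rep g.ι (Fr g.Q + g.Q) Xp Zp)
    (hm : Rep g.ι (Fr g.Q - g.Q) Xm Zm) {k : K} (hk : k ≠ 0)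
    (e1 : Xp * Zm + Xm * Zp = C k * as1 (((W⁄K) : WeierstrassCurve K).map C)
      (X ^ Fintype.card F * X) (X ^ Fintype.card F * 1 + X * 1) (1 * 1))
    (e2 : Zp * Zm = C k * (X ^ Fintype.card F - X) ^ 2) (c : F) :
    (X - C (algebraMap F K c)) ^ (fib W c).card ∣ Zm ∧
    (X - C (algebraMap F K c)) ^ (2 - (fib W c).card) ∣ Zp := by
  have hE : (W⁄K).IsElliptic := inferInstanceAs (W.map (algebraMap F K)).IsElliptic
  set c' := algebraMap F K c with hc'
  have hcq : c' ^ Fintype.card F = c' := by rw [hc', ← map_pow, FiniteField.pow_card]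
  have hdvd : (X - C c') ^ 2 ∣ Zp * Zm := by
    rw [e2]
    apply Dvd.dvd.mul_left
    apply pow_dvd_pow_of_dvd
    rw [dvd_iff_isRoot, IsRoot.def]
    simp [hcq]
  have hboth : ∀ P₀ : (W⁄K).Point, P₀ ≠ 0 → px P₀ = c' → Zp.eval c' = 0 → Zm.eval c' = 0 →
      P₀ = -P₀ := by
    intro P₀ hP hx h1 h2
    rw [← psi2_eq_zero_iff hP]
    have h3 := congrArg (Polynomial.eval c') e1
    have h4 : psi2 P₀ ^ 2 = 0 := by
      rw [psi2_sq hP, hx]
      have h5 : k * (4 * c' ^ 3 + (W⁄K).b₂ * c' ^ 2 + 2 * (W⁄K).b₄ * c' + (W⁄K).b₆) = 0 := by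
        rw [eval_add, eval_mul, eval_mul, h1, h2, mul_zero, mul_zero, add_zero] at h3
        rw [as1, WeierstrassCurve.map_b₂, WeierstrassCurve.map_b₄, WeierstrassCurve.map_b₆] at h3
        simp only [eval_mul, eval_add, eval_C, eval_pow, eval_X, eval_ofNat, eval_one, hcq] at h3
        rw [h3]; ring
      exact (mul_eq_zero.mp h5).resolve_left hk
    exact pow_eq_zero_iff (two_ne_zero) |>.mp h4
  have hcop : ∀ {Z Z' : K[X]}, Z.eval c' ≠ 0 → (X - C c') ^ 2 ∣ Z * Z' → (X - C c') ^ 2 ∣ Z' := by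
    intro Z Z' h1 h2
    apply IsCoprime.dvd_of_dvd_mul_left _ h2
    apply IsCoprime.pow_left
    have hirr : Irreducible (X - C c') := irreducible_X_sub_C c'
    rw [hirr.coprime_iff_not_dvd, dvd_iff_isRoot]
    exact h1
  have hlin : ∀ {Z : K[X]}, Z.eval c' = 0 → (X - C c') ^ 1 ∣ Z := by
    intro Z h1
    rw [pow_one, dvd_iff_isRoot]; exact h1
  by_cases hne : (fib W c).Nonempty
  · obtain ⟨y, hy⟩ := hne
    have hyE := mem_fib.mp hy
    have heq : (W⁄K).Equation c' (algebraMap F K y) := by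
      have := (W.map_equation (f := algebraMap F K) (algebraMap F K).injective c y).mpr hyE
      exact this
    set P₀ : (W⁄K).Point := Point.some c' (algebraMap F K y) (equation_iff_nonsingular.mp heq)
      with hP₀
    have hP0 : P₀ ≠ 0 := some_ne_zero _
    have hpx : px P₀ = c' := rfl
    have hpy : py P₀ = algebraMap F K y := rfl
    have hfix : Fr P₀ = P₀ := by
      apply point_ext (Fr_ne_zero hP0) hP0
      · rw [px_Fr, hpx, hcq]
      · rw [py_Fr, hpy, ← map_pow, FiniteField.pow_card]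
    have hm0 := g.eval_minus hP0 hfix hm
    rw [hpx] at hm0
    by_cases hyy : y = W.negY c y
    · rw [card_fib_of_eq hy hyy]
      have hneg : P₀ = -P₀ := by
        rw [← psi2_eq_zero_iff hP0, psi2, hpx, hpy]
        have := congrArg (algebraMap F K) hyy
        simp only [negY, map_sub, map_neg, map_mul] at this
        have a1 : (W⁄K).a₁ = algebraMap F K W.a₁ := rfl
        have a3 : (W⁄K).a₃ = algebraMap F K W.a₃ := rfl
        rw [a1, a3]
        linear_combination this
      have hp0 := g.eval_plus hP0 (hfix.trans hneg) hp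
      rw [hpx] at hp0
      exact ⟨hlin hm0, hlin hp0⟩
    · rw [card_fib_of_ne hy hyy]
      have hneg : P₀ ≠ -P₀ := by
        intro h
        rw [← psi2_eq_zero_iff hP0, psi2, hpx, hpy] at h
        apply hyy
        apply (algebraMap F K).injective
        simp only [negY, map_sub, map_neg, map_mul]
        have a1 : (W⁄K).a₁ = algebraMap F K W.a₁ := rfl
        have a3 : (W⁄K).a₃ = algebraMap F K W.a₃ := rfl
        rw [a1, a3] at h
        linear_combination h
      have hp0 : Zp.eval c' ≠ 0 := fun h => hneg (hboth P₀ hP0 hpx h hm0)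
      exact ⟨hcop hp0 hdvd, by simp⟩
  · rw [Finset.not_nonempty_iff_eq_empty] at hne
    obtain ⟨P₀, hP0, hpx⟩ := exists_point_above (W := W) c'
    have hfix : Fr P₀ = -P₀ := by
      have h1 : px (Fr P₀) = px P₀ := by rw [px_Fr, hpx, hcq]
      rcases (px_eq_iff (Fr_ne_zero hP0) hP0).mp h1 with h | h
      · exfalso
        have h2 := congrArg py h
        rw [py_Fr] at h2
        obtain ⟨y, hy⟩ := mem_range_of_pow_card h2
        have h3 : y ∈ fib W c := by
          rw [mem_fib, ← W.map_equation (f := algebraMap F K) (algebraMap F K).injective]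
          have h4 := eqn_of_ne_zero hP0
          rw [hpx, ← hy] at h4
          exact (equation_iff _ _).mpr h4
        rw [hne] at h3
        exact absurd h3 (Finset.notMem_empty _)
      · exact h
    have hp0 := g.eval_plus hP0 hfix hp
    rw [hpx] at hp0
    have hneg : P₀ ≠ -P₀ := by
      intro h
      have hfix' : Fr P₀ = P₀ := by rw [hfix]; exact h.symm
      have h2 := congrArg py hfix'
      rw [py_Fr] at h2
      obtain ⟨y, hy⟩ := mem_range_of_pow_card h2
      have h3 : y ∈ fib W c := by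
        rw [mem_fib, ← W.map_equation (f := algebraMap F K) (algebraMap F K).injective]
        have h4 := eqn_of_ne_zero hP0
        rw [hpx, ← hy] at h4
        exact (equation_iff _ _).mpr h4
      rw [hne] at h3
      exact absurd h3 (Finset.notMem_empty _)
    have hm0 : Zm.eval c' ≠ 0 := fun h => hneg (hboth P₀ hP0 hpx hp0 h)
    rw [hne, Finset.card_empty]
    refine ⟨by simp, ?_⟩
    apply hcop hm0
    rw [mul_comm]; exact hdvd

end Gen

end Fermat.Agent.Frob
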