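import Mathlib
import Fermat.Agent.Frob.Degree

/-!
# `deg (Fr - 1) = #E(F)` and the relation for Frobenius
-/

set_option autoImplicit false

namespace Fermat.Agent.Frob

open Polynomial WeierstrassCurve WeierstrassCurve.Affine WeierstrassCurve.Affine.Point
open Fermat.Agent.H08

universe u

variable {F : Type*} {K : Type*} {L : Type u} [Field F] [Field K] [Field L]
  [Algebra F K] [Algebra K L] [Algebra F L] [IsScalarTower F K L] {W : WeierstrassCurve.Affine F}

set_option linter.unusedSectionVars false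

lemma card_fib_le_two (W : WeierstrassCurve.Affine F) [Fintype F] (c : F) :
    (fib W c).card ≤ 2 := by
  by_cases hne : (fib W c).Nonempty
  · obtain ⟨y, hy⟩ := hne
    by_cases hyy : y = W.negY c y
    · rw [card_fib_of_eq hy hyy]; norm_num
    · rw [card_fib_of_ne hy hyy]
  · rw [Finset.not_nonempty_iff_eq_empty] at hne
    rw [hne]; simp

lemma prod_pow_dvd [Fintype F] {r : F → ℕ} {Z : K[X]}
    (h : ∀ c : F, (X - C (algebraMap F K c)) ^ r c ∣ Z) :
    ∏ c : F, (X - C (algebraMap F K c)) ^ r c ∣ Z := by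
  apply Finset.prod_dvd_of_coprime
  · intro c _ d _ hcd
    apply IsCoprime.pow
    apply isCoprime_X_sub_C_of_isUnit_sub
    rw [isUnit_iff_ne_zero, sub_ne_zero]
    exact fun h => hcd ((algebraMap F K).injective h)
  · intro c _; exact h c

lemma natDegree_prod_pow [Fintype F] (r : F → ℕ) :
    (∏ c : F, (X - C (algebraMap F K c)) ^ r c : K[X]).natDegree = ∑ c : F, r c := by
  rw [natDegree_prod_of_monic]
  · apply Finset.sum_congr rfl
    intro c _
    rw [natDegree_pow, natDegree_X_sub_C, mul_one]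
  · intro c _
    exact (monic_X_sub_C _).pow _

/-- the numerical part of the argument -/
lemma degree_count {q : ℕ} (hq : 1 ≤ q) {E0 : WeierstrassCurve K} {Xp Zp Xm Zm : K[X]} {k : K}
    (hk : k ≠ 0)
    (hZ : Zp.natDegree + Zm.natDegree = 2 * q) (hZp : Zp ≠ 0) (hZm : Zm ≠ 0)
    (hd : deg2 Xp Zp + deg2 Xm Zm = 2 * q + 2)
    (e1 : Xp * Zm + Xm * Zp = C k * as1 (E0.map C)
      (X ^ q * X) (X ^ q * 1 + X * 1) (1 * 1)) :
    deg2 Xm Zm = Zm.natDegree + 1 ∧ deg2 Xp Zp = Zp.natDegree + 1 := by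
  have hdeg : (Xp * Zm + Xm * Zp).natDegree ≤ 2 * q + 1 := by
    rw [e1, natDegree_C_mul hk, as1, WeierstrassCurve.map_b₂, WeierstrassCurve.map_b₄,
      WeierstrassCurve.map_b₆]
    have e : 2 * (X ^ q * 1 + X * 1) * (X ^ q * X) + C E0.b₂ * (X ^ q * X) * (1 * 1) +
        C E0.b₄ * (X ^ q * 1 + X * 1) * (1 * 1) + C E0.b₆ * (1 * 1) ^ 2 =
        C 2 * X ^ (2 * q + 1) + C 2 * X ^ (q + 2) + C E0.b₂ * X ^ (q + 1) + C E0.b₄ * X ^ q
          + C E0.b₄ * X ^ 1 + C E0.b₆ * X ^ 0 := by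
      have : (2 : K[X]) = C 2 := by rw [C_ofNat]
      rw [← this]; ring
    rw [e]
    have hmono : ∀ (a : K) (n : ℕ), n ≤ 2 * q + 1 → (C a * X ^ n : K[X]).natDegree ≤ 2 * q + 1 :=
      fun a n hn => (natDegree_C_mul_X_pow_le a n).trans hn
    refine natDegree_add_le_of_degree_le (natDegree_add_le_of_degree_le
      (natDegree_add_le_of_degree_le (natDegree_add_le_of_degree_le
      (natDegree_add_le_of_degree_le ?_ ?_) ?_) ?_) ?_) ?_ <;> apply hmono <;> omega
  have hzp := natDegree_le_deg2_right Xp Zp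
  have hzm := natDegree_le_deg2_right Xm Zm
  by_contra hcon
  have hcases : (deg2 Xp Zp = Zp.natDegree + 2 ∧ deg2 Xm Zm = Zm.natDegree) ∨
      (deg2 Xp Zp = Zp.natDegree ∧ deg2 Xm Zm = Zm.natDegree + 2) := by omega
  rcases hcases with ⟨h1, h2⟩ | ⟨h1, h2⟩
  · have hXp : Xp.natDegree = Zp.natDegree + 2 := by
      rw [deg2] at h1; omega
    have hXm : Xm.natDegree ≤ Zm.natDegree := by
      rw [deg2] at h2; omega
    have hXp0 : Xp ≠ 0 := by
      rintro rfl
      simp at hXp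
    have h3 : (Xp * Zm).natDegree = 2 * q + 2 := by
      rw [natDegree_mul hXp0 hZm]; omega
    have h4 : (Xm * Zp).natDegree ≤ 2 * q := by
      refine natDegree_mul_le.trans ?_
      omega
    have h5 : (Xp * Zm + Xm * Zp).natDegree = 2 * q + 2 := by
      rw [natDegree_add_eq_left_of_natDegree_lt (by omega), h3]
    omega
  · have hXm : Xm.natDegree = Zm.natDegree + 2 := by
      rw [deg2] at h2; omega
    have hXp : Xp.natDegree ≤ Zp.natDegree := by
      rw [deg2] at h1; omega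
    have hXm0 : Xm ≠ 0 := by
      rintro rfl
      simp at hXm
    have h3 : (Xm * Zp).natDegree = 2 * q + 2 := by
      rw [natDegree_mul hXm0 hZp]; omega
    have h4 : (Xp * Zm).natDegree ≤ 2 * q := by
      refine natDegree_mul_le.trans ?_
      omega
    have h5 : (Xp * Zm + Xm * Zp).natDegree = 2 * q + 2 := by
      rw [natDegree_add_eq_right_of_natDegree_lt (by omega), h3]
    omega

namespace Gen

variable (g : Gen W K L) [DecidableEq L] [DecidableEq K] [Fintype F] [W.IsElliptic]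

/-- **`deg (Fr - 1) = #E(F)`** and `deg (Fr + 1) ≥ 1`. -/
theorem ht_main [IsAlgClosed K] : g.ht (Fr g.Q - g.Q) = (Nat.card W.Point : ℤ) ∧
    1 ≤ g.ht (Fr g.Q + g.Q) := by
  set q := Fintype.card F with hq
  have hq1 : 1 < q := Fintype.one_lt_card
  have hE : (W⁄K).IsElliptic := inferInstanceAs (W.map (algebraMap F K)).IsElliptic
  have hFQ := g.Fr_mem g.Q_mem
  have h1 : Rep g.ι (Fr g.Q) (X ^ q) 1 := by
    refine ⟨prim2_iff.mpr isCoprime_one_right, ?_⟩
    rw [xa_of_ne (Fr_ne_zero g.Q_ne_zero), xb_of_ne (Fr_ne_zero g.Q_ne_zero), map_one, mul_one,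
      one_mul, map_pow, ι_X, px_Fr, px_Q]
  have h2 : Rep g.ι g.Q X 1 := by
    refine ⟨prim2_iff.mpr isCoprime_one_right, ?_⟩
    rw [xa_of_ne g.Q_ne_zero, xb_of_ne g.Q_ne_zero, map_one, mul_one, one_mul, ι_X, px_Q]
  obtain ⟨Xp, Zp, hp⟩ := g.exists_rep_of_mem (g.Gm.add_mem hFQ g.Q_mem)
  obtain ⟨Xm, Zm, hm⟩ := g.exists_rep_of_mem (g.Gm.sub_mem hFQ g.Q_mem)
  obtain ⟨k, hk, -, e1, e2⟩ := add_sub_poly g.ι_inj (W⁄K) g.hE h1 h2 hp hm
  have e2' : Zp * Zm = C k * (X ^ q - X) ^ 2 := by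
    rw [e2, as2]; ring
  have hloc := fun c : F => g.local_dvd hp hm hk e1 e2' c
  have hne : (X ^ q - X : K[X]) ≠ 0 := by
    rw [← prod_X_sub_C_map (F := F) (K := K)]
    exact Finset.prod_ne_zero_iff.mpr fun c _ => X_sub_C_ne_zero _
  have hdegq : (X ^ q - X : K[X]).natDegree = q :=
    FiniteField.X_pow_card_sub_X_natDegree_eq K hq1
  have hZpm : Zp * Zm ≠ 0 := by
    rw [e2']; exact mul_ne_zero (C_ne_zero.mpr hk) (pow_ne_zero 2 hne)
  have hZp : Zp ≠ 0 := left_ne_zero_of_mul hZpm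
  have hZm : Zm ≠ 0 := right_ne_zero_of_mul hZpm
  have hZ : Zp.natDegree + Zm.natDegree = 2 * q := by
    rw [← natDegree_mul hZp hZm, e2', natDegree_C_mul hk, natDegree_pow, hdegq]
  have hm1 := natDegree_le_of_dvd (prod_pow_dvd (fun c => (hloc c).1)) hZm
  have hp1 := natDegree_le_of_dvd (prod_pow_dvd (fun c => (hloc c).2)) hZp
  rw [natDegree_prod_pow] at hm1 hp1
  have hsum : ∑ c : F, (fib W c).card + ∑ c : F, (2 - (fib W c).card) = 2 * q := by
    rw [← Finset.sum_add_distrib]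
    have : ∀ c ∈ (Finset.univ : Finset F), (fib W c).card + (2 - (fib W c).card) = 2 := by
      intro c _
      have := card_fib_le_two W c
      omega
    rw [Finset.sum_congr rfl this, Finset.sum_const, Finset.card_univ, smul_eq_mul, mul_comm]
  have hpar := g.ht_parallelogram hFQ g.Q_mem
  rw [g.ht_eq hp, g.ht_eq hm, g.ht_Fr g.Q_mem, g.ht_Q] at hpar
  have hd : deg2 Xp Zp + deg2 Xm Zm = 2 * q + 2 := by
    have : ((deg2 Xp Zp : ℕ) : ℤ) + (deg2 Xm Zm : ℕ) = 2 * q + 2 := by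
      rw [hpar]; ring
    exact_mod_cast this
  obtain ⟨r1, r2⟩ := degree_count (by omega) hk hZ hZp hZm hd e1
  constructor
  · rw [g.ht_eq hm, r1, card_point_eq]
    have : Zm.natDegree = ∑ c : F, (fib W c).card := by omega
    rw [this]; push_cast; ring
  · rw [g.ht_eq hp, r2]; push_cast; omega

include g in
/-- **The relation satisfied by Frobenius** on a field with a generic point. -/
theorem relation [IsAlgClosed K] (P : (W⁄K).Point) :
    Fr (Fr P) - ((Fintype.card F : ℤ) + 1 - (Nat.card W.Point : ℤ)) • Fr P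
      + (Fintype.card F : ℤ) • P = 0 :=
  g.specialize _ _ (g.generic_relation g.ht_main.1 g.ht_main.2)

end Gen

end Fermat.Agent.Frob
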