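import Mathlib
import Fermat.Agent.H08.Congruence

/-!
# The reduction homomorphism of an elliptic curve with good reduction

`A` is an arbitrary valuation subring of a field `L` with residue field `k`; `E` is a Weierstrass
curve over `L` with coefficients in `A`, and `E'` its reduction, an elliptic curve over `k`.
-/

set_option autoImplicit false

namespace Fermat.Agent.Frob

open WeierstrassCurve WeierstrassCurve.Affine WeierstrassCurve.Affine.Point
open Fermat.Agent.H08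

universe u

variable {L : Type u} [Field L] {A : ValuationSubring L}

local notation "κ" => IsLocalRing.ResidueField

section Rz

/-- `z` is integral and reduces to `z'`. -/
def Rz (A : ValuationSubring L) (z : L) (z' : κ A) : Prop :=
  ∃ h : z ∈ A, IsLocalRing.residue A ⟨z, h⟩ = z'

lemma Rz.exists_of_le {z : L} (h : A.valuation z ≤ 1) : ∃ z' : κ A, Rz A z z' :=
  ⟨_, (A.valuation_le_one_iff z).mp h, rfl⟩

lemma Rz.le {z : L} {z' : κ A} (h : Rz A z z') : A.valuation z ≤ 1 :=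
  (A.valuation_le_one_iff z).mpr h.1

lemma Rz.unique {z : L} {z' z'' : κ A} (h : Rz A z z') (h' : Rz A z z'') : z' = z'' := by
  obtain ⟨h1, rfl⟩ := h
  obtain ⟨h2, rfl⟩ := h'
  rfl

lemma Rz.add {z w : L} {z' w' : κ A} (h : Rz A z z') (h' : Rz A w w') :
    Rz A (z + w) (z' + w') := by
  obtain ⟨h1, rfl⟩ := h
  obtain ⟨h2, rfl⟩ := h'
  exact ⟨A.add_mem _ _ h1 h2, (map_add (IsLocalRing.residue A) ⟨z, h1⟩ ⟨w, h2⟩)⟩

lemma Rz.mul {z w : L} {z' w' : κ A} (h : Rz A z z') (h' : Rz A w w') :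
    Rz A (z * w) (z' * w') := by
  obtain ⟨h1, rfl⟩ := h
  obtain ⟨h2, rfl⟩ := h'
  exact ⟨A.mul_mem _ _ h1 h2, (map_mul (IsLocalRing.residue A) ⟨z, h1⟩ ⟨w, h2⟩)⟩

lemma Rz.neg {z : L} {z' : κ A} (h : Rz A z z') : Rz A (-z) (-z') := by
  obtain ⟨h1, rfl⟩ := h
  exact ⟨A.neg_mem _ h1, (map_neg (IsLocalRing.residue A) ⟨z, h1⟩)⟩

lemma Rz.sub {z w : L} {z' w' : κ A} (h : Rz A z z') (h' : Rz A w w') :
    Rz A (z - w) (z' - w') := by
  rw [sub_eq_add_neg, sub_eq_add_neg]; exact h.add h'.neg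

lemma Rz.one : Rz A (1 : L) 1 := ⟨A.one_mem, map_one (IsLocalRing.residue A)⟩

lemma Rz.zero : Rz A (0 : L) 0 := ⟨A.zero_mem, map_zero (IsLocalRing.residue A)⟩

lemma Rz.pow {z : L} {z' : κ A} (h : Rz A z z') (n : ℕ) : Rz A (z ^ n) (z' ^ n) := by
  induction n with
  | zero => rw [pow_zero, pow_zero]; exact Rz.one
  | succ n ih => rw [pow_succ, pow_succ]; exact ih.mul h

lemma Rz.natCast (n : ℕ) : Rz A (n : L) (n : κ A) := by
  induction n with
  | zero => rw [Nat.cast_zero, Nat.cast_zero]; exact Rz.zero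
  | succ n ih => rw [Nat.cast_succ, Nat.cast_succ]; exact ih.add Rz.one

lemma Rz.intCast (n : ℤ) : Rz A (n : L) (n : κ A) := by
  obtain ⟨n, rfl | rfl⟩ := n.eq_nat_or_neg
  · rw [Int.cast_natCast, Int.cast_natCast]; exact Rz.natCast n
  · rw [Int.cast_neg, Int.cast_neg, Int.cast_natCast, Int.cast_natCast]; exact (Rz.natCast n).neg

lemma Rz.ofNat (n : ℕ) [n.AtLeastTwo] : Rz A (OfNat.ofNat n : L) (OfNat.ofNat n : κ A) :=
  Rz.natCast n

lemma Rz.lt_iff {z : L} {z' : κ A} (h : Rz A z z') : A.valuation z < 1 ↔ z' = 0 := by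
  obtain ⟨h1, rfl⟩ := h
  rw [IsLocalRing.residue_eq_zero_iff]
  exact (A.valuation_lt_one_iff ⟨z, h1⟩).symm

lemma Rz.eq_one_iff {z : L} {z' : κ A} (h : Rz A z z') : A.valuation z = 1 ↔ z' ≠ 0 := by
  rw [← not_iff_not, not_not, ← h.lt_iff]
  exact ⟨fun h1 => lt_of_le_of_ne h.le h1, fun h1 => ne_of_lt h1⟩

lemma Rz.ne_zero {z : L} {z' : κ A} (h : Rz A z z') (h' : z' ≠ 0) : z ≠ 0 := by
  rintro rfl
  exact h' (h.unique Rz.zero)

lemma Rz.inv {z : L} {z' : κ A} (h : Rz A z z') (h' : z' ≠ 0) : Rz A z⁻¹ z'⁻¹ := by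
  have h1 : A.valuation z⁻¹ ≤ 1 := by
    rw [map_inv₀, (h.eq_one_iff).mpr h', inv_one]
  obtain ⟨w, hw⟩ := Rz.exists_of_le h1
  have h2 := h.mul hw
  rw [mul_inv_cancel₀ (h.ne_zero h')] at h2
  have h3 := h2.unique Rz.one
  rw [eq_inv_of_mul_eq_one_right h3] at hw
  exact hw

lemma Rz.div {z w : L} {z' w' : κ A} (h : Rz A z z') (h' : Rz A w w') (hw : w' ≠ 0) :
    Rz A (z / w) (z' / w') := by
  rw [div_eq_mul_inv, div_eq_mul_inv]; exact h.mul (h'.inv hw)

/-- two integral elements with the same reduction are congruent -/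
lemma Rz.sub_lt {z w : L} {z' : κ A} (h : Rz A z z') (h' : Rz A w z') :
    A.valuation (z - w) < 1 := by
  rw [(h.sub h').lt_iff, sub_self]

lemma Rz.of_sub_lt {z w : L} {z' : κ A} (h : Rz A z z') (h' : A.valuation (z - w) < 1) :
    Rz A w z' := by
  have e : w = z - (z - w) := by ring
  obtain ⟨d, hd⟩ := Rz.exists_of_le h'.le
  have := h.sub hd
  rw [hd.lt_iff.mp h', sub_zero, ← e] at this
  exact this

end Rz

/-- `E'` is the reduction of `E`. -/
structure RedCurve (A : ValuationSubring L) (E : WeierstrassCurve.Affine L)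
    (E' : WeierstrassCurve.Affine (κ A)) : Prop where
  h₁ : Rz A E.a₁ E'.a₁
  h₂ : Rz A E.a₂ E'.a₂
  h₃ : Rz A E.a₃ E'.a₃
  h₄ : Rz A E.a₄ E'.a₄
  h₆ : Rz A E.a₆ E'.a₆

variable {E : WeierstrassCurve.Affine L} {E' : WeierstrassCurve.Affine (κ A)}

lemma RedCurve.isIntegral (hE : RedCurve A E E') : IsIntegralFor A.valuation E :=
  ⟨hE.h₁.le, hE.h₂.le, hE.h₃.le, hE.h₄.le, hE.h₆.le⟩

section slope

variable {F : Type*} [Field F] [DecidableEq F] {W : WeierstrassCurve.Affine F}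

lemma slope_data {P Q : W.Point} (hP : P ≠ 0) (hQ : Q ≠ 0) (hPQ : P + Q ≠ 0) :
    ∃ ℓ : F, ℓ * (px P - px Q) = py P - py Q ∧
      ℓ * (py P + py Q + W.a₁ * px Q + W.a₃) = px P ^ 2 + px P * px Q + px Q ^ 2
        + W.a₂ * (px P + px Q) + W.a₄ - W.a₁ * py P ∧
      px (P + Q) = ℓ ^ 2 + W.a₁ * ℓ - W.a₂ - px P - px Q ∧
      py (P + Q) = -(ℓ * (px (P + Q) - px P) + py P) - W.a₁ * px (P + Q) - W.a₃ := by
  have eP := eqn_of_ne_zero hP
  have eQ := eqn_of_ne_zero hQ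
  obtain ⟨x₁, y₁, h₁, rfl⟩ := exists_eq_some hP
  obtain ⟨x₂, y₂, h₂, rfl⟩ := exists_eq_some hQ
  have hxy : ¬(x₁ = x₂ ∧ y₁ = W.negY x₂ y₂) := by
    rintro ⟨hx, hy⟩
    exact hPQ (add_of_Y_eq hx hy)
  simp only [px_some, py_some] at eP eQ ⊢
  refine ⟨W.slope x₁ x₂ y₁ y₂, ?_, ?_, ?_, ?_⟩
  · by_cases hx : x₁ = x₂
    · have hy : y₁ = y₂ := Y_eq_of_Y_ne h₁.1 h₂.1 hx (fun h => hxy ⟨hx, h⟩)
      rw [hx, hy]; ring
    · rw [slope_of_X_ne hx, div_mul_cancel₀ _ (sub_ne_zero.mpr hx)]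
  · by_cases hx : x₁ = x₂
    · have hy' : y₁ ≠ W.negY x₂ y₂ := fun h => hxy ⟨hx, h⟩
      have hy : y₁ = y₂ := Y_eq_of_Y_ne h₁.1 h₂.1 hx hy'
      rw [slope_of_Y_ne hx hy']
      subst hx; subst hy
      have hne : y₁ - W.negY x₁ y₁ ≠ 0 := sub_ne_zero.mpr hy'
      have e : y₁ + y₁ + W.a₁ * x₁ + W.a₃ = y₁ - W.negY x₁ y₁ := by rw [negY]; ring
      rw [e, div_mul_cancel₀ _ hne]; ring
    · have hne : x₁ - x₂ ≠ 0 := sub_ne_zero.mpr hx
      apply mul_right_cancel₀ hne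
      have h3 : W.slope x₁ x₂ y₁ y₂ * (x₁ - x₂) = y₁ - y₂ := by
        rw [slope_of_X_ne hx, div_mul_cancel₀ _ hne]
      have e : W.slope x₁ x₂ y₁ y₂ * (y₁ + y₂ + W.a₁ * x₂ + W.a₃) * (x₁ - x₂)
        = (W.slope x₁ x₂ y₁ y₂ * (x₁ - x₂)) * (y₁ + y₂ + W.a₁ * x₂ + W.a₃) := by ring
      rw [e, h3]
      linear_combination eP - eQ
  · rw [add_some hxy, px_some, addX]
  · rw [add_some hxy, px_some, py_some, addY, negAddY, negY]

end slope

/-- The reduction of `P` is `P'`. -/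
def RedTo (P : E.Point) (P' : E'.Point) : Prop :=
  (InE1 A.valuation P ∧ P' = 0) ∨
    (P ≠ 0 ∧ P' ≠ 0 ∧ Rz A (px P) (px P') ∧ Rz A (py P) (py P'))

lemma RedTo.inE1_iff {P : E.Point} {P' : E'.Point} (h : RedTo P P') :
    InE1 A.valuation P ↔ P' = 0 := by
  rcases h with ⟨h1, h2⟩ | ⟨h1, h2, h3, h4⟩
  · exact ⟨fun _ => h2, fun _ => h1⟩
  · constructor
    · rintro (h | h)
      · exact absurd h h1
      · exact absurd h3.le (not_le.mpr h)
    · exact fun h => absurd h h2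

lemma RedTo.integral {P : E.Point} {P' : E'.Point} (h : RedTo P P') (hP : P' ≠ 0) :
    P ≠ 0 ∧ Rz A (px P) (px P') ∧ Rz A (py P) (py P') := by
  rcases h with ⟨h1, h2⟩ | ⟨h1, h2, h3, h4⟩
  · exact absurd h2 hP
  · exact ⟨h1, h3, h4⟩

lemma pt_ext {F : Type*} [Field F] {W : WeierstrassCurve.Affine F} {P Q : W.Point} (hP : P ≠ 0)
    (hQ : Q ≠ 0) (hx : px P = px Q) (hy : py P = py Q) : P = Q := by
  obtain ⟨x, y, h, rfl⟩ := exists_eq_some hP
  obtain ⟨x', y', h', rfl⟩ := exists_eq_some hQ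
  simp only [px_some, py_some] at hx hy
  subst hx; subst hy; rfl

lemma RedTo.unique {P : E.Point} {P' P'' : E'.Point} (h : RedTo P P') (h' : RedTo P P'') :
    P' = P'' := by
  by_cases h1 : InE1 A.valuation P
  · rw [h.inE1_iff.mp h1, h'.inE1_iff.mp h1]
  · have h2 : P' ≠ 0 := fun h3 => h1 (h.inE1_iff.mpr h3)
    have h3 : P'' ≠ 0 := fun h3 => h1 (h'.inE1_iff.mpr h3)
    obtain ⟨-, h4, h5⟩ := h.integral h2
    obtain ⟨-, h6, h7⟩ := h'.integral h3
    exact pt_ext h2 h3 (h4.unique h6) (h5.unique h7)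

lemma exists_redTo (hE : RedCurve A E E') [E'.IsElliptic] (P : E.Point) :
    ∃ P' : E'.Point, RedTo P P' := by
  by_cases h : InE1 A.valuation P
  · exact ⟨0, Or.inl ⟨h, rfl⟩⟩
  · have hP : P ≠ 0 := fun h0 => h (Or.inl h0)
    have hx : A.valuation (px P) ≤ 1 := by
      by_contra hc
      exact h (Or.inr (not_le.mp hc))
    have hy := val_py_le_one hE.isIntegral hx
    obtain ⟨x', hx'⟩ := Rz.exists_of_le hx
    obtain ⟨y', hy'⟩ := Rz.exists_of_le hy
    have heq : E'.Equation x' y' := by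
      rw [equation_iff]
      have e := eqn_of_ne_zero hP
      have h1 := ((hy'.pow 2).add ((hE.h₁.mul hx').mul hy')).add (hE.h₃.mul hy')
      have h2 := (((hx'.pow 3).add (hE.h₂.mul (hx'.pow 2))).add (hE.h₄.mul hx')).add hE.h₆
      have e' : py P ^ 2 + E.a₁ * px P * py P + E.a₃ * py P =
          px P ^ 3 + E.a₂ * px P ^ 2 + E.a₄ * px P + E.a₆ := by linear_combination e
      rw [e'] at h1
      exact h1.unique h2
    exact ⟨Point.some x' y' (equation_iff_nonsingular.mp heq), Or.inr ⟨hP, some_ne_zero _, hx', hy'⟩⟩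

lemma neg_pt_ne_zero {F : Type*} [Field F] {W : WeierstrassCurve.Affine F} {P : W.Point}
    (hP : P ≠ 0) : -P ≠ 0 := by
  obtain ⟨x, y, h, rfl⟩ := exists_eq_some hP
  rw [neg_some]
  exact some_ne_zero _

lemma RedTo.neg (hE : RedCurve A E E') {P : E.Point} {P' : E'.Point} (h : RedTo P P') :
    RedTo (-P) (-P') := by
  rcases h with ⟨h1, h2⟩ | ⟨h1, h2, h3, h4⟩
  · exact Or.inl ⟨h1.neg, by rw [h2]; rfl⟩
  · refine Or.inr ⟨neg_pt_ne_zero h1, neg_pt_ne_zero h2, ?_, ?_⟩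
    · rw [px_neg, px_neg]; exact h3
    · rw [py_neg h1, py_neg h2]; exact (h4.neg.sub (hE.h₁.mul h3)).sub hE.h₃

lemma RedTo.nonsingularRed (hE : RedCurve A E E') [E'.IsElliptic] {P : E.Point} {P' : E'.Point}
    (h : RedTo P P') (hP' : P' ≠ 0) : NonsingularRed A.valuation P := by
  obtain ⟨h1, h3, h4⟩ := h.integral hP'
  have hψ : Rz A (psi2 P) (psi2 P') := by
    rw [psi2, psi2]
    exact (((Rz.ofNat 2).mul h4).add (hE.h₁.mul h3)).add hE.h₃
  have hφ : Rz A (phiX P) (phiX P') := by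
    rw [phiX, phiX]
    exact ((((Rz.ofNat 3).mul (h3.pow 2)).add (((Rz.ofNat 2).mul hE.h₂).mul h3)).add hE.h₄).sub
      (hE.h₁.mul h4)
  obtain ⟨x, y, hns, rfl⟩ := exists_eq_some hP'
  rw [nonsingular_iff] at hns
  rcases hns.2 with h5 | h5
  · right
    rw [hφ.eq_one_iff, phiX, px_some, py_some]
    intro h0
    apply h5
    linear_combination -h0
  · left
    rw [hψ.eq_one_iff, psi2, px_some, py_some]
    intro h0
    apply h5
    linear_combination h0

variable [DecidableEq L]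

lemma RedTo.sub_inE1 (hE : RedCurve A E E') [E'.IsElliptic] {P Q : E.Point} {P' : E'.Point}
    (h : RedTo P P') (h' : RedTo Q P') : InE1 A.valuation (P - Q) := by
  by_cases hP' : P' = 0
  · exact (h.inE1_iff.mpr hP').sub hE.isIntegral (h'.inE1_iff.mpr hP')
  · obtain ⟨h1, h2, h3⟩ := h.integral hP'
    obtain ⟨h4, h5, h6⟩ := h'.integral hP'
    exact inE1_sub_of_congr hE.isIntegral h1 h4 h2.le (h2.sub_lt h5) (h3.sub_lt h6)
      (h.nonsingularRed hE hP')

variable [DecidableEq (κ A)]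

lemma RedTo.add_aux (hE : RedCurve A E E') {P Q : E.Point} {P' Q' : E'.Point}
    (h : RedTo P P') (h' : RedTo Q Q') (hP' : P' ≠ 0) (hQ' : Q' ≠ 0) (hPQ' : P' + Q' ≠ 0) :
    RedTo (P + Q) (P' + Q') := by
  obtain ⟨hP, hPx, hPy⟩ := h.integral hP'
  obtain ⟨hQ, hQx, hQy⟩ := h'.integral hQ'
  have hPQ : P + Q ≠ 0 := by
    intro h0
    have h1 : P = -Q := eq_neg_of_add_eq_zero_left h0
    rw [h1] at h
    have h2 := h.unique (h'.neg hE)
    apply hPQ'
    rw [h2, neg_add_cancel]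
  obtain ⟨ℓ, e1, e2, e3, e4⟩ := slope_data hP hQ hPQ
  obtain ⟨m, f1, f2, f3, f4⟩ := slope_data hP' hQ' hPQ'
  have hℓ : Rz A ℓ m := by
    have r1 := hPx.sub hQx
    have r2 := hPy.sub hQy
    have r3 := ((hPy.add hQy).add (hE.h₁.mul hQx)).add hE.h₃
    have r4 := (((((hPx.pow 2).add (hPx.mul hQx)).add (hQx.pow 2)).add
      (hE.h₂.mul (hPx.add hQx))).add hE.h₄).sub (hE.h₁.mul hPy)
    by_cases hx : px P' - px Q' = 0
    · have hD : py P' + py Q' + E'.a₁ * px Q' + E'.a₃ ≠ 0 := by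
        intro h0
        apply hPQ'
        have : P' = -Q' := by
          apply pt_ext hP' (neg_ne_zero.mpr hQ')
          · rw [px_neg]; exact sub_eq_zero.mp hx
          · rw [py_neg hQ']; linear_combination h0
        rw [this, neg_add_cancel]
      have r5 := r4.div r3 hD
      rw [← e2, ← f2, mul_div_cancel_right₀ _ (r3.ne_zero hD), mul_div_cancel_right₀ _ hD] at r5
      exact r5
    · have r5 := r2.div r1 hx
      rw [← e1, ← f1, mul_div_cancel_right₀ _ (r1.ne_zero hx), mul_div_cancel_right₀ _ hx] at r5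
      exact r5
  have hX : Rz A (px (P + Q)) (px (P' + Q')) := by
    rw [e3, f3]
    exact ((((hℓ.pow 2).add (hE.h₁.mul hℓ)).sub hE.h₂).sub hPx).sub hQx
  have hY : Rz A (py (P + Q)) (py (P' + Q')) := by
    rw [e4, f4]
    exact (((hℓ.mul (hX.sub hPx)).add hPy).neg.sub (hE.h₁.mul hX)).sub hE.h₃
  exact Or.inr ⟨hPQ, hPQ', hX, hY⟩

lemma RedTo.add_zero_right (hE : RedCurve A E E') [E'.IsElliptic] {P Q : E.Point} {P' : E'.Point}
    (h : RedTo P P') (h' : InE1 A.valuation Q) (hP' : P' ≠ 0) :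
    RedTo (P + Q) P' := by
  obtain ⟨S', hS⟩ := exists_redTo hE (P + Q)
  by_cases hS0 : S' = 0
  · exfalso
    have h1 := hS.inE1_iff.mpr hS0
    have h2 := h1.sub hE.isIntegral h'
    rw [add_sub_cancel_right] at h2
    exact hP' (h.inE1_iff.mp h2)
  · by_cases hSP : S' + -P' = 0
    · have : S' = P' := by rw [← sub_eq_add_neg, sub_eq_zero] at hSP; exact hSP
      rw [← this]; exact hS
    · exfalso
      have h1 := hS.add_aux hE (h.neg hE) hS0 (neg_ne_zero.mpr hP') hSP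
      have e : P + Q + -P = Q := by abel
      rw [e] at h1
      exact hSP (h1.inE1_iff.mp h')

theorem RedTo.add (hE : RedCurve A E E') [E'.IsElliptic] {P Q : E.Point} {P' Q' : E'.Point}
    (h : RedTo P P') (h' : RedTo Q Q') : RedTo (P + Q) (P' + Q') := by
  by_cases hPQ : P' + Q' = 0
  · have h1 : P' = -Q' := eq_neg_of_add_eq_zero_left hPQ
    have h2 := h'.neg hE
    rw [← h1] at h2
    have h3 := h.sub_inE1 hE h2
    rw [sub_neg_eq_add] at h3
    exact Or.inl ⟨h3, hPQ⟩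
  · by_cases hP' : P' = 0
    · by_cases hQ' : Q' = 0
      · exact absurd (by rw [hP', hQ', add_zero]) hPQ
      · rw [hP', zero_add, add_comm]
        exact h'.add_zero_right hE (h.inE1_iff.mpr hP') hQ'
    · by_cases hQ' : Q' = 0
      · rw [hQ', add_zero]
        exact h.add_zero_right hE (h'.inE1_iff.mpr hQ') hP'
      · exact h.add_aux hE h' hP' hQ' hPQ

/-- **The reduction homomorphism.** -/
noncomputable def redHom (hE : RedCurve A E E') [E'.IsElliptic] : E.Point →+ E'.Point where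
  toFun P := (exists_redTo hE P).choose
  map_zero' := (exists_redTo hE 0).choose_spec.unique (Or.inl ⟨InE1.zero, rfl⟩)
  map_add' P Q := (exists_redTo hE (P + Q)).choose_spec.unique
    ((exists_redTo hE P).choose_spec.add hE (exists_redTo hE Q).choose_spec)

lemma redTo_redHom (hE : RedCurve A E E') [E'.IsElliptic] (P : E.Point) :
    RedTo P (redHom hE P) := (exists_redTo hE P).choose_spec

lemma redHom_eq_of_redTo (hE : RedCurve A E E') [E'.IsElliptic] {P : E.Point} {P' : E'.Point}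
    (h : RedTo P P') : redHom hE P = P' := (redTo_redHom hE P).unique h

lemma redHom_eq_zero_iff (hE : RedCurve A E E') [E'.IsElliptic] (P : E.Point) :
    redHom hE P = 0 ↔ InE1 A.valuation P := (redTo_redHom hE P).inE1_iff.symm

end Fermat.Agent.Frob
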