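import Mathlib
import Fermat.Agent.Frob.HtMain
import Fermat.Agent.Frob.GenExists
import Fermat.Agent.Frob.Reduction

/-!
# Multiplication by `n`: surjectivity and the number of `n`-torsion points
-/

set_option autoImplicit false

namespace Fermat.Agent.Frob

open Polynomial WeierstrassCurve WeierstrassCurve.Affine WeierstrassCurve.Affine.Point
open Fermat.Agent.H08

universe u

variable {F : Type*} {K : Type*} {L : Type u} [Field F] [Field K] [Field L]
  [Algebra F K] [Algebra K L] [Algebra F L] [IsScalarTower F K L] {W : WeierstrassCurve.Affine F}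

set_option linter.unusedSectionVars false

namespace Gen

variable (g : Gen W K L)

/-! ### The place at infinity -/

lemma transcendental_x : Transcendental K g.x := by
  rw [transcendental_iff_injective, injective_iff_map_eq_zero]
  exact g.inj

theorem exists_place_infty : ∃ A : ValuationSubring L,
    (∀ k : K, A.valuation (algebraMap K L k) ≤ 1) ∧ 1 < A.valuation g.x := by
  have htr : Transcendental K (g.x)⁻¹ := by
    intro h
    exact g.transcendental_x (by simpa using h.inv)
  have hinj := transcendental_iff_injective.mp htr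
  have hx0 : g.x ≠ 0 := by
    intro h
    have := g.inj X (by rw [aeval_X, h])
    exact X_ne_zero this
  let f : K[X] →+* L := (aeval (g.x)⁻¹ : K[X] →ₐ[K] L).toRingHom
  let S : Subring L := f.range
  let xc : S := ⟨f X, ⟨_, rfl⟩⟩
  have hI : Ideal.span {xc} ≠ ⊤ := by
    intro h
    rw [Ideal.span_singleton_eq_top] at h
    obtain ⟨u, hu⟩ := h
    obtain ⟨p, hp⟩ : ∃ p, f p = ((u⁻¹ : Sˣ) : S).1 := ((u⁻¹ : Sˣ) : S).2
    have h1 : f (X * p) = f 1 := by
      rw [map_mul, hp, map_one]
      have : xc * ((u⁻¹ : Sˣ) : S) = 1 := by rw [← hu]; exact u.mul_inv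
      exact congrArg Subtype.val this
    have h2 : X * p = 1 := hinj h1
    have h3 := congrArg (Polynomial.eval 0) h2
    simp at h3
  obtain ⟨A, hSA, hIA⟩ := Ideal.image_subset_nonunits_valuationSubring (Ideal.span {xc}) hI
  refine ⟨A, ?_, ?_⟩
  · intro k
    rw [A.valuation_le_one_iff]
    apply hSA
    exact ⟨C k, aeval_C _ _⟩
  · have h1 : f X ∈ A.nonunits := by
      apply hIA
      exact ⟨xc, Ideal.subset_span rfl, rfl⟩
    have h2 : f X = (g.x)⁻¹ := aeval_X _
    rw [h2, A.mem_nonunits_iff, map_inv₀] at h1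
    have hv : A.valuation g.x ≠ 0 := (Valuation.ne_zero_iff _).mpr hx0
    exact (inv_lt_one₀ (zero_lt_iff.mpr hv)).mp h1

variable {A : ValuationSubring L}

lemma val_ι_le_pow (hA : ∀ k : K, A.valuation (algebraMap K L k) ≤ 1)
    (hx : 1 < A.valuation g.x) (p : K[X]) : A.valuation (g.ι p) ≤ A.valuation g.x ^ p.natDegree := by
  rw [ι_apply, aeval_eq_sum_range]
  apply Valuation.map_sum_le
  intro i hi
  rw [Algebra.smul_def, map_mul, map_pow]
  have hi' : i ≤ p.natDegree := Nat.lt_succ_iff.mp (Finset.mem_range.mp hi)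
  calc A.valuation (algebraMap K L (p.coeff i)) * A.valuation g.x ^ i
      ≤ 1 * A.valuation g.x ^ i := by gcongr; exact hA _
    _ = A.valuation g.x ^ i := one_mul _
    _ ≤ A.valuation g.x ^ p.natDegree := pow_le_pow_right₀ hx.le hi'

lemma val_ι_eq_pow (hA : ∀ k : K, A.valuation (algebraMap K L k) ≤ 1)
    (hx : 1 < A.valuation g.x) {p : K[X]} (hp : p ≠ 0) :
    A.valuation (g.ι p) = A.valuation g.x ^ p.natDegree := by
  by_cases hd : p.natDegree = 0
  · rw [hd, pow_zero, eq_C_of_natDegree_eq_zero hd, ι_C]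
    apply val_const hA
    intro h
    apply hp
    rw [eq_C_of_natDegree_eq_zero hd, h, C_0]
  · have e : p = p.eraseLead + C p.leadingCoeff * X ^ p.natDegree :=
      (eraseLead_add_C_mul_X_pow p).symm
    have h1 : A.valuation (g.ι (C p.leadingCoeff * X ^ p.natDegree))
        = A.valuation g.x ^ p.natDegree := by
      rw [map_mul, map_pow, ι_C, ι_X, map_mul, map_pow,
        val_const hA (leadingCoeff_ne_zero.mpr hp), one_mul]
    have h2 : A.valuation (g.ι p.eraseLead) < A.valuation g.x ^ p.natDegree := by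
      refine lt_of_le_of_lt (g.val_ι_le_pow hA hx _) ?_
      apply pow_lt_pow_right₀ hx
      have := eraseLead_natDegree_le p
      omega
    conv_lhs => rw [e]
    rw [map_add, Valuation.map_add_eq_of_lt_right, h1]
    rw [h1]; exact h2

section

variable [DecidableEq L] [DecidableEq K] [W.IsElliptic]

lemma ht_nsmul_Q (n : ℕ) : g.ht (n • g.Q) = (n : ℤ) ^ 2 := by
  have := h_zsmul g.htG_par (n : ℤ) (⟨g.Q, g.Q_mem⟩ : g.Gm)
  rw [natCast_zsmul] at this
  have e1 : g.htG (⟨g.Q, g.Q_mem⟩ : g.Gm) = 1 := g.ht_Q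
  rw [e1, mul_one] at this
  exact this

/-- The rational function describing multiplication by `n` on `x`-coordinates. -/
theorem exists_rep_nsmul {n : ℕ} (hn : n ≠ 0) : ∃ X' Z' : K[X], Rep g.ι (n • g.Q) X' Z' ∧
    X'.natDegree = n ^ 2 ∧ Z'.natDegree < n ^ 2 := by
  obtain ⟨X', Z', h⟩ := g.exists_rep_of_mem (g.Gm.nsmul_mem g.Q_mem n)
  have hd : deg2 X' Z' = n ^ 2 := by
    have := g.ht_nsmul_Q n
    rw [g.ht_eq h] at this
    exact_mod_cast this
  have hne : n • g.Q ≠ 0 := by
    intro h0
    have := g.ht_nsmul_Q n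
    rw [h0, g.ht_zero] at this
    have h1 : (n : ℤ) ≠ 0 := by exact_mod_cast hn
    exact h1 (pow_eq_zero_iff two_ne_zero |>.mp this.symm)
  obtain ⟨A, hA, hx⟩ := g.exists_place_infty
  have hW := isIntegral_of_const (W := W) hA
  have hQ : InE1 A.valuation g.Q := Or.inr (by rw [px_Q]; exact hx)
  have hnQ : g.Q ∈ E1 A.valuation (W⁄L) hW := hQ
  have h1 : InE1 A.valuation (n • g.Q) := (E1 A.valuation (W⁄L) hW).nsmul_mem hnQ n
  have h2 : 1 < A.valuation (px (n • g.Q)) := h1.resolve_left hne
  have h3 := h.2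
  rw [xa_of_ne hne, xb_of_ne hne, one_mul] at h3
  have hZ0 : Z' ≠ 0 := by
    rintro rfl
    rw [_root_.map_zero, mul_zero] at h3
    have : X' = 0 := g.ι_inj (by rw [← h3, _root_.map_zero])
    rcases h.ne_zero with h4 | h4
    · exact h4 this
    · exact h4 rfl
  have hX0 : X' ≠ 0 := by
    rintro rfl
    rw [_root_.map_zero, mul_eq_zero] at h3
    rcases h3 with h3 | h3
    · rw [h3, _root_.map_zero] at h2; exact absurd h2 (by simp)
    · exact hZ0 (g.ι_inj (by rw [h3, _root_.map_zero]))
  have h4 := congrArg A.valuation h3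
  rw [map_mul, g.val_ι_eq_pow hA hx hZ0, g.val_ι_eq_pow hA hx hX0] at h4
  have h5 : Z'.natDegree < X'.natDegree := by
    by_contra hc
    push Not at hc
    have h6 : A.valuation g.x ^ X'.natDegree ≤ A.valuation g.x ^ Z'.natDegree :=
      pow_le_pow_right₀ hx.le hc
    rw [← h4] at h6
    have h7 : (0 : A.ValueGroup) < A.valuation g.x ^ Z'.natDegree := by
      apply pow_pos; exact lt_trans zero_lt_one hx
    have h8 : A.valuation (px (n • g.Q)) ≤ 1 := by
      rw [← mul_le_mul_iff_left₀ h7, one_mul]; exact h6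
    exact absurd h2 (not_lt.mpr h8)
  refine ⟨X', Z', h, ?_, ?_⟩
  · rw [deg2] at hd; omega
  · rw [deg2] at hd; omega

end

/-! ### Specialisation -/

/-- The map from constants to the residue field. -/
noncomputable def cst (hA : ∀ k : K, A.valuation (algebraMap K L k) ≤ 1) :
    K →+* IsLocalRing.ResidueField A :=
  (IsLocalRing.residue A).comp
    { toFun := fun k => ⟨algebraMap K L k, (A.valuation_le_one_iff _).mp (hA k)⟩
      map_one' := by ext; simp
      map_mul' := fun a b => by ext; simp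
      map_zero' := by ext; simp
      map_add' := fun a b => by ext; simp }

lemma rz_cst (hA : ∀ k : K, A.valuation (algebraMap K L k) ≤ 1) (k : K) :
    Rz A (algebraMap K L k) (cst hA k) := ⟨(A.valuation_le_one_iff _).mp (hA k), rfl⟩

lemma rz_ι (hA : ∀ k : K, A.valuation (algebraMap K L k) ≤ 1) {c : K}
    (hx : A.valuation (g.x - algebraMap K L c) < 1) (p : K[X]) :
    Rz A (g.ι p) (cst hA (p.eval c)) := by
  have hxc : Rz A g.x (cst hA c) := by
    apply (rz_cst hA c).of_sub_lt
    rw [Valuation.map_sub_swap]; exact hx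
  induction p using Polynomial.induction_on' with
  | add p q hp hq => rw [map_add, eval_add, map_add]; exact hp.add hq
  | monomial n a =>
    rw [← C_mul_X_pow_eq_monomial, map_mul, map_pow, ι_C, ι_X, eval_mul, eval_C, eval_pow, eval_X,
      map_mul, map_pow]
    exact (rz_cst hA a).mul (hxc.pow n)

section

variable [DecidableEq L] [DecidableEq K] [W.IsElliptic]

/-- **Specialisation** of a multiple of the generic point. -/
theorem spec_nsmul {n : ℕ} {X' Z' : K[X]} (h : Rep g.ι (n • g.Q) X' Z') {P : (W⁄K).Point}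
    (hP : P ≠ 0) :
    xa (n • P) * Z'.eval (px P) = xb (n • P) * X'.eval (px P) := by
  classical
  obtain ⟨A, hA, hx⟩ := g.exists_place (px P)
  letI : Algebra K (IsLocalRing.ResidueField A) := (cst hA).toAlgebra
  letI : Algebra F (IsLocalRing.ResidueField A) := ((cst hA).comp (algebraMap F K)).toAlgebra
  haveI : IsScalarTower F K (IsLocalRing.ResidueField A) := .of_algebraMap_eq (fun _ => rfl)
  haveI hell : (W⁄(IsLocalRing.ResidueField A)).IsElliptic :=
    inferInstanceAs (W.map (algebraMap F (IsLocalRing.ResidueField A))).IsElliptic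
  have hcoef : ∀ r : F, Rz A (algebraMap F L r) (algebraMap F (IsLocalRing.ResidueField A) r) := by
    intro r
    rw [IsScalarTower.algebraMap_apply F K L]
    exact rz_cst hA _
  have hE : RedCurve A (W⁄L) (W⁄(IsLocalRing.ResidueField A)) :=
    ⟨hcoef _, hcoef _, hcoef _, hcoef _, hcoef _⟩
  let bar : (W⁄K).Point →+ (W⁄(IsLocalRing.ResidueField A)).Point :=
    Point.map (IsScalarTower.toAlgHom F K (IsLocalRing.ResidueField A))
  have hbarx : ∀ R : (W⁄K).Point, px (bar R) = cst hA (px R) := fun R => px_map _ R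
  have hQ0 := g.Q_ne_zero
  have hredQ := redTo_redHom hE g.Q
  set Q' := redHom hE g.Q with hQ'
  have hxc : Rz A g.x (cst hA (px P)) := by
    apply (rz_cst hA _).of_sub_lt
    rw [Valuation.map_sub_swap]; exact hx
  have hQ'0 : Q' ≠ 0 := by
    intro h0
    rcases hredQ.inE1_iff.mpr h0 with h1 | h1
    · exact hQ0 h1
    · rw [px_Q] at h1
      exact absurd hxc.le (not_le.mpr h1)
  obtain ⟨-, hQx, hQy⟩ := hredQ.integral hQ'0
  rw [px_Q] at hQx
  have hbarP : bar P ≠ 0 := map_ne_zero' _ hP
  have hpm : Q' = bar P ∨ Q' = -bar P := by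
    rw [← px_eq_iff hQ'0 hbarP, hbarx]
    exact hQx.unique hxc
  have hnQ : redHom hE (n • g.Q) = bar (n • P) ∨ redHom hE (n • g.Q) = - bar (n • P) := by
    rw [map_nsmul, ← hQ', map_nsmul]
    rcases hpm with h1 | h1
    · left; rw [h1]
    · right; rw [h1]; exact neg_nsmul (bar P) n
  have hred := redTo_redHom hE (n • g.Q)
  by_cases hnP : n • P = 0
  · rw [hnP, xa_zero, xb_zero, one_mul, zero_mul]
    apply g.eval_eq_zero_of_inE1 hA hx h
    rw [← redHom_eq_zero_iff hE]
    rcases hnQ with h1 | h1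
    · rw [h1, hnP, _root_.map_zero]
    · rw [h1, hnP, _root_.map_zero, _root_.neg_zero]
  · have hbn : bar (n • P) ≠ 0 := map_ne_zero' _ hnP
    have hne : redHom hE (n • g.Q) ≠ 0 := by
      rcases hnQ with h1 | h1
      · rw [h1]; exact hbn
      · rw [h1]; exact neg_ne_zero.mpr hbn
    obtain ⟨h0, h1, -⟩ := hred.integral hne
    have h2 : px (redHom hE (n • g.Q)) = cst hA (px (n • P)) := by
      rcases hnQ with h3 | h3
      · rw [h3, hbarx]
      · rw [h3, px_neg, hbarx]
    rw [h2] at h1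
    have h3 := h.2
    rw [xa_of_ne h0, xb_of_ne h0, one_mul] at h3
    have h4 := h1.mul (g.rz_ι hA hx Z')
    rw [h3] at h4
    have h5 := h4.unique (g.rz_ι hA hx X')
    rw [← map_mul] at h5
    rw [xa_of_ne hnP, xb_of_ne hnP, one_mul]
    exact (cst hA).injective h5

end

end Gen

section main

variable [DecidableEq K] [W.IsElliptic] [IsAlgClosed K]

/-- Polynomials describing multiplication by `n`. -/
theorem exists_mul_polys (W : WeierstrassCurve.Affine F) [W.IsElliptic] {n : ℕ} (hn : n ≠ 0) :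
    ∃ X' Z' : K[X], IsCoprime X' Z' ∧ X'.natDegree = n ^ 2 ∧ Z'.natDegree < n ^ 2 ∧
      ∀ P : (W⁄K).Point, P ≠ 0 →
        xa (n • P) * Z'.eval (px P) = xb (n • P) * X'.eval (px P) := by
  classical
  let g : Gen W K (WeierstrassCurve.Affine.FunctionField (W⁄K)) := genFF W _
  obtain ⟨X', Z', h, h1, h2⟩ := g.exists_rep_nsmul hn
  exact ⟨X', Z', prim2_iff.mp h.1, h1, h2, fun P hP => g.spec_nsmul h hP⟩

omit [DecidableEq K] in
/-- Every element of `K` is the `x`-coordinate of a point. -/
lemma exists_point_over (c : K) : ∃ P : (W⁄K).Point, P ≠ 0 ∧ px P = c := by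
  have : (W⁄K).IsElliptic := inferInstanceAs (W.map (algebraMap F K)).IsElliptic
  set b := (W⁄K).a₁ * c + (W⁄K).a₃
  set f := c ^ 3 + (W⁄K).a₂ * c ^ 2 + (W⁄K).a₄ * c + (W⁄K).a₆
  have hdeg : (X ^ 2 + (C b * X - C f) : K[X]).degree = 2 := by
    rw [degree_add_eq_left_of_degree_lt]
    · exact degree_X_pow 2
    · rw [degree_X_pow]
      have h1 : (C b * X - C f : K[X]).natDegree ≤ 1 := by
        refine (natDegree_sub_le _ _).trans (max_le ?_ ?_)
        · exact (natDegree_C_mul_le _ _).trans natDegree_X_le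
        · rw [natDegree_C]; exact Nat.zero_le _
      exact lt_of_le_of_lt (degree_le_of_natDegree_le h1) (by norm_num)
  obtain ⟨y, hy⟩ := IsAlgClosed.exists_root (X ^ 2 + (C b * X - C f) : K[X]) (by
    rw [hdeg]; norm_num)
  have hy' : y ^ 2 + (b * y - f) = 0 := by simpa [IsRoot.def] using hy
  have heq : (W⁄K).Equation c y := by
    rw [equation_iff]
    linear_combination hy'
  exact ⟨Point.some c y (equation_iff_nonsingular.mp heq), some_ne_zero _, rfl⟩

variable {X' Z' : K[X]} {n : ℕ}

lemma mul_polys_some (hs : ∀ P : (W⁄K).Point, P ≠ 0 →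
    xa (n • P) * Z'.eval (px P) = xb (n • P) * X'.eval (px P)) (hc : IsCoprime X' Z')
    {P : (W⁄K).Point} (hP : P ≠ 0) {P₀ : (W⁄K).Point} (hP₀ : P₀ ≠ 0)
    (hroot : X'.eval (px P) = px P₀ * Z'.eval (px P)) : n • P = P₀ ∨ n • P = -P₀ := by
  have h := hs P hP
  have hZ : Z'.eval (px P) ≠ 0 := by
    intro h0
    rw [h0, mul_zero] at hroot
    obtain ⟨a, b, hab⟩ := hc
    have := congrArg (Polynomial.eval (px P)) hab
    rw [eval_add, eval_mul, eval_mul, h0, hroot] at this
    simp at this
  have hne : n • P ≠ 0 := by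
    intro h0
    rw [h0, xa_zero, xb_zero, one_mul, zero_mul] at h
    exact hZ h
  rw [xa_of_ne hne, xb_of_ne hne, one_mul, hroot] at h
  exact (px_eq_iff hne hP₀).mp (mul_right_cancel₀ hZ h)

/-- **Divisibility** of `E(K)` for `K` algebraically closed (any characteristic). -/
theorem nsmul_surjective (W : WeierstrassCurve.Affine F) [W.IsElliptic] {n : ℕ} (hn : n ≠ 0)
    (P₀ : (W⁄K).Point) : ∃ P : (W⁄K).Point, n • P = P₀ := by
  by_cases hP₀ : P₀ = 0
  · exact ⟨0, by rw [hP₀, smul_zero]⟩
  obtain ⟨X', Z', hc, hX, hZ, hs⟩ := exists_mul_polys (K := K) W hn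
  have hdeg : (X' - C (px P₀) * Z').natDegree = n ^ 2 := by
    rw [natDegree_sub_eq_left_of_natDegree_lt, hX]
    exact lt_of_le_of_lt (natDegree_C_mul_le _ _) (by rw [hX]; exact hZ)
  have hpos : 0 < n ^ 2 := by positivity
  obtain ⟨c, hcr⟩ := IsAlgClosed.exists_root (X' - C (px P₀) * Z') (by
    intro h
    have h0 : (X' - C (px P₀) * Z').natDegree = 0 := by rw [natDegree, h]; rfl
    rw [h0] at hdeg
    exact absurd hdeg.symm hpos.ne')
  rw [IsRoot.def, eval_sub, eval_mul, eval_C, sub_eq_zero] at hcr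
  obtain ⟨P, hP, hPx⟩ := exists_point_over (W := W) c
  rw [← hPx] at hcr
  rcases mul_polys_some hs hc hP hP₀ hcr with h | h
  · exact ⟨P, h⟩
  · exact ⟨-P, by rw [smul_neg, h, neg_neg]⟩

end main

end Fermat.Agent.Frob
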