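import Mathlib
import Fermat.Agent.Frob.MulN
import Fermat.Prelude.Def_FLTPrelim_GaloisRep

/-!
# The number of `n`-torsion points in characteristic zero
-/

set_option autoImplicit false

namespace Fermat.Agent.Frob

open Polynomial WeierstrassCurve WeierstrassCurve.Affine WeierstrassCurve.Affine.Point
open Fermat.Agent.H08

universe u

variable {F : Type*} {K : Type*} [Field F] [Field K] [Algebra F K] [DecidableEq K] [IsAlgClosed K]
  [CharZero K]

/-- **The `n`-torsion of an elliptic curve over an algebraically closed field of characteristic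
zero has `n²` elements.** -/
theorem card_torsion (W : WeierstrassCurve.Affine F) [W.IsElliptic] {n : ℕ} (hn : n ≠ 0) :
    Nat.card {P : (W⁄K).Point // n • P = 0} = n ^ 2 := by
  classical
  obtain ⟨X', Z', hc, hX, hZ, hs⟩ := exists_mul_polys (K := K) W hn
  have hpos : 0 < n ^ 2 := by positivity
  set w := derivative X' * Z' - X' * derivative Z' with hw
  have hw0 : w ≠ 0 := by
    intro h0
    have h1 : derivative X' * Z' = X' * derivative Z' := sub_eq_zero.mp h0
    have h2 : X' ∣ derivative X' := hc.dvd_of_dvd_mul_right (h1 ▸ dvd_mul_right _ _)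
    have h3 : derivative X' = 0 := by
      by_contra hne
      have h4 := natDegree_le_of_dvd h2 hne
      have h5 := natDegree_derivative_lt (p := X') (by omega)
      omega
    have := derivative_eq_zero.mp h3
    omega
  set f : K[X] := C 4 * X ^ 3 + C (W⁄K).b₂ * X ^ 2 + C (2 * (W⁄K).b₄) * X + C (W⁄K).b₆ with hf
  have hf0 : f ≠ 0 := by
    intro h0
    have h1 := congrArg (fun p => coeff p 3) h0
    simp [hf, coeff_X, coeff_C] at h1
  let B : Finset K := w.roots.toFinset.image (fun a => X'.eval a / Z'.eval a) ∪ f.roots.toFinset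
  obtain ⟨c, hcB⟩ := Infinite.exists_notMem_finset B
  rw [Finset.mem_union, not_or] at hcB
  obtain ⟨hcB1, hcB2⟩ := hcB
  obtain ⟨P₀, hP₀, hPx⟩ := exists_point_over (W := W) c
  have hZne : ∀ a : K, X'.eval a = c * Z'.eval a → Z'.eval a ≠ 0 := by
    intro a h h0
    rw [h0, mul_zero] at h
    obtain ⟨u, v, huv⟩ := hc
    have := congrArg (Polynomial.eval a) huv
    rw [eval_add, eval_mul, eval_mul, h0, h] at this
    simp at this
  have hP₀neg : P₀ ≠ -P₀ := by
    have hE : (W⁄K).IsElliptic := inferInstanceAs (W.map (algebraMap F K)).IsElliptic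
    intro h
    rw [← psi2_eq_zero_iff hP₀] at h
    have h2 := psi2_sq hP₀
    rw [h, hPx] at h2
    apply hcB2
    rw [Multiset.mem_toFinset, mem_roots hf0, IsRoot.def, hf]
    simp only [eval_add, eval_mul, eval_C, eval_pow, eval_X]
    linear_combination -h2
  set pc := X' - C c * Z' with hpc
  have hdeg : pc.natDegree = n ^ 2 := by
    rw [hpc, natDegree_sub_eq_left_of_natDegree_lt, hX]
    exact lt_of_le_of_lt (natDegree_C_mul_le _ _) (by rw [hX]; exact hZ)
  have hpc0 : pc ≠ 0 := by
    intro h
    rw [h, natDegree_zero] at hdeg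
    omega
  have hroot : ∀ a : K, pc.IsRoot a ↔ X'.eval a = c * Z'.eval a := by
    intro a
    rw [IsRoot.def, hpc, eval_sub, eval_mul, eval_C, sub_eq_zero]
  have hnodup : pc.roots.Nodup := by
    rw [Multiset.nodup_iff_count_le_one]
    intro a
    rw [count_roots]
    by_contra hlt
    push Not at hlt
    rw [one_lt_rootMultiplicity_iff_isRoot hpc0] at hlt
    obtain ⟨h2, h1⟩ := hlt
    rw [hroot] at h2
    have h3 : (derivative X').eval a = c * (derivative Z').eval a := by
      have h4 := h1
      rw [IsRoot.def, hpc, derivative_sub, derivative_C_mul, eval_sub, eval_mul, eval_C,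
        sub_eq_zero] at h4
      exact h4
    apply hcB1
    rw [Finset.mem_image]
    refine ⟨a, ?_, ?_⟩
    · rw [Multiset.mem_toFinset, mem_roots hw0, IsRoot.def, hw, eval_sub, eval_mul, eval_mul, h2,
        h3]
      ring
    · rw [h2, mul_div_assoc, div_self (hZne a h2), mul_one]
  have hcard : pc.roots.toFinset.card = n ^ 2 := by
    rw [Multiset.toFinset_card_of_nodup hnodup, ← hdeg]
    exact (splits_iff_card_roots.mp (IsAlgClosed.splits pc))
  -- the fibre over `P₀`
  have hfib : ∀ P : {P : (W⁄K).Point // n • P = P₀}, px P.1 ∈ pc.roots.toFinset := by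
    rintro ⟨P, hP⟩
    have hP0 : P ≠ 0 := by
      rintro rfl
      rw [smul_zero] at hP
      exact hP₀ hP.symm
    have h := hs P hP0
    rw [hP, xa_of_ne hP₀, xb_of_ne hP₀, one_mul, hPx] at h
    rw [Multiset.mem_toFinset, mem_roots hpc0, hroot]
    exact h.symm
  let φ : {P : (W⁄K).Point // n • P = P₀} → pc.roots.toFinset := fun P => ⟨px P.1, hfib P⟩
  have hφ : Function.Bijective φ := by
    constructor
    · rintro ⟨P, hP⟩ ⟨P', hP'⟩ hPP'
      have h1 : px P = px P' := congrArg Subtype.val hPP'
      have hP0 : P ≠ 0 := by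
        rintro rfl
        rw [smul_zero] at hP
        exact hP₀ hP.symm
      have hP0' : P' ≠ 0 := by
        rintro rfl
        rw [smul_zero] at hP'
        exact hP₀ hP'.symm
      rcases (px_eq_iff hP0 hP0').mp h1 with h2 | h2
      · exact Subtype.ext h2
      · exfalso
        apply hP₀neg
        calc P₀ = n • P := hP.symm
          _ = -(n • P') := by rw [h2, smul_neg]
          _ = -P₀ := by rw [hP']
    · rintro ⟨a, ha⟩
      rw [Multiset.mem_toFinset, mem_roots hpc0, hroot] at ha
      obtain ⟨P, hP, hPa⟩ := exists_point_over (W := W) a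
      have h1 : X'.eval (px P) = px P₀ * Z'.eval (px P) := by rw [hPa, hPx]; exact ha
      rcases mul_polys_some hs hc hP hP₀ h1 with h2 | h2
      · exact ⟨⟨P, h2⟩, Subtype.ext hPa⟩
      · refine ⟨⟨-P, by rw [smul_neg, h2, neg_neg]⟩, Subtype.ext ?_⟩
        change px (-P) = a
        rw [px_neg, hPa]
  obtain ⟨P₁, hP₁⟩ := nsmul_surjective (K := K) W hn P₀
  let e : {P : (W⁄K).Point // n • P = 0} ≃ {P : (W⁄K).Point // n • P = P₀} :=
    { toFun := fun P => ⟨P.1 + P₁, by rw [smul_add, P.2, hP₁, zero_add]⟩
      invFun := fun P => ⟨P.1 - P₁, by rw [smul_sub, P.2, hP₁, sub_self]⟩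
      left_inv := fun P => Subtype.ext (add_sub_cancel_right _ _)
      right_inv := fun P => Subtype.ext (sub_add_cancel _ _) }
  rw [Nat.card_congr (e.trans (Equiv.ofBijective φ hφ)), Nat.card_eq_fintype_card,
    Fintype.card_coe, hcard]

variable (K) in
/-- The `n`-torsion module has `n²` elements. -/
theorem card_torsionBy (W : WeierstrassCurve.Affine F) [W.IsElliptic] {n : ℕ} (hn : n ≠ 0) :
    Nat.card (Submodule.torsionBy ℤ (W⁄K).Point n) = n ^ 2 := by
  rw [← card_torsion (K := K) W hn]
  apply Nat.card_congr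
  refine Equiv.subtypeEquivRight fun P => ?_
  rw [Submodule.mem_torsionBy_iff, natCast_zsmul]

variable (K) in
theorem finite_torsionBy (W : WeierstrassCurve.Affine F) [W.IsElliptic] {n : ℕ} (hn : n ≠ 0) :
    Finite (Submodule.torsionBy ℤ (W⁄K).Point n) := by
  apply Nat.finite_of_card_ne_zero
  rw [card_torsionBy K W hn]
  positivity

variable (K) in
/-- `E[p]` is a plane over `𝔽_p`. -/
theorem finrank_torsionBy (W : WeierstrassCurve.Affine F) [W.IsElliptic] (p : ℕ)
    [hp : Fact p.Prime] :
    Module.finrank (ZMod p) (Submodule.torsionBy ℤ (W⁄K).Point p) = 2 := by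
  have hfin := finite_torsionBy K W hp.out.ne_zero
  have h1 := card_torsionBy K W hp.out.ne_zero
  have h2 := Module.natCard_eq_pow_finrank (K := ZMod p)
    (V := Submodule.torsionBy ℤ (W⁄K).Point p)
  rw [h1, Nat.card_eq_fintype_card, ZMod.card] at h2
  exact (Nat.pow_right_injective hp.out.two_le h2).symm

end Fermat.Agent.Frob
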