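import Mathlib
import Fermat.Agent.Frob.HtMain
import Fermat.Agent.Frob.GenExists
import Fermat.Prelude.Def_FLTPrelim_Modularity

/-!
# The characteristic relation of Frobenius on an elliptic curve over a finite field
-/

set_option autoImplicit false

namespace Fermat.Agent.Frob

open Polynomial WeierstrassCurve WeierstrassCurve.Affine WeierstrassCurve.Affine.Point

universe u v

/-- **The characteristic relation of Frobenius.** For an elliptic curve `W` over a finite field
`F` with `q` elements and an algebraically closed field `K` over `F`, the `q`-power Frobenius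
`φ` on `W(K)` satisfies `φ² - a φ + q = 0` with `a = q + 1 - #W(F)`. -/
theorem frobenius_relation {F : Type v} [Field F] [Fintype F] {K : Type u} [Field K]
    [IsAlgClosed K] [Algebra F K] [DecidableEq K] (W : WeierstrassCurve.Affine F) [W.IsElliptic]
    (P : (W⁄K).Point) :
    Point.map (FiniteField.frobeniusAlgHom F K) (Point.map (FiniteField.frobeniusAlgHom F K) P)
      - ((Fintype.card F : ℤ) + 1 - (Nat.card W.Point : ℤ)) •
        Point.map (FiniteField.frobeniusAlgHom F K) P
      + (Fintype.card F : ℤ) • P = 0 := by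
  classical
  have g : Gen W K (WeierstrassCurve.Affine.FunctionField (W⁄K)) := genFF W _
  exact g.relation P

/-- The relation in terms of `traceOfFrobenius`, for `Δ ≠ 0`. -/
theorem frobenius_relation' {F : Type v} [Field F] [Fintype F] {K : Type u} [Field K]
    [IsAlgClosed K] [Algebra F K] [DecidableEq K] (W : WeierstrassCurve F) (hΔ : W.Δ ≠ 0)
    (P : (W⁄K).Point) :
    Point.map (W' := W.toAffine) (FiniteField.frobeniusAlgHom F K)
        (Point.map (W' := W.toAffine) (FiniteField.frobeniusAlgHom F K) P)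
      - W.traceOfFrobenius •
        Point.map (W' := W.toAffine) (FiniteField.frobeniusAlgHom F K) P
      + (Fintype.card F : ℤ) • P = 0 := by
  haveI : W.IsElliptic := ⟨isUnit_iff_ne_zero.mpr hΔ⟩
  have h := frobenius_relation W.toAffine P
  rw [traceOfFrobenius, Nat.card_eq_fintype_card]
  exact h

/-- The relation over `ZMod ℓ`. -/
theorem frobenius_relation_zmod (ℓ : ℕ) [Fact ℓ.Prime] {K : Type u} [Field K]
    [IsAlgClosed K] [Algebra (ZMod ℓ) K] [DecidableEq K] (W : WeierstrassCurve (ZMod ℓ))
    (hΔ : W.Δ ≠ 0) (P : (W⁄K).Point) :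
    Point.map (W' := W.toAffine) (FiniteField.frobeniusAlgHom (ZMod ℓ) K)
        (Point.map (W' := W.toAffine) (FiniteField.frobeniusAlgHom (ZMod ℓ) K) P)
      - W.traceOfFrobenius •
        Point.map (W' := W.toAffine) (FiniteField.frobeniusAlgHom (ZMod ℓ) K) P
      + (ℓ : ℤ) • P = 0 := by
  have h := frobenius_relation' W hΔ P
  rwa [ZMod.card] at h

/-- The exact form of the hypothesis `CHprop`. -/
theorem ch_prop : ∀ (ℓ : ℕ) [Fact ℓ.Prime], 5 < ℓ →
    ∃ σ : AlgebraicClosure (ZMod ℓ) →ₐ[ZMod ℓ] AlgebraicClosure (ZMod ℓ),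
    ∀ (W : WeierstrassCurve (ZMod ℓ)), W.Δ ≠ 0 →
    letI : DecidableEq (AlgebraicClosure (ZMod ℓ)) := Classical.decEq _
    ∀ P : (W⁄(AlgebraicClosure (ZMod ℓ))).Point, 5 • P = 0 →
      Point.map (W' := W.toAffine) σ (Point.map (W' := W.toAffine) σ P) -
        W.traceOfFrobenius • Point.map (W' := W.toAffine) σ P + (ℓ : ℤ) • P = 0 := by
  intro ℓ _ _
  refine ⟨FiniteField.frobeniusAlgHom (ZMod ℓ) _, fun W hΔ => ?_⟩
  intro P _
  exact @frobenius_relation_zmod ℓ _ _ _ _ _ (Classical.decEq _) W hΔ P

end Fermat.Agent.Frob
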