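import Mathlib
import Fermat.Agent.Frob.Relation
import Fermat.Agent.Frob.Reduction
import Fermat.Agent.H08.Inertia
import Fermat.Prelude.Def_EllipticCurve_FrobeniusTrace
import Fermat.Prelude.Def_FLTPrelim_GaloisRep
import Fermat.Prelude.Def_FLTPrelim_Ramification

/-!
# The Frobenius relation on torsion points of an elliptic curve over `ℚ`
-/

set_option autoImplicit false

namespace Fermat.Agent.Frob

open WeierstrassCurve WeierstrassCurve.Affine WeierstrassCurve.Affine.Point
open Fermat.Agent.H08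

universe u

/-- The residue field of a valuation subring of an algebraically closed field is algebraically
closed. -/
theorem isAlgClosed_resField {L : Type*} [Field L] [IsAlgClosed L] (A : ValuationSubring L) :
    IsAlgClosed (IsLocalRing.ResidueField A) := by
  apply IsAlgClosed.of_exists_root
  intro p hp hirr
  have hlift : p ∈ Polynomial.lifts (IsLocalRing.residue A) := by
    rw [Polynomial.lifts_iff_coeff_lifts]
    intro n
    exact IsLocalRing.residue_surjective _
  obtain ⟨q, hq, hdeg, hmon⟩ := Polynomial.lifts_and_degree_eq_and_monic hlift hp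
  have hdeg0 : (q.map (algebraMap A L)).degree ≠ 0 := by
    rw [hmon.degree_map, hdeg]
    exact (Polynomial.degree_pos_of_irreducible hirr).ne'
  obtain ⟨x, hx⟩ := IsAlgClosed.exists_root (q.map (algebraMap A L)) hdeg0
  have hint : IsIntegral A x := ⟨q, hmon, by
    rw [Polynomial.IsRoot.def, Polynomial.eval_map] at hx
    exact hx⟩
  obtain ⟨y, rfl⟩ := IsIntegrallyClosed.isIntegral_iff.mp hint
  refine ⟨IsLocalRing.residue A y, ?_⟩
  rw [Polynomial.IsRoot.def, Polynomial.eval_map_algebraMap, Polynomial.aeval_algebraMap_apply,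
    map_eq_zero_iff _ (IsFractionRing.injective A L), Polynomial.coe_aeval_eq_eval] at hx
  rw [← hq, Polynomial.eval_map, Polynomial.eval₂_at_apply, hx, _root_.map_zero]

section

variable {K L : Type*} [Field K] [Field L] [Algebra K L] {A : ValuationSubring L}

lemma mem_of_mem_decomposition {σ : L ≃ₐ[K] L} (hσ : σ ∈ A.decompositionSubgroup K) {z : L}
    (hz : z ∈ A) : σ z ∈ A := by
  have h : (⟨σ, hσ⟩ : A.decompositionSubgroup K) • (⟨z, hz⟩ : A) ∈ (⊤ : Set A) := trivial
  exact ((⟨σ, hσ⟩ : A.decompositionSubgroup K) • (⟨z, hz⟩ : A)).2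

lemma mem_iff_of_mem_decomposition {σ : L ≃ₐ[K] L} (hσ : σ ∈ A.decompositionSubgroup K) {z : L} :
    σ z ∈ A ↔ z ∈ A := by
  refine ⟨fun h => ?_, mem_of_mem_decomposition hσ⟩
  have h1 := mem_of_mem_decomposition (inv_mem hσ) h
  have e : (σ⁻¹ : L ≃ₐ[K] L) (σ z) = z := σ.symm_apply_apply z
  rwa [e] at h1

lemma Rz.frob {σ : L ≃ₐ[K] L} {q : ℕ} (hσ : A.IsFrobeniusAt σ q) {z : L}
    {z' : IsLocalRing.ResidueField A} (h : Rz A z z') : Rz A (σ z) (z' ^ q) := by
  obtain ⟨h1, rfl⟩ := h
  obtain ⟨h2, h3⟩ := hσ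
  refine ⟨mem_of_mem_decomposition h2 h1, ?_⟩
  rw [← h3, ← IsLocalRing.ResidueField.residue_smul]
  rfl

lemma val_apply_gt_one {σ : L ≃ₐ[K] L} (hσ : σ ∈ A.decompositionSubgroup K) {z : L}
    (h : 1 < A.valuation z) : 1 < A.valuation (σ z) := by
  by_contra hc
  rw [not_lt, A.valuation_le_one_iff, mem_iff_of_mem_decomposition hσ,
    ← A.valuation_le_one_iff] at hc
  exact absurd h (not_lt.mpr hc)

end

section

variable {L : Type u} [Field L] [Algebra ℚ L] {A : ValuationSubring L}

lemma charP_resField {l : ℕ} (hl : l.Prime) (hA : A.LiesOverPrime l) :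
    CharP (IsLocalRing.ResidueField A) l := by
  have h : (l : IsLocalRing.ResidueField A) = 0 :=
    (Rz.natCast (A := A) l).lt_iff.mp (val_prime_lt_one hA)
  have := Fact.mk hl
  exact (CharP.charP_iff_prime_eq_zero hl).mpr h

variable (W : WeierstrassCurve ℤ) {l : ℕ}

lemma redCurve_int [Algebra (ZMod l) (IsLocalRing.ResidueField A)] :
    RedCurve A ((W.map (Int.castRingHom ℚ))⁄L)
      ((W.map (Int.castRingHom (ZMod l)))⁄(IsLocalRing.ResidueField A)) := by
  have key : ∀ n : ℤ, Rz A (algebraMap ℚ L (Int.castRingHom ℚ n))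
      (algebraMap (ZMod l) (IsLocalRing.ResidueField A) (Int.castRingHom (ZMod l) n)) := by
    intro n
    have e1 : algebraMap ℚ L (Int.castRingHom ℚ n) = (n : L) := by simp
    have e2 : algebraMap (ZMod l) (IsLocalRing.ResidueField A) (Int.castRingHom (ZMod l) n)
      = (n : IsLocalRing.ResidueField A) := by simp
    rw [e1, e2]; exact Rz.intCast n
  exact ⟨key _, key _, key _, key _, key _⟩

lemma isElliptic_red (hl : l.Prime) (hgood : W.IsGoodPrimeFor l) :
    (W.map (Int.castRingHom (ZMod l))).Δ ≠ 0 := by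
  rw [WeierstrassCurve.map_Δ]
  intro h
  apply hgood
  rw [eq_intCast] at h
  exact (ZMod.intCast_zmod_eq_zero_iff_dvd _ _).mp h

variable [IsAlgClosed L] [DecidableEq L]

/-- **The Frobenius relation on torsion points.** -/
theorem frobenius_relation_torsion (hl : l.Prime) (hgood : W.IsGoodPrimeFor l)
    (hA : A.LiesOverPrime l) {σ : L ≃ₐ[ℚ] L} (hσ : A.IsFrobeniusAt σ l)
    {n : ℕ} (hn : ¬ l ∣ n) (P : ((W.map (Int.castRingHom ℚ))⁄L).Point) (hP : n • P = 0) :
    σ • (σ • P) - W.apOfModel l • (σ • P) + (l : ℤ) • P = 0 := by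
  classical
  have hlF := Fact.mk hl
  have hchar := charP_resField hl hA
  letI : Algebra (ZMod l) (IsLocalRing.ResidueField A) := ZMod.algebra _ l
  have hac := isAlgClosed_resField A
  have hΔ := isElliptic_red W hl hgood
  haveI hell : (W.map (Int.castRingHom (ZMod l))).IsElliptic := ⟨isUnit_iff_ne_zero.mpr hΔ⟩
  haveI hell' : ((W.map (Int.castRingHom (ZMod l)))⁄(IsLocalRing.ResidueField A)).IsElliptic :=
    inferInstanceAs ((W.map (Int.castRingHom (ZMod l))).map
      (algebraMap (ZMod l) (IsLocalRing.ResidueField A))).IsElliptic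
  have hE := redCurve_int (A := A) W (l := l)
  have hF : ∀ P : ((W.map (Int.castRingHom ℚ))⁄L).Point,
      redHom hE (σ • P) = Point.map (W' := (W.map (Int.castRingHom (ZMod l))).toAffine)
        (FiniteField.frobeniusAlgHom (ZMod l) _) (redHom hE P) := by
    intro P
    apply redHom_eq_of_redTo
    have h := redTo_redHom hE P
    set P' := redHom hE P
    rw [algEquiv_smul_def]
    rcases h with ⟨h1, h2⟩ | ⟨h1, h2, h3, h4⟩
    · left
      rw [h2, _root_.map_zero]
      refine ⟨?_, rfl⟩
      rcases h1 with h1 | h1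
      · rw [h1]; left; exact _root_.map_zero _
      · right
        rw [px_map]
        exact val_apply_gt_one hσ.mem_decompositionSubgroup h1
    · right
      refine ⟨map_ne_zero' _ h1, map_ne_zero' _ h2, ?_, ?_⟩
      · rw [px_map, px_map, FiniteField.coe_frobeniusAlgHom, ZMod.card]
        exact h3.frob hσ
      · rw [py_map, py_map, FiniteField.coe_frobeniusAlgHom, ZMod.card]
        exact h4.frob hσ
  set R := σ • (σ • P) - W.apOfModel l • (σ • P) + (l : ℤ) • P with hR
  have h1 : redHom hE R = 0 := by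
    rw [hR, map_add, map_sub, map_zsmul, map_zsmul, hF, hF]
    exact frobenius_relation_zmod l (W.map (Int.castRingHom (ZMod l))) hΔ (redHom hE P)
  have h2 : n • R = 0 := by
    have hs : ∀ Q : ((W.map (Int.castRingHom ℚ))⁄L).Point, n • Q = 0 → n • (σ • Q) = 0 := by
      intro Q hQ
      rw [algEquiv_smul_def, ← map_nsmul, hQ]
      exact _root_.map_zero _
    rw [hR, nsmul_add, nsmul_sub, smul_comm n (W.apOfModel l), smul_comm n (l : ℤ), hs _ (hs _ hP),
      hs _ hP, hP, smul_zero, smul_zero, sub_zero, add_zero]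
  rw [redHom_eq_zero_iff] at h1
  exact h1.eq_zero_of_torsion hE.isIntegral h2 (val_natCast_eq_one hl hA hn)

end

end Fermat.Agent.Frob
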