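import Mathlib
import Fermat.Agent.Frob.FrobTorsion

/-!
# Points of isomorphic Weierstrass curves
-/

set_option autoImplicit false

namespace Fermat.Agent.Frob

open WeierstrassCurve WeierstrassCurve.Affine WeierstrassCurve.Affine.Point
open Fermat.Agent.H08

section

variable {F : Type*} [Field F] {C : VariableChange F} {W W' : WeierstrassCurve.Affine F}

/-- new `x` -/
def vx (C : VariableChange F) (x : F) : F := (C.u : F) ^ 2 * x + C.r
/-- new `y` -/
def vy (C : VariableChange F) (x y : F) : F := (C.u : F) ^ 3 * y + (C.u : F) ^ 2 * C.s * x + C.t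

section coeffs

variable (h : W' = C • W)
include h

lemma vc_a₁ : (C.u : F) * W'.a₁ = W.a₁ + 2 * C.s := by
  rw [h, variableChange_a₁, Units.val_inv_eq_inv_val]
  have hu : (C.u : F) ≠ 0 := C.u.ne_zero
  field_simp

lemma vc_a₂ : (C.u : F) ^ 2 * W'.a₂ = W.a₂ - C.s * W.a₁ + 3 * C.r - C.s ^ 2 := by
  rw [h, variableChange_a₂, Units.val_inv_eq_inv_val]
  have hu : (C.u : F) ≠ 0 := C.u.ne_zero
  field_simp

lemma vc_a₃ : (C.u : F) ^ 3 * W'.a₃ = W.a₃ + C.r * W.a₁ + 2 * C.t := by
  rw [h, variableChange_a₃, Units.val_inv_eq_inv_val]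
  have hu : (C.u : F) ≠ 0 := C.u.ne_zero
  field_simp

lemma vc_a₄ : (C.u : F) ^ 4 * W'.a₄ =
    W.a₄ - C.s * W.a₃ + 2 * C.r * W.a₂ - (C.t + C.r * C.s) * W.a₁ + 3 * C.r ^ 2
      - 2 * C.s * C.t := by
  rw [h, variableChange_a₄, Units.val_inv_eq_inv_val]
  have hu : (C.u : F) ≠ 0 := C.u.ne_zero
  field_simp

lemma vc_a₆ : (C.u : F) ^ 6 * W'.a₆ =
    W.a₆ + C.r * W.a₄ + C.r ^ 2 * W.a₂ + C.r ^ 3 - C.t * W.a₃ - C.t ^ 2
      - C.r * C.t * W.a₁ := by
  rw [h, variableChange_a₆, Units.val_inv_eq_inv_val]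
  have hu : (C.u : F) ≠ 0 := C.u.ne_zero
  field_simp

lemma vc_equation (x y : F) : W.Equation (vx C x) (vy C x y) ↔ W'.Equation x y := by
  have hu : (C.u : F) ≠ 0 := C.u.ne_zero
  have h1 := vc_a₁ h
  have h2 := vc_a₂ h
  have h3 := vc_a₃ h
  have h4 := vc_a₄ h
  have h6 := vc_a₆ h
  rw [equation_iff', equation_iff']
  have e : vy C x y ^ 2 + W.a₁ * vx C x * vy C x y + W.a₃ * vy C x y
      - (vx C x ^ 3 + W.a₂ * vx C x ^ 2 + W.a₄ * vx C x + W.a₆)
      = (C.u : F) ^ 6 * (y ^ 2 + W'.a₁ * x * y + W'.a₃ * y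
        - (x ^ 3 + W'.a₂ * x ^ 2 + W'.a₄ * x + W'.a₆)) := by
    simp only [vx, vy]
    linear_combination (-(C.u : F) ^ 5 * x * y) * h1 + (C.u : F) ^ 4 * x ^ 2 * h2
      - (C.u : F) ^ 3 * y * h3 + (C.u : F) ^ 2 * x * h4 + h6
  rw [e, mul_eq_zero]
  exact ⟨fun hh => hh.resolve_left (pow_ne_zero 6 hu), Or.inr⟩

lemma vc_nonsingular (x y : F) : W.Nonsingular (vx C x) (vy C x y) ↔ W'.Nonsingular x y := by
  have hu : (C.u : F) ≠ 0 := C.u.ne_zero
  have h1 := vc_a₁ h
  have h2 := vc_a₂ h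
  have h3 := vc_a₃ h
  have h4 := vc_a₄ h
  rw [nonsingular_iff', nonsingular_iff', vc_equation h]
  have e2 : 2 * vy C x y + W.a₁ * vx C x + W.a₃ = (C.u : F) ^ 3 * (2 * y + W'.a₁ * x + W'.a₃) := by
    simp only [vx, vy]
    linear_combination (-(C.u : F) ^ 2 * x) * h1 - h3
  have e1 : W.a₁ * vy C x y - (3 * vx C x ^ 2 + 2 * W.a₂ * vx C x + W.a₄)
      = (C.u : F) ^ 4 * (W'.a₁ * y - (3 * x ^ 2 + 2 * W'.a₂ * x + W'.a₄))
        - C.s * (C.u : F) ^ 3 * (2 * y + W'.a₁ * x + W'.a₃) := by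
    simp only [vx, vy]
    linear_combination (-(C.u : F) ^ 3 * y + C.s * (C.u : F) ^ 2 * x) * h1
      + (2 * (C.u : F) ^ 2 * x) * h2 + C.s * h3 + h4
  rw [e1, e2]
  apply and_congr_right'
  constructor
  · intro hh
    by_contra hc
    push Not at hc
    rw [hc.1, hc.2] at hh
    simp at hh
  · intro hh
    by_contra hc
    push Not at hc
    obtain ⟨hc1, hc2⟩ := hc
    have hc2' := (mul_eq_zero.mp hc2).resolve_left (pow_ne_zero 3 hu)
    rw [hc2', mul_zero, sub_zero] at hc1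
    have hc1' := (mul_eq_zero.mp hc1).resolve_left (pow_ne_zero 4 hu)
    rcases hh with hh | hh
    · exact hh hc1'
    · exact hh hc2'

end coeffs

lemma vx_injective : Function.Injective (vx C) := by
  intro x x' hx
  have hu : (C.u : F) ≠ 0 := C.u.ne_zero
  simp only [vx, add_left_inj] at hx
  exact mul_left_cancel₀ (pow_ne_zero 2 hu) hx

lemma vy_injective (x : F) : Function.Injective (vy C x) := by
  intro y y' hy
  have hu : (C.u : F) ≠ 0 := C.u.ne_zero
  simp only [vy, add_left_inj] at hy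
  exact mul_left_cancel₀ (pow_ne_zero 3 hu) hy

lemma vx_surj (x : F) : ∃ x', vx C x' = x := by
  have hu : (C.u : F) ≠ 0 := C.u.ne_zero
  refine ⟨(x - C.r) / (C.u : F) ^ 2, ?_⟩
  rw [vx]; field_simp; ring

lemma vy_surj (x y : F) : ∃ y', vy C x y' = y := by
  have hu : (C.u : F) ≠ 0 := C.u.ne_zero
  refine ⟨(y - C.t - (C.u : F) ^ 2 * C.s * x) / (C.u : F) ^ 3, ?_⟩
  rw [vy]; field_simp; ring

/-- The map on points. -/
def vcFun (h : W' = C • W) : W'.Point → W.Point
  | 0 => 0
  | Point.some x y hxy => Point.some (vx C x) (vy C x y) ((vc_nonsingular h x y).mpr hxy)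

@[simp] lemma vcFun_zero (h : W' = C • W) : vcFun h 0 = 0 := rfl

@[simp] lemma vcFun_some (h : W' = C • W) {x y : F} (hxy : W'.Nonsingular x y) :
    vcFun h (Point.some x y hxy)
      = Point.some (vx C x) (vy C x y) ((vc_nonsingular h x y).mpr hxy) := rfl

lemma vcFun_ne_zero (h : W' = C • W) {P : W'.Point} (hP : P ≠ 0) : vcFun h P ≠ 0 := by
  obtain ⟨x, y, hxy, rfl⟩ := exists_eq_some hP
  exact some_ne_zero _

lemma px_vcFun (h : W' = C • W) {P : W'.Point} (hP : P ≠ 0) : px (vcFun h P) = vx C (px P) := by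
  obtain ⟨x, y, hxy, rfl⟩ := exists_eq_some hP
  rfl

lemma py_vcFun (h : W' = C • W) {P : W'.Point} (hP : P ≠ 0) :
    py (vcFun h P) = vy C (px P) (py P) := by
  obtain ⟨x, y, hxy, rfl⟩ := exists_eq_some hP
  rfl

lemma vcFun_injective (h : W' = C • W) : Function.Injective (vcFun h) := by
  intro P Q hPQ
  by_cases hP : P = 0
  · subst hP
    by_contra hQ
    exact vcFun_ne_zero h (Ne.symm hQ) (by rw [← hPQ]; rfl)
  · by_cases hQ : Q = 0
    · subst hQ
      exact absurd hPQ (vcFun_ne_zero h hP)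
    · have h1 := congrArg px hPQ
      have h2 := congrArg py hPQ
      rw [px_vcFun h hP, px_vcFun h hQ] at h1
      rw [py_vcFun h hP, py_vcFun h hQ] at h2
      have h3 := vx_injective h1
      rw [h3] at h2
      exact pt_ext hP hQ h3 (vy_injective _ h2)

lemma vcFun_surjective (h : W' = C • W) : Function.Surjective (vcFun h) := by
  intro P
  by_cases hP : P = 0
  · exact ⟨0, hP.symm⟩
  · obtain ⟨x, y, hxy, rfl⟩ := exists_eq_some hP
    obtain ⟨x', rfl⟩ := vx_surj (C := C) x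
    obtain ⟨y', rfl⟩ := vy_surj (C := C) x' y
    exact ⟨Point.some x' y' ((vc_nonsingular h x' y').mp hxy), rfl⟩

lemma vcFun_neg (h : W' = C • W) (P : W'.Point) : vcFun h (-P) = -vcFun h P := by
  by_cases hP : P = 0
  · subst hP; rfl
  · have hnP := neg_pt_ne_zero hP
    have h1 := vc_a₁ h
    have h3 := vc_a₃ h
    apply pt_ext (vcFun_ne_zero h hnP) (neg_pt_ne_zero (vcFun_ne_zero h hP))
    · rw [px_vcFun h hnP, px_neg, px_neg, px_vcFun h hP]
    · rw [py_vcFun h hnP, py_neg hP, px_neg, py_neg (vcFun_ne_zero h hP), py_vcFun h hP,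
        px_vcFun h hP]
      simp only [vx, vy]
      linear_combination (-(C.u : F) ^ 2 * px P) * h1 - h3

variable [DecidableEq F]

lemma vcFun_add (h : W' = C • W) (P Q : W'.Point) :
    vcFun h (P + Q) = vcFun h P + vcFun h Q := by
  by_cases hP : P = 0
  · subst hP; rw [zero_add, vcFun_zero, zero_add]
  by_cases hQ : Q = 0
  · subst hQ; rw [add_zero, vcFun_zero, add_zero]
  by_cases hPQ : P + Q = 0
  · have e : P = -Q := eq_neg_of_add_eq_zero_left hPQ
    rw [hPQ, e, vcFun_neg, neg_add_cancel]; rfl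
  have hP' := vcFun_ne_zero h hP
  have hQ' := vcFun_ne_zero h hQ
  have hPQ' : vcFun h P + vcFun h Q ≠ 0 := by
    intro h0
    have e : vcFun h P = -vcFun h Q := eq_neg_of_add_eq_zero_left h0
    rw [← vcFun_neg] at e
    apply hPQ
    rw [vcFun_injective h e, neg_add_cancel]
  obtain ⟨ℓ, e1, e2, e3, e4⟩ := slope_data hP hQ hPQ
  obtain ⟨m, f1, f2, f3, f4⟩ := slope_data hP' hQ' hPQ'
  have hu : (C.u : F) ≠ 0 := C.u.ne_zero
  have h1 := vc_a₁ h
  have h2 := vc_a₂ h
  have h3 := vc_a₃ h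
  have h4 := vc_a₄ h
  have hm : m = (C.u : F) * ℓ + C.s := by
    rw [px_vcFun h hP, px_vcFun h hQ, py_vcFun h hP, py_vcFun h hQ] at f1 f2
    simp only [vx, vy] at f1 f2
    by_cases hx : px P = px Q
    · have hPQe : P = Q := by
        rcases (px_eq_iff hP hQ).mp hx with h5 | h5
        · exact h5
        · exact absurd (by rw [h5, neg_add_cancel]) hPQ
      subst hPQe
      have hD : py P + py P + W'.a₁ * px P + W'.a₃ ≠ 0 := by
        intro h0
        apply hPQ
        have : P = -P := by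
          apply pt_ext hP (neg_pt_ne_zero hP)
          · rw [px_neg]
          · rw [py_neg hP]; linear_combination h0
        nth_rewrite 1 [this]
        exact neg_add_cancel P
      apply mul_right_cancel₀ (mul_ne_zero (pow_ne_zero 3 hu) hD)
      linear_combination f2 - ((C.u : F) ^ 4) * e2 - h4 + (-2 * (C.u : F) ^ 2 * px P) * h2
        + ((m - C.s) * (C.u : F) ^ 2 * px P - C.s * (C.u : F) ^ 2 * px P
          + (C.u : F) ^ 3 * py P + C.s * (C.u : F) ^ 2 * px P) * h1 + (m - C.s) * h3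
    · have hd : px P - px Q ≠ 0 := sub_ne_zero.mpr hx
      apply mul_right_cancel₀ (mul_ne_zero (pow_ne_zero 2 hu) hd)
      linear_combination f1 - (C.u : F) ^ 3 * e1
  have hX : vx C (px (P + Q)) = px (vcFun h P + vcFun h Q) := by
    rw [f3, e3, px_vcFun h hP, px_vcFun h hQ, hm]
    simp only [vx]
    linear_combination ((C.u : F) * ℓ) * h1 - h2
  apply pt_ext (vcFun_ne_zero h hPQ) hPQ'
  · rw [px_vcFun h hPQ, hX]
  · rw [py_vcFun h hPQ, f4, ← hX, e4, py_vcFun h hP, px_vcFun h hP, hm]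
    simp only [vx, vy]
    linear_combination (-(C.u : F) ^ 2 * px (P + Q)) * h1 - h3

/-- The isomorphism on points. -/
noncomputable def vcEquiv (h : W' = C • W) : W'.Point ≃+ W.Point :=
  { Equiv.ofBijective (vcFun h) ⟨vcFun_injective h, vcFun_surjective h⟩ with
    map_add' := vcFun_add h }

lemma vcEquiv_apply (h : W' = C • W) (P : W'.Point) : vcEquiv h P = vcFun h P := rfl

end

section galois

variable {L : Type*} [Field L] [Algebra ℚ L] [DecidableEq L]
  {C : VariableChange ℚ} {E W' : WeierstrassCurve ℚ}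

omit [DecidableEq L] in
lemma vc_baseChange (h : W' = C • E) : (W'⁄L) = C.baseChange L • (E⁄L) := by
  rw [h]
  exact (map_variableChange E C (algebraMap ℚ L)).symm

/-- The isomorphism on `L`-points attached to a rational change of variables. -/
noncomputable def vcL (h : W' = C • E) : (W'⁄L).Point ≃+ (E⁄L).Point :=
  vcEquiv (vc_baseChange h)

lemma vcL_smul (h : W' = C • E) (σ : L ≃ₐ[ℚ] L) (P : (W'⁄L).Point) :
    vcL h (σ • P) = σ • vcL h P := by
  change vcFun (vc_baseChange (L := L) h) (Point.map σ.toAlgHom P)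
    = Point.map σ.toAlgHom (vcFun (vc_baseChange (L := L) h) P)
  have hr : ∀ r : ℚ, σ.toAlgHom (algebraMap ℚ L r) = algebraMap ℚ L r := fun r => σ.commutes r
  by_cases hP : P = 0
  · subst hP
    rw [_root_.map_zero, vcFun_zero, _root_.map_zero]
  · have hσP := map_ne_zero' σ.toAlgHom hP
    have h1 := vcFun_ne_zero (vc_baseChange (L := L) h) hσP
    have h2 := vcFun_ne_zero (vc_baseChange (L := L) h) hP
    have h3 := map_ne_zero' σ.toAlgHom h2
    have eu : ((C.baseChange L).u : L) = algebraMap ℚ L (C.u : ℚ) := rfl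
    have er : (C.baseChange L).r = algebraMap ℚ L C.r := rfl
    have es : (C.baseChange L).s = algebraMap ℚ L C.s := rfl
    have et : (C.baseChange L).t = algebraMap ℚ L C.t := rfl
    apply pt_ext h1 h3
    · rw [px_vcFun _ hσP, px_map, px_map, px_vcFun _ hP, vx, vx, map_add, map_mul, map_pow, eu, er,
        hr, hr]
    · rw [py_vcFun _ hσP, py_map, py_map, px_map, py_vcFun _ hP, vy, vy, map_add, map_add, map_mul,
        map_mul, map_mul, map_pow, map_pow, eu, es, et, hr, hr, hr]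

/-- **The Frobenius relation for an elliptic curve over `ℚ` with an integral model.** -/
theorem frobenius_relation_model [IsAlgClosed L] {A : ValuationSubring L} {E : WeierstrassCurve ℚ}
    {W : WeierstrassCurve ℤ} (hW : W.IsIntegralModelOf E) {l : ℕ} (hl : l.Prime)
    (hgood : W.IsGoodPrimeFor l) (hA : A.LiesOverPrime l) {σ : L ≃ₐ[ℚ] L}
    (hσ : A.IsFrobeniusAt σ l) {n : ℕ} (hn : ¬ l ∣ n) (P : (E⁄L).Point) (hP : n • P = 0) :
    σ • (σ • P) - W.apOfModel l • (σ • P) + (l : ℤ) • P = 0 := by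
  obtain ⟨C, hC⟩ := hW
  set f := vcL (L := L) hC.symm with hf
  obtain ⟨Q, rfl⟩ := f.surjective P
  have hQ : n • Q = 0 := by
    apply f.injective
    rw [map_nsmul, hP, _root_.map_zero]
  have h := frobenius_relation_torsion W hl hgood hA hσ hn Q hQ
  have h2 := congrArg f h
  rw [map_add, map_sub, map_zsmul, map_zsmul, _root_.map_zero, hf, vcL_smul, vcL_smul] at h2
  exact h2

end galois

end Fermat.Agent.Frob
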